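/-
S55 / LM (local fields of `BaseA` in LC language; helper91): the abstract BRAUER COLIMIT lemma.

`B` an additive abelian group which is the directed union of finite cyclic subgroups `B i`
(`i : ι`), with `Nat.card (B i) = n i`, such that every `B i` sits inside some `B j` whose order is
divisible by `m * n i` (for every `m ≥ 1`).  Then

* `B` is divisible: `∀ x, ∀ m ≥ 1, ∃ y, m • y = x`;
* for every prime `p`, the `p`-torsion `{x | p • x = 0}` has exactly `p` elements, and it is
  contained in every `B i` with `p ∣ n i`.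

Use: `B = H²_LC(G_E, Ω^×) = Br(E)`, `B i` = the image of `H²(Gal(E_i/E), E_i^×)` (cyclic of order
`[E_i : E]` by the Local block, inflation injective by Hilbert 90), degrees: unramified extensions of
every degree exist.
Mathlib only.
-/
import Mathlib

set_option autoImplicit false

namespace Fermat.Agent.S55.LM.BrauerColimit

variable {B : Type*} [AddCommGroup B]

/-- In a finite cyclic group of order `n`, an element killed by `d` with `d ∣ n` is a multiple of
`n / d`. -/
theorem exists_nsmul_of_nsmul_eq_zero (C : AddSubgroup B) [Finite C] (hC : IsAddCyclic C)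
    {d : ℕ} (hd : d ∣ Nat.card C) {x : B} (hx : x ∈ C) (hdx : d • x = 0) :
    ∃ z ∈ C, (Nat.card C / d) • z = x := by
  classical
  obtain ⟨g, hg⟩ := hC.exists_generator
  obtain ⟨k, hk⟩ := (AddSubgroup.mem_zmultiples_iff).mp (hg ⟨x, hx⟩)
  -- `x = k • g`
  have hn : addOrderOf g = Nat.card C := addOrderOf_eq_card_of_forall_mem_zmultiples hg
  have hnpos : 0 < Nat.card C := Nat.card_pos
  have hdpos : 0 < d := Nat.pos_of_dvd_of_pos hd hnpos
  obtain ⟨e, he⟩ := hd
  have hepos : 0 < e := by
    rcases Nat.eq_zero_or_pos e with h | h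
    · rw [h, Nat.mul_zero] at he; omega
    · exact h
  have hdiv : Nat.card C / d = e := by rw [he, Nat.mul_div_cancel_left _ hdpos]
  -- `d • (k • g) = 0` so `n ∣ d * k`, so `e ∣ k`
  have hxg : (⟨x, hx⟩ : C) = k • g := hk.symm
  have hdk : (d : ℤ) • (k • g) = 0 := by
    have : (d • (⟨x, hx⟩ : C)) = 0 := by
      apply Subtype.ext
      simpa using hdx
    rw [hxg] at this
    simpa using this
  rw [smul_smul] at hdk
  have hdvd : (addOrderOf g : ℤ) ∣ (d : ℤ) * k := (addOrderOf_dvd_iff_zsmul_eq_zero).mpr hdk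
  rw [hn, he] at hdvd
  push_cast at hdvd
  have hek : (e : ℤ) ∣ k := by
    have hd0 : (d : ℤ) ≠ 0 := by exact_mod_cast hdpos.ne'
    exact (mul_dvd_mul_iff_left hd0).mp hdvd
  obtain ⟨t, ht⟩ := hek
  refine ⟨((t • g : C) : B), (t • g : C).2, ?_⟩
  rw [hdiv]
  have : (e • (t • g : C)) = (⟨x, hx⟩ : C) := by
    rw [hxg, ht, mul_smul, natCast_zsmul]
  have h2 := congrArg (fun c : C => (c : B)) this
  simpa using h2

/-- In a finite cyclic group `C`, a subgroup `D` of order `d` contains every element of `C`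
killed by `d`. -/
theorem mem_of_nsmul_eq_zero_of_card (C D : AddSubgroup B) [Finite C] (hC : IsAddCyclic C)
    (hDC : D ≤ C) {x : B} (hx : x ∈ C) (hdx : Nat.card D • x = 0) : x ∈ D := by
  have hfinD : Finite D := Finite.of_injective (AddSubgroup.inclusion hDC)
    (AddSubgroup.inclusion_injective hDC)
  have hmul : Nat.card D * D.relIndex C = Nat.card C := by
    have := AddSubgroup.relIndex_mul_relIndex (⊥ : AddSubgroup B) D C bot_le hDC
    rwa [AddSubgroup.relIndex_bot_left, AddSubgroup.relIndex_bot_left] at this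
  have hd : Nat.card D ∣ Nat.card C := Dvd.intro _ hmul
  obtain ⟨z, hz, hzx⟩ := exists_nsmul_of_nsmul_eq_zero C hC hd hx hdx
  have hpos : 0 < Nat.card D := Nat.card_pos
  have hq : Nat.card C / Nat.card D = D.relIndex C := by
    rw [← hmul, Nat.mul_div_cancel_left _ hpos]
  rw [← hzx, hq]
  exact AddSubgroup.nsmul_relIndex_mem D hz

/-- The hypotheses on the directed family of cyclic subgroups. -/
structure CyclicSystem {ι : Type*} (Bi : ι → AddSubgroup B) (n : ι → ℕ) : Prop where
  /-- the union is everything -/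
  cover : ∀ x : B, ∃ i, x ∈ Bi i
  /-- the family is directed -/
  directed : ∀ i j, ∃ l, Bi i ≤ Bi l ∧ Bi j ≤ Bi l
  /-- each piece is finite -/
  fin : ∀ i, Finite (Bi i)
  /-- each piece is cyclic -/
  cyc : ∀ i, IsAddCyclic (Bi i)
  /-- of order `n i` -/
  card : ∀ i, Nat.card (Bi i) = n i
  /-- every piece sits in a piece of order divisible by `m * n i` -/
  grow : ∀ i (m : ℕ), 0 < m → ∃ j, Bi i ≤ Bi j ∧ m * n i ∣ n j

variable {ι : Type*} {Bi : ι → AddSubgroup B} {n : ι → ℕ}

theorem CyclicSystem.n_pos (h : CyclicSystem Bi n) (i : ι) : 0 < n i := by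
  have := h.fin i
  rw [← h.card i]
  exact Nat.card_pos

/-- **Divisibility** of the union. -/
theorem CyclicSystem.divisible (h : CyclicSystem Bi n) (x : B) {m : ℕ} (hm : 0 < m) :
    ∃ y : B, m • y = x := by
  obtain ⟨i, hi⟩ := h.cover x
  obtain ⟨j, hij, hdvd⟩ := h.grow i m hm
  have := h.fin j
  have := h.fin i
  -- `x` is killed by `n i`
  have hx0 : n i • x = 0 := by
    have : (Nat.card (Bi i)) • (⟨x, hi⟩ : Bi i) = 0 := card_nsmul_eq_zero'
    rw [h.card i] at this
    have h2 := congrArg (fun c : Bi i => (c : B)) this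
    simpa using h2
  have hni : n i ∣ Nat.card (Bi j) := by
    rw [h.card j]
    exact Dvd.dvd.trans (Dvd.intro_left m rfl) hdvd
  obtain ⟨z, -, hz⟩ := exists_nsmul_of_nsmul_eq_zero (Bi j) (h.cyc j) hni (hij hi) hx0
  -- `n j / n i = m * e`
  obtain ⟨e, he⟩ := hdvd
  have hnipos := h.n_pos i
  have hq : Nat.card (Bi j) / n i = m * e := by
    rw [h.card j, he, Nat.mul_comm m (n i), Nat.mul_assoc, Nat.mul_div_cancel_left _ hnipos]
  refine ⟨e • z, ?_⟩
  rw [smul_smul, ← hq, hz]

/-- The `d`-torsion of the union lies in every piece whose order is divisible by `d`. -/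
theorem CyclicSystem.torsion_le (h : CyclicSystem Bi n) {d : ℕ} {i : ι}
    (hi : d ∣ n i) {x : B} (hx : d • x = 0) : x ∈ Bi i := by
  obtain ⟨i', hi'⟩ := h.cover x
  obtain ⟨l, hil, hi'l⟩ := h.directed i i'
  have := h.fin l
  refine mem_of_nsmul_eq_zero_of_card (Bi l) (Bi i) (h.cyc l) hil (hi'l hi') ?_
  rw [h.card i]
  obtain ⟨e, he⟩ := hi
  rw [he, mul_comm, mul_smul, hx, smul_zero]

/-- There is a piece whose order is divisible by `m`. -/
theorem CyclicSystem.exists_dvd (h : CyclicSystem Bi n) {m : ℕ} (hm : 0 < m) :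
    ∃ i, m ∣ n i := by
  obtain ⟨i, -⟩ := h.cover 0
  obtain ⟨j, -, hj⟩ := h.grow i m hm
  exact ⟨j, Dvd.dvd.trans (Dvd.intro _ rfl) hj⟩

/-- **The `p`-torsion of the union has exactly `p` elements.** -/
theorem CyclicSystem.card_torsion (h : CyclicSystem Bi n) {p : ℕ} (hp : p.Prime) :
    Nat.card {x : B // p • x = 0} = p := by
  classical
  obtain ⟨i, hi⟩ := h.exists_dvd hp.pos
  have hfin := h.fin i
  have : Fact p.Prime := ⟨hp⟩
  -- an element `y ∈ Bi i` of order `p`
  have hpc : p ∣ Nat.card (Bi i) := by rw [h.card i]; exact hi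
  obtain ⟨y, hy⟩ := exists_prime_addOrderOf_dvd_card' (G := Bi i) p hpc
  -- the torsion is `zmultiples y`
  have hy0 : p • (y : B) = 0 := by
    have : p • y = 0 := by rw [← hy]; exact addOrderOf_nsmul_eq_zero y
    have h2 := congrArg (fun c : Bi i => (c : B)) this
    simpa using h2
  have hyord : addOrderOf (y : B) = p := by
    rw [← hy]
    exact AddSubgroup.addOrderOf_coe y
  have key : ∀ x : B, p • x = 0 ↔ x ∈ AddSubgroup.zmultiples (y : B) := by
    intro x
    constructor
    · intro hx
      -- inside the cyclic group `Bi i`, `zmultiples y` has order `p`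
      have hxi : x ∈ Bi i := h.torsion_le hi hx
      have hle : AddSubgroup.zmultiples (y : B) ≤ Bi i :=
        (AddSubgroup.zmultiples_le_of_mem y.2)
      refine mem_of_nsmul_eq_zero_of_card (Bi i) (AddSubgroup.zmultiples (y : B)) (h.cyc i)
        hle hxi ?_
      rw [Nat.card_zmultiples, hyord, hx]
    · intro hx
      obtain ⟨k, rfl⟩ := AddSubgroup.mem_zmultiples_iff.mp hx
      rw [smul_comm, hy0, smul_zero]
  have e : {x : B // p • x = 0} ≃ AddSubgroup.zmultiples (y : B) :=
    Equiv.subtypeEquivRight key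
  rw [Nat.card_congr e, Nat.card_zmultiples, hyord]

end Fermat.Agent.S55.LM.BrauerColimit
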