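/-
S55 / LM block, leaf `LM.concreteLF` (helper39, for helper91's `LM.fix`).

Setting: `q` prime, `Ω := PadicAlgCl q`, `K : IntermediateField ℚ_[q] Ω` finite over `ℚ_[q]`,
`E : IntermediateField K Ω` finite Galois over `K` (standard Mathlib `Field`/`Algebra` instances on
`↥K`, `↥E`).  The abstract (LF) Props of the Local block are instantiated at `(↥K, ↥E)` with the
subfield norms.
-/
import Mathlib
import Fermat.Agent.S55.Local.Blocks
import Fermat.Agent.S55.Local.LocalDatum
import Fermat.Agent.S55.Local.Reduction2

set_option autoImplicit false
set_option linter.unusedSectionVars false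

namespace Fermat.Agent.S55.LM.ConcreteLF

open Fermat.Agent.S55.Local

variable (q : ℕ) [Fact q.Prime]

section Instances

variable (K : IntermediateField ℚ_[q] (PadicAlgCl q)) (E : IntermediateField K (PadicAlgCl q))

/-- `↥E` is a normed algebra over `↥K` (both carry the norm of `Ω`). -/
@[reducible] noncomputable def normedAlgebraKE : NormedAlgebra K E where
  toAlgebra := inferInstance
  norm_smul_le a x := by
    rw [Algebra.smul_def, norm_mul]
    exact le_of_eq rfl

/-- `↥E` is a normed algebra over `ℚ_[q]`. -/
@[reducible] noncomputable def normedAlgebraQE : NormedAlgebra ℚ_[q] E where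
  toAlgebra := inferInstance
  norm_smul_le a x := by
    rw [Algebra.smul_def, norm_mul]
    refine le_of_eq ?_
    congr 1
    exact PadicAlgCl.norm_extends q a

end Instances

section Main

variable (K : IntermediateField ℚ_[q] (PadicAlgCl q)) [FiniteDimensional ℚ_[q] K]
  (E : IntermediateField K (PadicAlgCl q)) [FiniteDimensional K E] [IsGalois K E]

theorem finiteDimensional_QE : FiniteDimensional ℚ_[q] E :=
  FiniteDimensional.trans ℚ_[q] K E

/-- **(LM.concreteLF), order of `H²`.** -/
theorem concrete_h2Card (h : Blocks.H2Card) :
    Nat.card (groupCohomology (Rep.ofAlgebraAutOnUnits K E) 2) = Module.finrank K E := by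
  let _ := normedAlgebraQE q K E
  have := finiteDimensional_QE q K E
  exact @h K E (LocalDatum.nontriviallyNormedField q K) (LocalDatum.isUltrametricDist q K)
    (LocalDatum.properSpace q K) (LocalDatum.nontriviallyNormedField q E)
    (LocalDatum.isUltrametricDist q E) (LocalDatum.properSpace q E) (normedAlgebraKE q K E)
    inferInstance inferInstance

/-- **(LM.concreteLF), cyclicity of `H²`.** -/
theorem concrete_h2Cyclic (h : Blocks.H2Cyclic) :
    IsAddCyclic (groupCohomology (Rep.ofAlgebraAutOnUnits K E) 2) := by
  let _ := normedAlgebraQE q K E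
  have := finiteDimensional_QE q K E
  exact @h K E (LocalDatum.nontriviallyNormedField q K) (LocalDatum.isUltrametricDist q K)
    (LocalDatum.properSpace q K) (LocalDatum.nontriviallyNormedField q E)
    (LocalDatum.isUltrametricDist q E) (LocalDatum.properSpace q E) (normedAlgebraKE q K E)
    inferInstance inferInstance

/-- **(LM.concreteLF), vanishing of `H³`.** -/
theorem concrete_h3Vanish (h : Reduction2.H3Vanish) :
    CategoryTheory.Limits.IsZero (groupCohomology (Rep.ofAlgebraAutOnUnits K E) 3) := by
  let _ := normedAlgebraQE q K E
  have := finiteDimensional_QE q K E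
  exact @h K E (LocalDatum.nontriviallyNormedField q K) (LocalDatum.isUltrametricDist q K)
    (LocalDatum.properSpace q K) (LocalDatum.nontriviallyNormedField q E)
    (LocalDatum.isUltrametricDist q E) (LocalDatum.properSpace q E) (normedAlgebraKE q K E)
    inferInstance inferInstance

end Main

section Pow

variable (K : IntermediateField ℚ_[q] (PadicAlgCl q)) [FiniteDimensional ℚ_[q] K]

theorem charZero_K : CharZero K :=
  charZero_of_injective_algebraMap (algebraMap ℚ_[q] K).injective

/-- **(LM.concreteLF), index of `p`-th powers** (the literal conclusion of `Blocks.PowIndex` for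
`↥K`, with the ultrametric instance of `LocalDatum`). -/
theorem concrete_powIndex (h : Blocks.PowIndex) (p : ℕ) [Fact p.Prime] :
    (powMonoidHom p : Kˣ →* Kˣ).range.index =
      p * Nat.card (rootsOfUnity p K) *
        (@Blocks.normBall K _ (LocalDatum.isUltrametricDist q K) (p : K)).relIndex
          (@Blocks.normBall K _ (LocalDatum.isUltrametricDist q K) 1) :=
  @h K (LocalDatum.nontriviallyNormedField q K) (LocalDatum.isUltrametricDist q K)
    (LocalDatum.properSpace q K) (charZero_K q K) p _

end Pow

end Fermat.Agent.S55.LM.ConcreteLF
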