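/-
S55 / LM block, leaf `LM.concreteUnram` (helper58, for helper91's `LM.fix`).

Setting: `q` prime, `Ω := PadicAlgCl q`, `K : IntermediateField ℚ_[q] Ω` finite over `ℚ_[q]`
(standard Mathlib `Field`/`Algebra` instances on `↥K`).  From the abstract block
`Local.Blocks.UnramExists` (instantiated at `↥K` with the subfield norm, using the reducible
instances of `Local/LocalDatum.lean`) we get, for every `m ≥ 1`, a finite Galois (cyclic)
extension `E ⊆ Ω` of `K` of degree `m`: embed the abstract extension with `IsAlgClosed.lift`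
and take the range.
-/
import Mathlib
import Fermat.Agent.S55.Local.Blocks
import Fermat.Agent.S55.Local.LocalDatum

set_option autoImplicit false

namespace Fermat.Agent.S55.LM.ConcreteUnram

open Fermat.Agent.S55.Local

variable (q : ℕ) [Fact q.Prime]

/-- An abstract finite Galois extension `E` of `↥K` is realised as an intermediate field of
`Ω / K` (same degree, isomorphic Galois group). -/
theorem exists_intermediateField_of_abstract
    (K : IntermediateField ℚ_[q] (PadicAlgCl q))
    (E : Type) [Field E] [Algebra K E] [FiniteDimensional K E] [IsGalois K E] :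
    ∃ E' : IntermediateField K (PadicAlgCl q), FiniteDimensional K E' ∧ IsGalois K E' ∧
      Module.finrank K E' = Module.finrank K E ∧ Nonempty (E ≃ₐ[K] E') := by
  have : Algebra.IsAlgebraic K E := Algebra.IsAlgebraic.of_finite K E
  let f : E →ₐ[K] PadicAlgCl q := IsAlgClosed.lift
  let e : E ≃ₐ[K] f.fieldRange := AlgEquiv.ofInjectiveField f
  refine ⟨f.fieldRange, ?_, ?_, ?_, ⟨e⟩⟩
  · exact e.toLinearEquiv.finiteDimensional
  · exact IsGalois.of_algEquiv e
  · exact e.toLinearEquiv.finrank_eq.symm

/-- Strong form of **(LM.concreteUnram)**: the extension can moreover be taken cyclic. -/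
theorem concrete_unramExists_cyclic (hU : Blocks.UnramExists)
    (K : IntermediateField ℚ_[q] (PadicAlgCl q)) [FiniteDimensional ℚ_[q] K]
    (m : ℕ) (hm : 0 < m) :
    ∃ E : IntermediateField K (PadicAlgCl q),
      FiniteDimensional K E ∧ IsGalois K E ∧ Module.finrank K E = m ∧
        IsCyclic (E ≃ₐ[K] E) := by
  obtain ⟨E, iN, iU, iP, iA, iF, iG, hcyc, hrank, -⟩ :=
    @hU K (LocalDatum.nontriviallyNormedField q K) (LocalDatum.isUltrametricDist q K)
      (LocalDatum.properSpace q K) m hm
  obtain ⟨E', h1, h2, h3, ⟨e⟩⟩ := exists_intermediateField_of_abstract q K E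
  refine ⟨E', h1, h2, h3.trans hrank, ?_⟩
  exact isCyclic_of_surjective e.autCongr.toMonoidHom e.autCongr.surjective

/-- **(LM.concreteUnram)**: from the abstract block `UnramExists`, every finite extension `K` of
`ℚ_[q]` inside `Ω = PadicAlgCl q` has, for each `m ≥ 1`, a finite Galois extension
`E ⊆ Ω` of degree `m`. -/
theorem concrete_unramExists (hU : Blocks.UnramExists)
    (K : IntermediateField ℚ_[q] (PadicAlgCl q)) [FiniteDimensional ℚ_[q] K]
    (m : ℕ) (hm : 0 < m) :
    ∃ E : IntermediateField K (PadicAlgCl q),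
      FiniteDimensional K E ∧ IsGalois K E ∧ Module.finrank K E = m := by
  obtain ⟨E, h1, h2, h3, -⟩ := concrete_unramExists_cyclic q hU K m hm
  exact ⟨E, h1, h2, h3⟩

end Fermat.Agent.S55.LM.ConcreteUnram
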