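/-
S55 / LM (local colimit layer), piece `LM.galoisDict` (helper92): the LOCAL GALOIS DICTIONARY.

Setting: `q` prime, `Ω := PadicAlgCl q`, `Γ_q := Gam q = Ω ≃ₐ[ℚ_[q]] Ω` (`= primeLocalGaloisGroup q`),
`𝒱_q := VB q = localBasis (localGaloisToGlobal q)` (`= localBasis (primeLocalToGlobal q)`), the basis of
`Γ_q` used by the arithmetic site.

* (D1) `IsOpenSub q P` (`P` contains a member of `𝒱_q`) `↔ P = E.fixingSubgroup` for a finite `E/ℚ_q`
  (`isOpenSub_iff`); members are fixing subgroups of finite Galois extensions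
  (`exists_eq_fixingSubgroup_of_mem`); `fixingSubgroup_fixedField`, `finiteDimensional_fixedField`.
* (D3a) `unitsRep q = Ωˣ : Rep ℤ Γ_q` is smooth (`isSmooth_unitsRep`); `exists_pow_eq` (divisible).
* (D2) for `P` open and `U : Subgroup ↥P` open normal: `K := baseField q P = Ω^P`,
  `L := levelField q U = Ω^U : IntermediateField K Ω` is finite Galois over `K`
  (`finiteDimensional_levelField`, `isGalois_levelField`), `levelIso : P ⧸ U ≃* Gal(L/K)`,
  `finrank_levelField : [L : K] = U.index`.
* (D3b,c) `invEquiv : ((Ωˣ)^U) ≃ₗ[ℤ] Additive Lˣ`, equivariant (`invEquiv_comp_ρ`), and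
  `levelCohIso : Hⁿ(P ⧸ U, (Ωˣ)^U) ≅ Hⁿ(Gal(L/K), Lˣ)` for Mathlib's `quotientToInvariants` and
  `Rep.ofAlgebraAutOnUnits`.
-/
import Mathlib
import Fermat.Agent.S55.Formal.PreludeLC
import Fermat.Agent.S55.Formal.SmoothLift
import Fermat.Agent.S55.KrasnerBridge

set_option autoImplicit false
set_option linter.style.haveILetI false
set_option linter.unusedSectionVars false

open IntermediateField CategoryTheory

namespace Fermat.Agent.S55.LM.GaloisDict

open Fermat.Agent.S55.Formal Fermat.Agent.S55.Formal.PreludeLC Fermat.Agent.S55.KrasnerBridge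

variable (q : ℕ) [Fact q.Prime]

/-- `Ω = PadicAlgCl q` is Galois over `ℚ_q`. -/
theorem isGalois_padicAlgCl : IsGalois ℚ_[q] (PadicAlgCl q) := by
  haveI : Algebra.IsAlgebraic ℚ_[q] (PadicAlgCl q) := PadicAlgCl.isAlgebraic q
  haveI : IsAlgClosure ℚ_[q] (PadicAlgCl q) := ⟨inferInstance, inferInstance⟩
  haveI : Normal ℚ_[q] (PadicAlgCl q) := IsAlgClosure.normal ℚ_[q] (PadicAlgCl q)
  exact ⟨⟩

local instance instIsGaloisPadicAlgCl : IsGalois ℚ_[q] (PadicAlgCl q) := isGalois_padicAlgCl q

/-- the local Galois group `Γ_q`. -/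
noncomputable abbrev Gam : Type := PadicAlgCl q ≃ₐ[ℚ_[q]] PadicAlgCl q

/-- the local basis `𝒱_q` of `Γ_q`. -/
noncomputable abbrev VB : NBasis (Gam q) := localBasis (localGaloisToGlobal q)

/-- `P` is open for the local basis. -/
def IsOpenSub (P : Subgroup (Gam q)) : Prop := ∃ U, (VB q).mem U ∧ U ≤ P

/-- (D1a) members of the local basis are the fixing subgroups of (certain) finite Galois
extensions of `ℚ_q`. -/
theorem exists_eq_fixingSubgroup_of_mem {N : Subgroup (Gam q)} (hN : (VB q).mem N) :
    ∃ E : IntermediateField ℚ_[q] (PadicAlgCl q), FiniteDimensional ℚ_[q] E ∧ IsGalois ℚ_[q] E ∧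
      N = E.fixingSubgroup := by
  have hnorm : N.Normal := (VB q).normal hN
  obtain ⟨F, hF, _, rfl⟩ := hN
  haveI := hF
  obtain ⟨E, hE, hiff⟩ := exists_local_level q F
  have hEq : (F.fixingSubgroup.comap (localGaloisToGlobal q)) = E.fixingSubgroup := by
    ext s
    rw [Subgroup.mem_comap]
    exact (hiff s).symm
  refine ⟨E, hE, ?_, hEq⟩
  rw [← InfiniteGalois.normal_iff_isGalois, ← hEq]
  exact hnorm

/-- (D1b) the fixing subgroup of a finite extension of `ℚ_q` is open for the local basis. -/
theorem isOpenSub_fixingSubgroup (E : IntermediateField ℚ_[q] (PadicAlgCl q))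
    [FiniteDimensional ℚ_[q] E] : IsOpenSub q E.fixingSubgroup := by
  obtain ⟨F, hF, himp⟩ := exists_global_level q E
  haveI := hF
  obtain ⟨U, hU, hle⟩ := exists_mem_localBasis_le (localGaloisToGlobal q) F
  exact ⟨U, hU, fun s hs => himp s (hle hs)⟩

/-- an open subgroup (for the local basis) is open for the Krull topology. -/
theorem isOpen_of_isOpenSub {P : Subgroup (Gam q)} (hP : IsOpenSub q P) :
    IsOpen (P : Set (Gam q)) := by
  obtain ⟨U, hU, hle⟩ := hP
  obtain ⟨E, hE, _, rfl⟩ := exists_eq_fixingSubgroup_of_mem q hU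
  haveI := hE
  exact Subgroup.isOpen_mono hle E.fixingSubgroup_isOpen

/-- (D1c) an open subgroup is the fixing subgroup of its fixed field. -/
theorem fixingSubgroup_fixedField {P : Subgroup (Gam q)} (hP : IsOpenSub q P) :
    (fixedField P).fixingSubgroup = P := by
  have ho := isOpen_of_isOpenSub q hP
  have hc : IsClosed (P : Set (Gam q)) := Subgroup.isClosed_of_isOpen P ho
  exact InfiniteGalois.fixingSubgroup_fixedField ⟨P, hc⟩

/-- (D1d) the fixed field of an open subgroup is finite over `ℚ_q`. -/
theorem finiteDimensional_fixedField {P : Subgroup (Gam q)} (hP : IsOpenSub q P) :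
    FiniteDimensional ℚ_[q] (fixedField P) := by
  rw [← InfiniteGalois.isOpen_iff_finite, fixingSubgroup_fixedField q hP]
  exact isOpen_of_isOpenSub q hP

/-- `IsOpenSub` is the same as being the fixing subgroup of a finite extension. -/
theorem isOpenSub_iff (P : Subgroup (Gam q)) :
    IsOpenSub q P ↔ ∃ E : IntermediateField ℚ_[q] (PadicAlgCl q), FiniteDimensional ℚ_[q] E ∧
      P = E.fixingSubgroup := by
  constructor
  · intro hP
    exact ⟨fixedField P, finiteDimensional_fixedField q hP, (fixingSubgroup_fixedField q hP).symm⟩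
  · rintro ⟨E, hE, rfl⟩
    haveI := hE
    exact isOpenSub_fixingSubgroup q E

/-- the `Γ_q`-module `Ωˣ`. -/
noncomputable abbrev unitsRep : Rep.{0, 0, 0} ℤ (Gam q) := Rep.ofAlgebraAutOnUnits ℚ_[q] (PadicAlgCl q)

/-- the unit of `Ω` underlying an element of `unitsRep`. -/
def toUnit (a : unitsRep q) : (PadicAlgCl q)ˣ := Additive.toMul (a : Additive (PadicAlgCl q)ˣ)

theorem toUnit_ρ (s : Gam q) (a : unitsRep q) :
    ((toUnit q ((unitsRep q).ρ s a) : (PadicAlgCl q)ˣ) : PadicAlgCl q) = s (toUnit q a) := rfl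

theorem toUnit_injective : Function.Injective (toUnit q) := fun _ _ h => h

/-- every element of `Ω` is fixed by a member of the local basis. -/
theorem exists_mem_fixing (x : PadicAlgCl q) : ∃ U, (VB q).mem U ∧ ∀ s ∈ U, s x = x := by
  have hx : IsIntegral ℚ_[q] x := ((PadicAlgCl.isAlgebraic q).isAlgebraic x).isIntegral
  haveI : FiniteDimensional ℚ_[q] ℚ_[q]⟮x⟯ := IntermediateField.adjoin.finiteDimensional hx
  obtain ⟨U, hU, hle⟩ := isOpenSub_fixingSubgroup q ℚ_[q]⟮x⟯
  refine ⟨U, hU, fun s hs => ?_⟩
  have := hle hs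
  rw [IntermediateField.mem_fixingSubgroup_iff] at this
  exact this x (IntermediateField.mem_adjoin_simple_self _ x)

/-- (D3a) `Ωˣ` is a smooth `Γ_q`-module. -/
theorem isSmooth_unitsRep : SmoothLift.IsSmooth (VB q) (unitsRep q) := by
  intro a
  obtain ⟨U, hU, h⟩ := exists_mem_fixing q ((toUnit q a : (PadicAlgCl q)ˣ) : PadicAlgCl q)
  refine ⟨U, hU, fun s hs => ?_⟩
  apply toUnit_injective
  apply Units.ext
  rw [toUnit_ρ]
  exact h s hs

/-- (D3d) `Ωˣ` is divisible: every unit of `Ω` is an `n`-th power (`Ω` is algebraically closed). -/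
theorem exists_pow_eq {n : ℕ} (hn : 0 < n) (u : (PadicAlgCl q)ˣ) : ∃ v : (PadicAlgCl q)ˣ, v ^ n = u := by
  obtain ⟨z, hz⟩ := IsAlgClosed.exists_pow_nat_eq (u : PadicAlgCl q) hn
  have hz0 : z ≠ 0 := by
    rintro rfl
    rw [zero_pow hn.ne'] at hz
    exact u.ne_zero hz.symm
  exact ⟨Units.mk0 z hz0, Units.ext (by simpa using hz)⟩

/-- the multiplication by `n` on `unitsRep q` is onto. -/
theorem nsmul_surjective_unitsRep {n : ℕ} (hn : 0 < n) (a : unitsRep q) :
    ∃ b : unitsRep q, n • b = a := by
  obtain ⟨v, hv⟩ := exists_pow_eq q hn (toUnit q a)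
  exact ⟨(Additive.ofMul v : Additive (PadicAlgCl q)ˣ), toUnit_injective q hv⟩

/-- the kernel of the multiplication by `n` on `unitsRep q` is `μ_n`. -/
theorem nsmul_eq_zero_iff_unitsRep (n : ℕ) (a : unitsRep q) :
    n • a = 0 ↔ (toUnit q a) ^ n = 1 :=
  ⟨fun h => congrArg (toUnit q) h, fun h => toUnit_injective q h⟩


section Level

variable {P : Subgroup (Gam q)}

/-- the base field `K = Ω^P`. -/
noncomputable abbrev baseField (P : Subgroup (Gam q)) : IntermediateField ℚ_[q] (PadicAlgCl q) :=
  fixedField P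

/-- the level field `L = Ω^U` as an extension of `K = Ω^P`, for a subgroup `U` of `P`. -/
noncomputable def levelField (U : Subgroup ↥P) :
    IntermediateField (baseField q P) (PadicAlgCl q) where
  carrier := {x | ∀ s ∈ U, (s : Gam q) x = x}
  mul_mem' := fun {x y} hx hy s hs => by rw [map_mul, hx s hs, hy s hs]
  add_mem' := fun {x y} hx hy s hs => by rw [map_add, hx s hs, hy s hs]
  one_mem' := fun s _ => map_one _
  zero_mem' := fun s _ => map_zero _
  inv_mem' := fun x hx s hs => by rw [map_inv₀, hx s hs]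
  algebraMap_mem' := fun k s _ => k.2 ⟨s.1, s.2⟩

theorem mem_levelField_iff (U : Subgroup ↥P) (x : PadicAlgCl q) :
    x ∈ levelField q U ↔ ∀ s ∈ U, (s : Gam q) x = x := Iff.rfl

/-- `U` (a subgroup of `P`) is open. -/
def IsOpenIn (U : Subgroup ↥P) : Prop := IsOpenSub q (U.map P.subtype)

/-- members of the restricted basis are open: `N.subgroupOf P` for a member `N` and open `P`. -/
theorem isOpenIn_subgroupOf (hP : IsOpenSub q P) {N : Subgroup (Gam q)} (hN : (VB q).mem N) :
    IsOpenIn q (N.subgroupOf P) := by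
  obtain ⟨W, hW, hWP⟩ := hP
  obtain ⟨W', hW', hle⟩ := (VB q).inf hN hW
  refine ⟨W', hW', fun s hs => ?_⟩
  have h1 := (hle hs).1
  have h2 := hWP (hle hs).2
  exact ⟨⟨s, h2⟩, Subgroup.mem_subgroupOf.2 h1, rfl⟩

/-- `Ω^U` (over `ℚ_q`) and the level field (over `K`) are the same field. -/
noncomputable def levelFieldEquiv (U : Subgroup ↥P) :
    (fixedField (U.map P.subtype) : IntermediateField ℚ_[q] (PadicAlgCl q)) ≃ₐ[ℚ_[q]]
      levelField q U where
  toFun x := ⟨x.1, fun s hs => x.2 ⟨s.1, ⟨s, hs, rfl⟩⟩⟩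
  invFun y := ⟨y.1, by
    rintro ⟨g, s, hs, rfl⟩
    exact y.2 s hs⟩
  left_inv _ := rfl
  right_inv _ := rfl
  map_mul' _ _ := rfl
  map_add' _ _ := rfl
  commutes' _ := rfl

theorem finiteDimensional_levelField {U : Subgroup ↥P} (hU : IsOpenIn q U) :
    FiniteDimensional (baseField q P) (levelField q U) := by
  haveI := finiteDimensional_fixedField q hU
  haveI : FiniteDimensional ℚ_[q] (levelField q U) :=
    (levelFieldEquiv q U).toLinearEquiv.finiteDimensional
  exact FiniteDimensional.right ℚ_[q] (baseField q P) (levelField q U)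

/-- `P ≃* Gal(Ω/K)` for open `P`, `K = Ω^P`. -/
noncomputable def openEquiv (hP : IsOpenSub q P) :
    P ≃* (PadicAlgCl q ≃ₐ[baseField q P] PadicAlgCl q) :=
  (MulEquiv.subgroupCongr (fixingSubgroup_fixedField q hP).symm).trans
    (fixingSubgroupEquiv (baseField q P))

theorem openEquiv_apply (hP : IsOpenSub q P) (s : P) (x : PadicAlgCl q) :
    openEquiv q hP s x = s.1 x := rfl

theorem openEquiv_symm_apply (hP : IsOpenSub q P)
    (σ : PadicAlgCl q ≃ₐ[baseField q P] PadicAlgCl q) (x : PadicAlgCl q) :
    (((openEquiv q hP).symm σ : P) : Gam q) x = σ x := by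
  conv_rhs => rw [← (openEquiv q hP).apply_symm_apply σ]
  rfl

theorem normal_levelField (hP : IsOpenSub q P) (U : Subgroup ↥P) [U.Normal] :
    Normal (baseField q P) (levelField q U) := by
  rw [IntermediateField.normal_iff_forall_map_le']
  intro σ y hy
  obtain ⟨x, hx, rfl⟩ := hy
  intro t ht
  set s : P := (openEquiv q hP).symm σ with hs
  have hσ : ∀ z, σ z = (s : Gam q) z := fun z => (openEquiv_symm_apply q hP σ z).symm
  have hconj : s⁻¹ * t * s ∈ U := by
    have := Subgroup.Normal.conj_mem (inferInstance : U.Normal) t ht s⁻¹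
    simpa using this
  have h1 := hx _ hconj
  change (t : Gam q) (σ x) = σ x
  rw [hσ]
  have h2 : ((s⁻¹ * t * s : P) : Gam q) x = (s : Gam q)⁻¹ ((t : Gam q) ((s : Gam q) x)) := rfl
  rw [h2] at h1
  have h3 := congrArg (s : Gam q) h1
  rwa [AlgEquiv.aut_inv, AlgEquiv.apply_symm_apply] at h3

theorem isGalois_levelField (hP : IsOpenSub q P) (U : Subgroup ↥P) [U.Normal] :
    IsGalois (baseField q P) (levelField q U) := by
  haveI := normal_levelField q hP U
  exact ⟨⟩

end Level

section Iso

variable {P : Subgroup (Gam q)} (U : Subgroup ↥P) [U.Normal]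

/-- the restriction homomorphism `P → Gal(L/K)`, `L = Ω^U`, `K = Ω^P`. -/
noncomputable def levelHom (hP : IsOpenSub q P) :
    P →* (levelField q U ≃ₐ[baseField q P] levelField q U) :=
  haveI := normal_levelField q hP U
  (AlgEquiv.restrictNormalHom (levelField q U)).comp (openEquiv q hP).toMonoidHom

theorem levelHom_apply (hP : IsOpenSub q P) (s : P) (x : levelField q U) :
    ((levelHom q U hP s x : levelField q U) : PadicAlgCl q) = s.1 (x : PadicAlgCl q) := by
  haveI := normal_levelField q hP U
  exact AlgEquiv.restrictNormal_commutes (openEquiv q hP s) (levelField q U) x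

theorem levelHom_surjective (hP : IsOpenSub q P) : Function.Surjective (levelHom q U hP) := by
  haveI := normal_levelField q hP U
  unfold levelHom
  rw [MonoidHom.coe_comp]
  exact (AlgEquiv.restrictNormalHom_surjective (PadicAlgCl q)).comp (openEquiv q hP).surjective

theorem levelHom_ker (hP : IsOpenSub q P) (hU : IsOpenIn q U) : U = (levelHom q U hP).ker := by
  ext s
  rw [MonoidHom.mem_ker]
  constructor
  · intro hs
    ext x
    rw [levelHom_apply]
    exact x.2 s hs
  · intro h
    have hmem : (s : Gam q) ∈ (fixedField (U.map P.subtype) :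
        IntermediateField ℚ_[q] (PadicAlgCl q)).fixingSubgroup := by
      rw [IntermediateField.mem_fixingSubgroup_iff]
      intro x hx
      have hx' : x ∈ levelField q U := fun t ht => hx ⟨t.1, ⟨t, ht, rfl⟩⟩
      have := congrArg (fun f => ((f ⟨x, hx'⟩ : levelField q U) : PadicAlgCl q)) h
      simpa [levelHom_apply] using this
    rw [fixingSubgroup_fixedField q hU] at hmem
    obtain ⟨t, ht, hts⟩ := hmem
    have : t = s := Subtype.ext hts
    rwa [← this]

/-- (D2) `P ⧸ U ≃* Gal(Ω^U / Ω^P)`. -/
noncomputable def levelIso (hP : IsOpenSub q P) (hU : IsOpenIn q U) :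
    P ⧸ U ≃* (levelField q U ≃ₐ[baseField q P] levelField q U) :=
  QuotientGroup.liftEquiv U (levelHom_surjective q U hP) (levelHom_ker q U hP hU)

theorem levelIso_mk (hP : IsOpenSub q P) (hU : IsOpenIn q U) (s : P) :
    levelIso q U hP hU (QuotientGroup.mk s) = levelHom q U hP s := rfl

/-- `[Ω^U : Ω^P] = [P : U]`. -/
theorem finrank_levelField (hP : IsOpenSub q P) (hU : IsOpenIn q U) :
    Module.finrank (baseField q P) (levelField q U) = U.index := by
  haveI := isGalois_levelField q hP U
  haveI := finiteDimensional_levelField q hU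
  rw [← IsGalois.card_aut_eq_finrank, Subgroup.index_eq_card]
  exact (Nat.card_congr (levelIso q U hP hU).toEquiv).symm

end Iso

section Invariants

variable {P : Subgroup (Gam q)} (U : Subgroup ↥P) [U.Normal]

/-- the restriction of `Ωˣ` to a subgroup `P` of `Γ_q`. -/
noncomputable abbrev unitsRepOn (P : Subgroup (Gam q)) : Rep.{0, 0, 0} ℤ ↥P :=
  Rep.res P.subtype (unitsRep q)

/-- (D3b) the `U`-invariants of `Ωˣ` are the units lying in `L = Ω^U`. -/
theorem mem_invariants_iff (a : unitsRepOn q P) :
    a ∈ Representation.invariants ((unitsRepOn q P).ρ.comp U.subtype) ↔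
      ((toUnit q a : (PadicAlgCl q)ˣ) : PadicAlgCl q) ∈ levelField q U := by
  rw [Representation.mem_invariants, mem_levelField_iff]
  constructor
  · intro h s hs
    have := h ⟨s, hs⟩
    exact congrArg (fun b => ((toUnit q b : (PadicAlgCl q)ˣ) : PadicAlgCl q)) this
  · intro h s
    apply toUnit_injective
    apply Units.ext
    exact h s.1 s.2

/-- the units of `L = Ω^U` inside `Ωˣ`. -/
noncomputable def unitsToInvFun (y : Additive (levelField q U)ˣ) : unitsRepOn q P :=
  (Additive.ofMul (Units.map
    ((algebraMap (levelField q U) (PadicAlgCl q) : levelField q U →* PadicAlgCl q))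
    (Additive.toMul y)) : Additive (PadicAlgCl q)ˣ)

theorem unitsToInvFun_mem (y : Additive (levelField q U)ˣ) :
    unitsToInvFun q U y ∈ Representation.invariants ((unitsRepOn q P).ρ.comp U.subtype) := by
  rw [mem_invariants_iff q U]
  exact (Additive.toMul y).1.2

/-- the units of `L = Ω^U` as `U`-invariant elements of `Ωˣ`. -/
noncomputable def unitsToInv :
    Additive (levelField q U)ˣ →ₗ[ℤ]
      Representation.invariants ((unitsRepOn q P).ρ.comp U.subtype) :=
  AddMonoidHom.toIntLinearMap
    { toFun := fun y => ⟨unitsToInvFun q U y, unitsToInvFun_mem q U y⟩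
      map_zero' := by
        apply Subtype.ext
        apply toUnit_injective
        apply Units.ext
        rfl
      map_add' := fun x y => by
        apply Subtype.ext
        apply toUnit_injective
        apply Units.ext
        rfl }

theorem unitsToInv_coe (y : Additive (levelField q U)ˣ) :
    ((toUnit q (unitsToInv q U y).1 : (PadicAlgCl q)ˣ) : PadicAlgCl q) =
      (((Additive.toMul y : (levelField q U)ˣ) : levelField q U) : PadicAlgCl q) := rfl

theorem unitsToInv_bijective : Function.Bijective (unitsToInv q U) := by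
  constructor
  · intro x y h
    have h1 := congrArg (fun z => ((toUnit q (Subtype.val z) : (PadicAlgCl q)ˣ) : PadicAlgCl q)) h
    apply Additive.toMul.injective
    apply Units.ext
    exact Subtype.ext h1
  · rintro ⟨a, ha⟩
    have hmem := (mem_invariants_iff q U a).1 ha
    have hne : (⟨_, hmem⟩ : levelField q U) ≠ 0 := by
      intro h0
      have := congrArg Subtype.val h0
      exact (toUnit q a).ne_zero this
    refine ⟨Additive.ofMul (Units.mk0 ⟨_, hmem⟩ hne), ?_⟩
    apply Subtype.ext
    apply toUnit_injective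
    apply Units.ext
    rfl

/-- (D3c) `(Ωˣ)^U ≃ Lˣ`, `L = Ω^U`. -/
noncomputable def invEquiv :
    Representation.invariants ((unitsRepOn q P).ρ.comp U.subtype) ≃ₗ[ℤ]
      Additive (levelField q U)ˣ :=
  (LinearEquiv.ofBijective (unitsToInv q U) (unitsToInv_bijective q U)).symm

theorem invEquiv_unitsToInv (y : Additive (levelField q U)ˣ) :
    invEquiv q U (unitsToInv q U y) = y :=
  (LinearEquiv.ofBijective (unitsToInv q U) (unitsToInv_bijective q U)).symm_apply_apply y

theorem invEquiv_coe (a : Representation.invariants ((unitsRepOn q P).ρ.comp U.subtype)) :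
    (((Additive.toMul (invEquiv q U a) : (levelField q U)ˣ) : levelField q U) :
      PadicAlgCl q) = ((toUnit q a.1 : (PadicAlgCl q)ˣ) : PadicAlgCl q) := by
  obtain ⟨y, rfl⟩ := (unitsToInv_bijective q U).2 a
  rw [invEquiv_unitsToInv, unitsToInv_coe]

/-- the action of `P ⧸ U` on `(Ωˣ)^U` is the Galois action of `Gal(L/K)` on `Lˣ`. -/
theorem quotient_ρ_unitsToInv (hP : IsOpenSub q P) (s : P) (y : Additive (levelField q U)ˣ) :
    ((unitsRepOn q P).quotientToInvariants U).ρ (QuotientGroup.mk s) (unitsToInv q U y) =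
      unitsToInv q U ((Rep.ofAlgebraAutOnUnits (baseField q P) (levelField q U)).ρ
        (levelHom q U hP s) y) := by
  apply Subtype.ext
  apply toUnit_injective
  apply Units.ext
  exact (levelHom_apply q U hP s _).symm

theorem invEquiv_comp_ρ (hP : IsOpenSub q P) (hU : IsOpenIn q U) (g : P ⧸ U) :
    (invEquiv q U).toLinearMap ∘ₗ ((unitsRepOn q P).quotientToInvariants U).ρ g =
      (Rep.ofAlgebraAutOnUnits (baseField q P) (levelField q U)).ρ (levelIso q U hP hU g) ∘ₗ
        (invEquiv q U).toLinearMap := by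
  induction g using QuotientGroup.induction_on with | H s =>
  apply LinearMap.ext
  intro x
  obtain ⟨y, rfl⟩ := (unitsToInv_bijective q U).2 x
  have h1 := quotient_ρ_unitsToInv q U hP s y
  have h2 := invEquiv_unitsToInv q U
  exact (congrArg (invEquiv q U) h1).trans ((h2 _).trans (congrArg _ (h2 y).symm))

/-- **(D2)+(D3) finite-level cohomology**: the cohomology of the finite level `(P ⧸ U, (Ωˣ)^U)` is the
Galois cohomology of `L = Ω^U` over `K = Ω^P`. -/
noncomputable def levelCohIso (hP : IsOpenSub q P) (hU : IsOpenIn q U) (n : ℕ) :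
    groupCohomology ((unitsRepOn q P).quotientToInvariants U) n ≅
      groupCohomology (Rep.ofAlgebraAutOnUnits (baseField q P) (levelField q U)) n :=
  groupCohomology.mapIso (levelIso q U hP hU) (invEquiv q U) (invEquiv_comp_ρ q U hP hU) n

end Invariants

/-! ### `Nat.Primes` versions (the literal objects of the arithmetic site) -/

section Primes

open ExtCitation

local instance instFactPrimeOfPrimesGD (q : Nat.Primes) : Fact (q : ℕ).Prime := ⟨q.2⟩

/-- the local group of the arithmetic site is `Gam q`. -/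
theorem primeLocalGaloisGroup_eq (q : Nat.Primes) : primeLocalGaloisGroup q = Gam (q : ℕ) := rfl

/-- the local basis of the arithmetic site is `VB q`. -/
theorem localBasis_primeLocalToGlobal_eq (q : Nat.Primes) :
    localBasis (primeLocalToGlobal q) = VB (q : ℕ) := rfl

end Primes

end Fermat.Agent.S55.LM.GaloisDict
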