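/-
S55 / LM block (local fields of `BaseA` in LC language), row `LM.kummer` part 0 (helper90):
THE SHARED DEFINITIONS.

For a prime `q : Nat.Primes`:
* `Om q := PadicAlgCl q`, `Gq q := primeLocalGaloisGroup q`, `Vq q := localBasis (primeLocalToGlobal q)`;
* `unitsRep q : Rep ℤ (Gq q)` : the multiplicative group `(PadicAlgCl q)ˣ` (written additively) with
  its Galois action (Mathlib's `Rep.ofAlgebraAutOnUnits ℚ_[q] (PadicAlgCl q)`);
* for a subgroup `P ≤ Gq q`: `Ox q P : Rep ℤ P := Rep.res P.subtype (unitsRep q)` and the induced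
  basis `VP q P := subBasis (Vq q) P`;
* `unitsRep_ρ`, `Ox_ρ` : the action is `u ↦ Units.map g u`;
* `ofU`, `toU` : the (identity) passage `(Om q)ˣ ↔ unitsRep q`.
-/
import Mathlib
import Fermat.Agent.S55.Formal.PreludeLC
import Fermat.Agent.S55.Bridge.ShapiroLC
import Fermat.Agent.S55.KrasnerBridge

set_option autoImplicit false

open CategoryTheory groupCohomology ExtCitation

noncomputable section

namespace Fermat.Agent.S55.LM.Defs

open Fermat.Agent.S55.Formal Fermat.Agent.S55.Formal.PreludeLC Fermat.Agent.S55.Bridge.ShapiroLC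

variable (q : Nat.Primes)

/-- `q` is prime (as a `Fact`). -/
theorem fact_q : Fact (q : ℕ).Prime := ⟨q.2⟩

attribute [local instance] fact_q

/-- `Ω = ℚ̄_q` -/
abbrev Om : Type := PadicAlgCl (q : ℕ)

/-- `Γ_q = Gal(ℚ̄_q/ℚ_q)` -/
abbrev Gq : Type := primeLocalGaloisGroup q

/-- the basis of open normal subgroups of `Γ_q` used by the arithmetic site -/
abbrev Vq : NBasis (Gq q) := localBasis (primeLocalToGlobal q)

/-- an element of `Γ_q` as an algebra automorphism of `Ω` -/
def toAut (g : Gq q) : Om q ≃ₐ[ℚ_[(q : ℕ)]] Om q := g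

/-- `Ωˣ` as a `Γ_q`-module (written additively). -/
def unitsRep : Rep.{0, 0, 0} ℤ (Gq q) :=
  (Rep.ofAlgebraAutOnUnits ℚ_[(q : ℕ)] (Om q) :
    Rep ℤ (Om q ≃ₐ[ℚ_[(q : ℕ)]] Om q))

/-- `Ωˣ` as a `P`-module for a subgroup `P ≤ Γ_q`. -/
def Ox (P : Subgroup (Gq q)) : Rep.{0, 0, 0} ℤ P := Rep.res P.subtype (unitsRep q)

/-- the basis induced on a subgroup `P ≤ Γ_q`. -/
abbrev VP (P : Subgroup (Gq q)) : NBasis P := subBasis (Vq q) P

/-- a unit of `Ω` as an element of `unitsRep q` -/
def ofU (u : (Om q)ˣ) : unitsRep q := Additive.ofMul u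

/-- an element of `unitsRep q` as a unit of `Ω` -/
def toU (a : unitsRep q) : (Om q)ˣ := Additive.toMul a

@[simp] theorem toU_ofU (u : (Om q)ˣ) : toU q (ofU q u) = u := rfl
@[simp] theorem ofU_toU (a : unitsRep q) : ofU q (toU q a) = a := rfl

@[simp] theorem toU_add (a b : unitsRep q) : toU q (a + b) = toU q a * toU q b := rfl
@[simp] theorem toU_zero : toU q (0 : unitsRep q) = 1 := rfl
@[simp] theorem toU_neg (a : unitsRep q) : toU q (-a) = (toU q a)⁻¹ := rfl
@[simp] theorem toU_sub (a b : unitsRep q) : toU q (a - b) = toU q a / toU q b := rfl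
@[simp] theorem toU_nsmul (n : ℕ) (a : unitsRep q) : toU q (n • a) = toU q a ^ n := rfl
@[simp] theorem toU_zsmul (n : ℤ) (a : unitsRep q) : toU q (n • a) = toU q a ^ n := rfl

theorem toU_injective : Function.Injective (toU q) := fun _ _ h => h

/-- the action on `unitsRep q` is the Galois action on units. -/
theorem unitsRep_ρ (g : Gq q) (a : unitsRep q) :
    toU q ((unitsRep q).ρ g a) = Units.map ((toAut q g : Om q ≃ₐ[ℚ_[(q : ℕ)]] Om q) : Om q →* Om q)
      (toU q a) := rfl

/-- the action on `unitsRep q`, on underlying elements of `Ω`. -/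
theorem coe_unitsRep_ρ (g : Gq q) (a : unitsRep q) :
    ((toU q ((unitsRep q).ρ g a) : (Om q)ˣ) : Om q) = toAut q g ((toU q a : (Om q)ˣ) : Om q) := rfl

/-- the action on `Ox q P` is the restricted one. -/
theorem Ox_ρ (P : Subgroup (Gq q)) (g : P) (a : Ox q P) :
    (Ox q P).ρ g a = (unitsRep q).ρ (g : Gq q) a := rfl

end Fermat.Agent.S55.LM.Defs

end
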