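/-
S55 / LM (local fields of BaseA in LC language; architect helper91) — row (LM.h1), ABSTRACT CORE.
(helper65)

The degree-one Kummer argument in LC language, with NO long exact sequence:

`G` a group with basis `𝒰`, `A : Rep ℤ G` (think `A = Additive Ωˣ`), `T : Rep k G` (think `k = 𝔽_p`,
`T = μ_p ≅ 𝔽_p`) with an equivariant injection `ι : T → A` onto the `p`-torsion `A[p]`.  If LC Hilbert 90
holds for `A` (`H¹_LC(G; A) = 0`, in the shape produced by `LCLevel.vanish₁_of_levels`), then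

  `H¹_LC(G; T)  ↪  A^G / p A^G`,   `[f] ↦ [p • a]`  where `ι ∘ f = d a`.

Consequences: `Nat.card (H1 𝒰 T) ≤ [B : pB]` for any additive group `B` identified with `A^G`
(`B = Additive Eˣ`, `E` the fixed field), and for `k = ZMod p`: `Module.Finite` and
`p ^ finrank ≤ [B : pB]`.
-/
import Mathlib
import Fermat.Agent.S55.Formal.LC

set_option autoImplicit false

open CategoryTheory groupCohomology

namespace Fermat.Agent.S55.LM.H1Core

open Fermat.Agent.S55.Formal

variable {G : Type} [Group G] (𝒰 : NBasis G)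
variable {k : Type} [CommRing k] (T : Rep.{0, 0, 0} k G) (A : Rep.{0, 0, 0} ℤ G)

/-- The Kummer datum: `ι : T → A` is an equivariant injection onto the `p`-torsion of `A`. -/
structure IsKummer (p : ℕ) (ι : T →+ A) : Prop where
  inj : Function.Injective ι
  equivar : ∀ g t, ι (T.ρ g t) = A.ρ g (ι t)
  tors : ∀ t, p • ι t = 0
  range : ∀ a : A, p • a = 0 → ∃ t, ι t = a

/-- LC Hilbert 90 for `A`, in the shape of `LCLevel.vanish₁_of_levels`. -/
def H90 : Prop :=
  ∀ f : ↥(C₁ 𝒰 A), dC₁ 𝒰 A f = 0 → ∃ m : ↥(C₀ 𝒰 A), dC₀ 𝒰 A m = f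

variable {𝒰 T A}

/-- pushing an LC `1`-cochain of `T` to `A` -/
lemma push_mem_C₁ {p : ℕ} {ι : T →+ A} (hι : IsKummer T A p ι) {f : G → T} (hf : f ∈ C₁ 𝒰 T) :
    (fun g => ι (f g)) ∈ C₁ 𝒰 A := by
  obtain ⟨U, hU, h⟩ := hf
  refine ⟨U, hU, fun s hs g => ⟨?_, ?_⟩⟩
  · simp only [(h s hs g).1]
  · rw [← hι.equivar, (h s hs g).2]

lemma cocycle_apply {f : ↥(C₁ 𝒰 T)} (hf : dC₁ 𝒰 T f = 0) (g h : G) :
    T.ρ g (f.1 h) - f.1 (g * h) + f.1 g = 0 := by
  have h1 : (d₁₂ T).hom (f : G → T) = 0 := congrArg Subtype.val hf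
  have := congrFun h1 (g, h)
  rw [d₁₂_hom_apply] at this
  exact this

/-- every LC `1`-cocycle of `T` becomes a coboundary `d a` in `A`, `a` smooth -/
lemma exists_primitive {p : ℕ} {ι : T →+ A} (hι : IsKummer T A p ι) (h90 : H90 𝒰 A)
    (f : ↥(C₁ 𝒰 T)) (hf : dC₁ 𝒰 T f = 0) :
    ∃ a : A, IsLC₀ 𝒰 A a ∧ ∀ g, A.ρ g a - a = ι (f.1 g) := by
  have hmem : (fun g => ι (f.1 g)) ∈ C₁ 𝒰 A := push_mem_C₁ hι f.2
  have hcoc : dC₁ 𝒰 A ⟨_, hmem⟩ = 0 := by
    apply Subtype.ext
    rw [dC₁_coe]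
    funext ⟨g, h⟩
    simp only [d₁₂_hom_apply, ZeroMemClass.coe_zero, Pi.zero_apply]
    have := cocycle_apply hf g h
    rw [← hι.equivar, ← map_sub, ← map_add, this, map_zero]
  obtain ⟨m, hm⟩ := h90 ⟨_, hmem⟩ hcoc
  refine ⟨m.1, m.2, fun g => ?_⟩
  have := congrFun (congrArg Subtype.val hm) g
  simpa [d₀₁_hom_apply] using this

variable (A) in
/-- the invariants `A^G` -/
def invariants : AddSubgroup A where
  carrier := {a | ∀ g, A.ρ g a = a}
  add_mem' ha hb g := by rw [map_add, ha g, hb g]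
  zero_mem' g := map_zero _
  neg_mem' ha g := by rw [map_neg, ha g]

lemma mem_invariants {a : A} : a ∈ invariants A ↔ ∀ g, A.ρ g a = a := Iff.rfl

/-- **Kummer injection** `H¹_LC(G; T) ↪ A^G / p A^G`. -/
theorem exists_injective {p : ℕ} {ι : T →+ A} (hι : IsKummer T A p ι) (h90 : H90 𝒰 A) :
    ∃ κ : H1 𝒰 T → (invariants A ⧸ (nsmulAddMonoidHom p : invariants A →+ invariants A).range),
      Function.Injective κ := by
  have key : ∀ x : H1 𝒰 T, ∃ (f : ↥(C₁ 𝒰 T)) (hf : dC₁ 𝒰 T f = 0) (a : A),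
      x = Hmid.of f hf ∧ IsLC₀ 𝒰 A a ∧ ∀ g, A.ρ g a - a = ι (f.1 g) := by
    intro x
    obtain ⟨f, hf, rfl⟩ := Hmid.exists_of x
    obtain ⟨a, ha, hd⟩ := exists_primitive hι h90 f hf
    exact ⟨f, hf, a, rfl, ha, hd⟩
  choose f hf a hx hsm hd using key
  have hinv : ∀ x, p • a x ∈ invariants A := by
    intro x g
    have h1 : A.ρ g (a x) = a x + ι ((f x).1 g) := by rw [← hd x g]; abel
    rw [map_nsmul, h1, nsmul_add, hι.tors, add_zero]
  refine ⟨fun x => QuotientAddGroup.mk ⟨p • a x, hinv x⟩, ?_⟩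
  intro x y hxy
  rw [QuotientAddGroup.eq] at hxy
  obtain ⟨⟨b, hb⟩, hbeq⟩ := hxy
  have hbeq' : p • b = -(p • a x) + p • a y := by
    have := congrArg Subtype.val hbeq
    simpa using this
  -- `c := a y - a x - b` is `p`-torsion
  have hc : p • (a y - a x - b) = 0 := by
    rw [nsmul_sub, nsmul_sub, hbeq']; abel
  obtain ⟨t, ht⟩ := hι.range _ hc
  -- `t` is smooth
  have htsm : t ∈ C₀ 𝒰 T := by
    obtain ⟨U, hU, hUa⟩ := hsm x
    obtain ⟨V, hV, hVa⟩ := hsm y
    obtain ⟨W, hW, hle⟩ := 𝒰.inf hU hV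
    refine ⟨W, hW, fun s hs => ?_⟩
    apply hι.inj
    rw [hι.equivar, ht, map_sub, map_sub, hUa s (hle hs).1, hVa s (hle hs).2, hb s]
  -- `d t = f y - f x`
  have hdt : ∀ g, T.ρ g t - t = (f y).1 g - (f x).1 g := by
    intro g
    apply hι.inj
    rw [map_sub, map_sub, hι.equivar, ht, ← hd y g, ← hd x g, map_sub, map_sub, hb g]
    abel
  rw [hx x, hx y, Hmid.of_eq_of_iff]
  refine ⟨-⟨t, htsm⟩, ?_⟩
  apply Subtype.ext
  rw [map_neg]
  funext g
  have := hdt g
  simp only [NegMemClass.coe_neg, dC₀_coe, Pi.neg_apply, d₀₁_hom_apply, AddSubgroupClass.coe_sub,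
    Pi.sub_apply]
  rw [this]; abel

/-- cardinality form, relative to an identification `j : B ≃ A^G` (e.g. `B = Additive Eˣ`). -/
theorem card_le_index {p : ℕ} {ι : T →+ A} (hι : IsKummer T A p ι) (h90 : H90 𝒰 A)
    {B : Type} [AddCommGroup B] (j : B →+ A) (hj : Function.Injective j)
    (hjr : ∀ a : A, (∀ g, A.ρ g a = a) → ∃ b, j b = a)
    (hji : ∀ b g, A.ρ g (j b) = j b)
    (hfin : (nsmulAddMonoidHom p : B →+ B).range.index ≠ 0) :
    Finite (H1 𝒰 T) ∧ Nat.card (H1 𝒰 T) ≤ (nsmulAddMonoidHom p : B →+ B).range.index := by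
  obtain ⟨κ, hκ⟩ := exists_injective hι h90
  -- transport the target along `j`
  let j' : B →+ invariants A := j.codRestrict (invariants A) (fun b g => hji b g)
  have hj'surj : Function.Surjective j' := by
    rintro ⟨a, ha⟩
    obtain ⟨b, hb⟩ := hjr a ha
    exact ⟨b, Subtype.ext hb⟩
  have hj'inj : Function.Injective j' := fun b b' h => hj (congrArg Subtype.val h)
  let e : B ≃+ invariants A := AddEquiv.ofBijective j' ⟨hj'inj, hj'surj⟩
  -- the induced map on quotients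
  let φ : (invariants A ⧸ (nsmulAddMonoidHom p : invariants A →+ invariants A).range) →
      (B ⧸ (nsmulAddMonoidHom p : B →+ B).range) :=
    QuotientAddGroup.map _ _ e.symm.toAddMonoidHom (by
      rintro _ ⟨c, rfl⟩
      refine ⟨e.symm c, ?_⟩
      simp [map_nsmul])
  have hφ : Function.Injective φ := by
    intro u v huv
    induction u using QuotientAddGroup.induction_on with
    | H u =>
    induction v using QuotientAddGroup.induction_on with
    | H v =>
    have h1 : (QuotientAddGroup.mk (e.symm u) : B ⧸ (nsmulAddMonoidHom p : B →+ B).range) =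
        QuotientAddGroup.mk (e.symm v) := huv
    rw [QuotientAddGroup.eq] at h1 ⊢
    obtain ⟨c, hc⟩ := h1
    refine ⟨e c, ?_⟩
    have : e (p • c) = e (-(e.symm u) + e.symm v) := congrArg e hc
    simpa [map_nsmul] using this
  have hFI : (nsmulAddMonoidHom p : B →+ B).range.FiniteIndex :=
    AddSubgroup.finiteIndex_iff.mpr hfin
  have : Finite (B ⧸ (nsmulAddMonoidHom p : B →+ B).range) :=
    AddSubgroup.finite_quotient_of_finiteIndex
  have hinj : Function.Injective (φ ∘ κ) := hφ.comp hκ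
  refine ⟨Finite.of_injective _ hinj, ?_⟩
  exact Nat.card_le_card_of_injective _ hinj

/-- `𝔽_p`-form: finiteness and `p ^ dim ≤ [B : pB]`. -/
theorem finrank_le {p : ℕ} [Fact p.Prime] {T : Rep.{0, 0, 0} (ZMod p) G} {ι : T →+ A}
    (hι : IsKummer T A p ι) (h90 : H90 𝒰 A)
    {B : Type} [AddCommGroup B] (j : B →+ A) (hj : Function.Injective j)
    (hjr : ∀ a : A, (∀ g, A.ρ g a = a) → ∃ b, j b = a)
    (hji : ∀ b g, A.ρ g (j b) = j b)
    (hfin : (nsmulAddMonoidHom p : B →+ B).range.index ≠ 0) :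
    Module.Finite (ZMod p) (H1 𝒰 T) ∧
      p ^ Module.finrank (ZMod p) (H1 𝒰 T) ≤ (nsmulAddMonoidHom p : B →+ B).range.index := by
  obtain ⟨hF, hle⟩ := card_le_index hι h90 j hj hjr hji hfin
  have hMF : Module.Finite (ZMod p) (H1 𝒰 T) := Module.Finite.of_finite
  refine ⟨hMF, ?_⟩
  have := Module.natCard_eq_pow_finrank (K := ZMod p) (V := H1 𝒰 T)
  rw [Nat.card_zmod] at this
  rw [← this]
  exact hle

end Fermat.Agent.S55.LM.H1Core
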