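/-
S55 / LM — row (LM.h1), generic tools for the instantiation of `H1Core`.  (helper65)

* `isKummer_trivial` : an invariant element `a` of exact order `p` generating `A[p]` gives the Kummer
  datum `𝔽_p → A`, `n ↦ n • a`, for the TRIVIAL representation `𝔽_p` (this is `μ_p ≅ 𝔽_p` when
  `μ_p ⊂ E`).
* `isKummer_units` : the case `A = Additive Ωˣ`, `a = ζ` a primitive `p`-th root of unity.
* `index_nsmul_additive` : `[Additive Mˣ : p (Additive Mˣ)] = [Mˣ : (Mˣ)^p]`.
-/
import Mathlib
import Fermat.Agent.S55.LM.H1Core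

set_option autoImplicit false

open CategoryTheory groupCohomology

namespace Fermat.Agent.S55.LM.H1Tools

open Fermat.Agent.S55.Formal Fermat.Agent.S55.LM.H1Core

variable {G : Type} [Group G] {A : Rep.{0, 0, 0} ℤ G}

/-- the additive map `𝔽_p → A`, `n ↦ n • a`, for `p • a = 0`. -/
noncomputable def iotaOf (p : ℕ) [NeZero p] (a : A) (ha : p • a = 0) : ZMod p →+ A :=
  ZMod.lift p ⟨zmultiplesHom A a, by
    show ((p : ℕ) : ℤ) • a = 0
    rw [natCast_zsmul]; exact ha⟩

lemma iotaOf_intCast (p : ℕ) [NeZero p] (a : A) (ha : p • a = 0) (n : ℤ) :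
    iotaOf p a ha (n : ZMod p) = n • a := by
  unfold iotaOf
  rw [ZMod.lift_coe]
  rfl

lemma iotaOf_natCast (p : ℕ) [NeZero p] (a : A) (ha : p • a = 0) (n : ℕ) :
    iotaOf p a ha (n : ZMod p) = n • a := by
  have := iotaOf_intCast p a ha (n : ℤ)
  simpa using this

/-- **the Kummer datum of the trivial representation `𝔽_p`**. -/
theorem isKummer_trivial {p : ℕ} [Fact p.Prime] (a : A) (ha : p • a = 0) (ha0 : a ≠ 0)
    (hfix : ∀ g, A.ρ g a = a) (hgen : ∀ b : A, p • b = 0 → ∃ n : ℕ, b = n • a) :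
    IsKummer (Rep.trivial (ZMod p) G (ZMod p)) A p (iotaOf p a ha) where
  inj := by
    rw [injective_iff_map_eq_zero]
    intro t ht
    obtain ⟨n, rfl⟩ := ZMod.natCast_zmod_surjective t
    rw [iotaOf_natCast] at ht
    -- the order of `a` is `p`
    have hord : addOrderOf a = p := by
      have hdvd : addOrderOf a ∣ p := addOrderOf_dvd_of_nsmul_eq_zero ha
      rcases (Nat.dvd_prime (Fact.out : p.Prime)).mp hdvd with h1 | h1
      · exact absurd (AddMonoid.addOrderOf_eq_one_iff.mp h1) ha0
      · exact h1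
    have : addOrderOf a ∣ n := addOrderOf_dvd_of_nsmul_eq_zero ht
    rw [hord] at this
    exact (ZMod.natCast_eq_zero_iff n p).mpr this
  equivar g t := by
    obtain ⟨n, rfl⟩ := ZMod.natCast_zmod_surjective t
    have h1 : (Rep.trivial (ZMod p) G (ZMod p)).ρ g ((n : ZMod p)) = (n : ZMod p) := rfl
    rw [h1, iotaOf_natCast, map_nsmul, hfix]
  tors t := by
    obtain ⟨n, rfl⟩ := ZMod.natCast_zmod_surjective t
    rw [iotaOf_natCast, smul_comm, ha, smul_zero]
  range b hb := by
    obtain ⟨n, rfl⟩ := hgen b hb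
    exact ⟨(n : ZMod p), iotaOf_natCast p a ha n⟩

/-- `[Additive M : p (Additive M)] = [M : M^p]` for a commutative group `M`. -/
theorem index_nsmul_additive (M : Type) [CommGroup M] (p : ℕ) :
    (nsmulAddMonoidHom p : Additive M →+ Additive M).range.index =
      (powMonoidHom p : M →* M).range.index := by
  have : (nsmulAddMonoidHom p : Additive M →+ Additive M).range =
      Subgroup.toAddSubgroup (powMonoidHom p : M →* M).range := by
    ext x
    constructor
    · rintro ⟨y, rfl⟩
      exact ⟨y.toMul, rfl⟩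
    · rintro ⟨y, hy⟩
      exact ⟨Additive.ofMul y, hy⟩
  rw [this]
  rfl

end Fermat.Agent.S55.LM.H1Tools
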