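/-
S55 / LM — row (LM.h1): the LOCAL `H¹` BOUND in LC language.  (helper65)

`q` a prime, `P ≤ Γ_q = Gal(ℚ̄_q/ℚ_q)` a subgroup on which the mod `p` cyclotomic character is
trivial, `E ⊆ Ω = ℚ̄_q` its fixed field.  From LC Hilbert 90 for `Ωˣ` over `(P, V_P)` (LM.core (c1)):

  `H¹_LC(P; 𝔽_p)` is finite and `p ^ dim H¹_LC(P; 𝔽_p) ≤ [Eˣ : (Eˣ)^p]`

(the right-hand side is LITERALLY the index of `Local.Blocks.PowIndex`).  Via Shapiro
(`LM.shapiro`) this is the bound for `H¹(V_q; perm k P)` needed by the count (C6) / `BaseA.g₂`.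
-/
import Mathlib
import Fermat.Prelude.Def_ExtCitation_KummerBridge
import Fermat.Agent.S55.LM.Defs
import Fermat.Agent.S55.LM.H1Core
import Fermat.Agent.S55.LM.H1Tools

set_option autoImplicit false

open CategoryTheory groupCohomology ExtCitation

noncomputable section

namespace Fermat.Agent.S55.LM.H1Bound

open Fermat.Agent.S55.Formal Fermat.Agent.S55.Formal.PreludeLC Fermat.Agent.S55.Bridge.ShapiroLC
  Fermat.Agent.S55.LM.Defs Fermat.Agent.S55.LM.H1Core Fermat.Agent.S55.LM.H1Tools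

variable (q : Nat.Primes)

attribute [local instance] fact_q

local instance isAlgebraicQbar_h1b : Algebra.IsAlgebraic ℚ (AlgebraicClosure ℚ) :=
  AlgebraicClosure.isAlgebraic ℚ

/-- a primitive `p`-th root of unity of `ℚ̄` -/
theorem exists_primitiveRoot_Qbar (p : ℕ) [Fact p.Prime] :
    ∃ ζ : AlgebraicClosure ℚ, IsPrimitiveRoot ζ p := by
  have : NeZero p := ⟨(Fact.out : p.Prime).ne_zero⟩
  have : NeZero ((p : ℕ) : AlgebraicClosure ℚ) := ⟨by exact_mod_cast (NeZero.ne p)⟩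
  exact HasEnoughRootsOfUnity.exists_primitiveRoot (AlgebraicClosure ℚ) p

/-- the cyclotomic character being trivial at `σ` means `σ` fixes the `p`-th roots of unity -/
theorem apply_root_of_cycloChar_eq_one (p : ℕ) [Fact p.Prime]
    (σ : AlgebraicClosure ℚ ≃ₐ[ℚ] AlgebraicClosure ℚ) (hσ : cycloChar p σ = 1)
    (ζ : AlgebraicClosure ℚ) (hζ : ζ ^ p = 1) : σ ζ = ζ := by
  have : NeZero p := ⟨(Fact.out : p.Prime).ne_zero⟩
  have hu : IsUnit ζ := IsUnit.of_pow_eq_one hζ (NeZero.ne p)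
  obtain ⟨t, rfl⟩ := hu
  have ht : t ∈ rootsOfUnity p (AlgebraicClosure ℚ) := by
    rw [mem_rootsOfUnity]
    exact Units.ext (by simpa using hζ)
  have hspec := modularCyclotomicCharacter.spec (AlgebraicClosure ℚ) (card_rootsOfUnity_eq_self p)
    (σ : AlgebraicClosure ℚ ≃+* AlgebraicClosure ℚ) ht
  have h1 : modularCyclotomicCharacter (AlgebraicClosure ℚ) (card_rootsOfUnity_eq_self p)
      (σ : AlgebraicClosure ℚ ≃+* AlgebraicClosure ℚ) = 1 := hσ
  rw [h1] at hspec
  have hval : ((1 : (ZMod p)ˣ) : ZMod p).val = 1 := by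
    have : Fact (1 < p) := ⟨(Fact.out : p.Prime).one_lt⟩
    simp [ZMod.val_one]
  rw [hval, pow_one] at hspec
  exact hspec

variable {q}

/-- **(LM.h1), trivial coefficients.**  `E` is any intermediate field which is the fixed field of
`P` (hypothesis `hE`; for `E = IntermediateField.fixedField P` it is `Iff.rfl`). -/
theorem finrank_H1_trivial_le (p : ℕ) [Fact p.Prime] (P : Subgroup (Gq q))
    (hχ : ∀ s ∈ P, cycloChar p (primeLocalToGlobal q s) = 1)
    (h90 : H90 (VP q P) (Ox q P))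
    (E : IntermediateField ℚ_[(q : ℕ)] (Om q))
    (hE : ∀ x : Om q, x ∈ E ↔ ∀ g ∈ P, toAut q g x = x)
    (hfin : (powMonoidHom p : (↥E)ˣ →* (↥E)ˣ).range.index ≠ 0) :
    Module.Finite (ZMod p) (H1 (VP q P) (Rep.trivial (ZMod p) P (ZMod p))) ∧
      p ^ Module.finrank (ZMod p) (H1 (VP q P) (Rep.trivial (ZMod p) P (ZMod p))) ≤
        (powMonoidHom p : (↥E)ˣ →* (↥E)ˣ).range.index := by
  have : NeZero p := ⟨(Fact.out : p.Prime).ne_zero⟩
  -- the primitive root of unity in `Ω`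
  obtain ⟨ζ₀, hζ₀⟩ := exists_primitiveRoot_Qbar p
  set ζ : Om q := padicEmbedding (q : ℕ) ζ₀ with hζdef
  have hζ : IsPrimitiveRoot ζ p :=
    hζ₀.map_of_injective (f := padicEmbedding (q : ℕ)) (padicEmbedding (q : ℕ)).injective
  have hζp : ζ ^ p = 1 := hζ.pow_eq_one
  have hζu : IsUnit ζ := IsUnit.of_pow_eq_one hζp (NeZero.ne p)
  obtain ⟨u, hu⟩ := hζu
  -- `P` fixes `ζ`
  have hfixζ : ∀ s ∈ P, toAut q s ζ = ζ := by
    intro s hs
    have h1 := padicEmbedding_localGaloisToGlobal (q : ℕ) (toAut q s) ζ₀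
    have h2 : (localGaloisToGlobal (q : ℕ) (toAut q s)) ζ₀ = ζ₀ :=
      apply_root_of_cycloChar_eq_one p _ (hχ s hs) ζ₀ hζ₀.pow_eq_one
    rw [h2] at h1
    exact h1.symm
  -- the element `a` of `Ox q P`
  set a : Ox q P := ofU q u with ha
  have hap : p • a = 0 := by
    apply toU_injective q
    show (toU q a) ^ p = 1
    apply Units.ext
    rw [Units.val_pow_eq_pow_val]
    show (u : Om q) ^ p = 1
    rw [hu]; exact hζp
  have ha0 : a ≠ 0 := by
    intro h0
    have h1 : u = 1 := congrArg (toU q) h0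
    have h2 : ζ = 1 := by rw [← hu, h1]; rfl
    have := hζ.eq_orderOf
    rw [h2, orderOf_one] at this
    exact (Fact.out : p.Prime).one_lt.ne' this
  have hfix : ∀ g : P, (Ox q P).ρ g a = a := by
    intro g
    apply toU_injective q
    apply Units.ext
    rw [Ox_ρ, coe_unitsRep_ρ]
    show toAut q (g : Gq q) (u : Om q) = (u : Om q)
    rw [hu]
    exact hfixζ g g.2
  have hgen : ∀ b : Ox q P, p • b = 0 → ∃ n : ℕ, b = n • a := by
    intro b hb
    have hb' : ((toU q b : (Om q)ˣ) : Om q) ^ p = 1 := by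
      have h1 : (toU q b) ^ p = 1 := congrArg (toU q) hb
      have h2 := congrArg (fun w : (Om q)ˣ => (w : Om q)) h1
      simpa using h2
    obtain ⟨i, _, hi⟩ := hζ.eq_pow_of_pow_eq_one hb'
    refine ⟨i, ?_⟩
    apply toU_injective q
    apply Units.ext
    show ((toU q b : (Om q)ˣ) : Om q) = ((toU q a ^ i : (Om q)ˣ) : Om q)
    rw [Units.val_pow_eq_pow_val, ← hi]
    show ζ ^ i = (u : Om q) ^ i
    rw [hu]
  have hK := isKummer_trivial (G := P) (A := Ox q P) a hap ha0 hfix hgen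
  -- the invariants are `Eˣ`
  let j : Additive (↥E)ˣ →+ Ox q P :=
    (MonoidHom.toAdditive (Units.map (E.val : ↥E →* Om q)) : Additive (↥E)ˣ →+ Additive (Om q)ˣ)
  have hj : Function.Injective j := by
    intro x y hxy
    have h1 : Units.map (E.val : ↥E →* Om q) (Additive.toMul x) =
        Units.map (E.val : ↥E →* Om q) (Additive.toMul y) := hxy
    have h2 := congrArg (fun w : (Om q)ˣ => (w : Om q)) h1
    have h3 : ((Additive.toMul x : (↥E)ˣ) : ↥E) = ((Additive.toMul y : (↥E)ˣ) : ↥E) :=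
      Subtype.ext h2
    exact congrArg Additive.ofMul (Units.ext h3)
  have hjr : ∀ b : Ox q P, (∀ g, (Ox q P).ρ g b = b) → ∃ x, j x = b := by
    intro b hb
    have hmem : ∀ g ∈ P, toAut q g ((toU q b : (Om q)ˣ) : Om q) = ((toU q b : (Om q)ˣ) : Om q) := by
      intro g hg
      have := hb ⟨g, hg⟩
      have h2 := congrArg (fun x => ((toU q x : (Om q)ˣ) : Om q)) this
      exact h2
    have hinvmem : ∀ g ∈ P, toAut q g ((((toU q b)⁻¹ : (Om q)ˣ)) : Om q) =
        ((((toU q b)⁻¹ : (Om q)ˣ)) : Om q) := by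
      intro g hg
      rw [Units.val_inv_eq_inv_val, map_inv₀, hmem g hg]
    have h1 : ((toU q b : (Om q)ˣ) : Om q) ∈ E := (hE _).mpr hmem
    have h2 : ((((toU q b)⁻¹ : (Om q)ˣ)) : Om q) ∈ E := (hE _).mpr hinvmem
    refine ⟨Additive.ofMul ⟨⟨_, h1⟩, ⟨_, h2⟩, ?_, ?_⟩, ?_⟩
    · exact Subtype.ext (by simp)
    · exact Subtype.ext (by simp)
    · apply toU_injective q
      exact Units.ext rfl
  have hji : ∀ x g, (Ox q P).ρ g (j x) = j x := by
    intro x g
    apply toU_injective q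
    apply Units.ext
    rw [Ox_ρ]
    show toAut q (g : Gq q) ((toU q (j x) : (Om q)ˣ) : Om q) = ((toU q (j x) : (Om q)ˣ) : Om q)
    exact (hE _).mp (Additive.toMul x : (↥E)ˣ).1.2 g g.2
  have hfin' : (nsmulAddMonoidHom p : Additive (↥E)ˣ →+ Additive (↥E)ˣ).range.index ≠ 0 := by
    rw [index_nsmul_additive]; exact hfin
  have := finrank_le (𝒰 := VP q P) hK h90 j hj hjr hji hfin'
  rw [index_nsmul_additive] at this
  exact this

end Fermat.Agent.S55.LM.H1Bound

end
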