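/-
S55 / LM block (architect helper91), row LM.shapiro (helper40): SHAPIRO FOR PERMUTATION MODULES in the
LC language of `Formal/LC.lean`.

For a group `G` with a basis `𝒰 : NBasis G` and an OPEN subgroup `P ≤ G`
(`𝒰.IsOpen P`, i.e. `P` contains a member of `𝒰`):

  `Hⁱ_LC(G, 𝒰; k[G/P]) ≃ₗ Hⁱ_LC(P, subBasis 𝒰 P; k)`,   `i = 1, 2, 3`,

obtained from `Formal/CoindPerm.permIsoCoind : k[G/P] ≅ Coind_P^G k` (helper87) and
`Bridge/ShapiroLC.sh_hᵢ_bijective` (helper14).  Consequences: `Vanish₃`, `Module.Finite`, `finrank`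
transfer between `perm k P` over `(G, 𝒰)` and the trivial module `k` over `(P, subBasis 𝒰 P)`.
-/
import Mathlib
import Fermat.Agent.S55.Formal.Blocks
import Fermat.Agent.S55.Formal.CoindPerm
import Fermat.Agent.S55.Formal.PermSelfDualLC
import Fermat.Agent.S55.Bridge.ShapiroLC

set_option autoImplicit false

open CategoryTheory Module

namespace Fermat.Agent.S55.LM.ShapiroPerm

open Fermat.Agent.S55.Formal Fermat.Agent.S55.Bridge.ShapiroLC

noncomputable section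

/-! ### `H³` is invariant under isomorphisms of representations; `Vanish₃ ↔ Subsingleton H³` -/

section Iso

variable {k : Type} [CommRing k] {G : Type} [Group G] (𝒰 : NBasis G)
variable {A B : Rep.{0, 0, 0} k G}

lemma h3_comp_eq_id (φ : A ⟶ B) (ψ : B ⟶ A) (h : ∀ a : A, ψ.hom (φ.hom a) = a) (x : H3 𝒰 A) :
    (Mor.ofHom 𝒰 ψ).h3 ((Mor.ofHom 𝒰 φ).h3 x) = x := by
  obtain ⟨b, hb, rfl⟩ := Hmid.exists_of x
  unfold Mor.h3
  rw [Hmid.mapOfComm_of (hb' := by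
    have := LinearMap.congr_fun (Mor.ofHom 𝒰 φ).p₄_dC₃ b
    simp only [LinearMap.comp_apply] at this
    rw [← this, hb, map_zero])]
  rw [Hmid.mapOfComm_of (hb' := by
    have := LinearMap.congr_fun (Mor.ofHom 𝒰 ψ).p₄_dC₃ ((Mor.ofHom 𝒰 φ).c₃ b)
    simp only [LinearMap.comp_apply] at this
    have h2 := LinearMap.congr_fun (Mor.ofHom 𝒰 φ).p₄_dC₃ b
    simp only [LinearMap.comp_apply] at h2
    rw [← this, ← h2, hb, map_zero, map_zero])]
  congr 1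
  apply Subtype.ext
  funext g
  exact h _

/-- an isomorphism of representations induces a linear equivalence on LC `H³` -/
def h3Equiv (e : A ≅ B) : H3 𝒰 A ≃ₗ[k] H3 𝒰 B :=
  LinearEquiv.ofLinearMap (Mor.ofHom 𝒰 e.hom).h3 (Mor.ofHom 𝒰 e.inv).h3
    (LinearMap.ext fun x => h3_comp_eq_id 𝒰 e.inv e.hom (PermSelfDualLC.iso_hom_inv_apply e) x)
    (LinearMap.ext fun x => h3_comp_eq_id 𝒰 e.hom e.inv (PermSelfDualLC.iso_inv_hom_apply e) x)

@[simp] lemma h3Equiv_apply (e : A ≅ B) (x : H3 𝒰 A) :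
    h3Equiv 𝒰 e x = (Mor.ofHom 𝒰 e.hom).h3 x := rfl

/-- `Vanish₃` is the statement `H³ = 0`. -/
theorem vanish₃_iff_subsingleton (M : Rep.{0, 0, 0} k G) :
    Vanish₃ 𝒰 M ↔ Subsingleton (H3 𝒰 M) := by
  constructor
  · intro hv
    refine ⟨fun x y => ?_⟩
    suffices hz : ∀ z : H3 𝒰 M, z = 0 by rw [hz x, hz y]
    intro z
    obtain ⟨f, hf, rfl⟩ := Hmid.exists_of z
    rw [Hmid.of_eq_zero_iff]
    exact hv f hf
  · intro hs f hf
    have h0 : (Hmid.of f hf : H3 𝒰 M) = 0 := Subsingleton.elim _ _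
    rw [Hmid.of_eq_zero_iff] at h0
    exact h0

/-- `Vanish₂` is the statement `H² = 0`. -/
theorem vanish₂_iff_subsingleton (M : Rep.{0, 0, 0} k G) :
    Vanish₂ 𝒰 M ↔ Subsingleton (H2 𝒰 M) := by
  constructor
  · intro hv
    refine ⟨fun x y => ?_⟩
    suffices hz : ∀ z : H2 𝒰 M, z = 0 by rw [hz x, hz y]
    intro z
    obtain ⟨f, hf, rfl⟩ := Hmid.exists_of z
    rw [Hmid.of_eq_zero_iff]
    exact hv f hf
  · intro hs f hf
    have h0 : (Hmid.of f hf : H2 𝒰 M) = 0 := Subsingleton.elim _ _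
    rw [Hmid.of_eq_zero_iff] at h0
    exact h0

end Iso

/-! ### Shapiro for `k[G/P]`, `k` a commutative ring -/

section Ring

variable {k : Type} [CommRing k] {G : Type} [Group G] (𝒰 : NBasis G) (P : Subgroup G)

/-- an open subgroup has finite index -/
theorem finiteIndex_of_isOpen (hP : 𝒰.IsOpen P) : P.FiniteIndex := by
  obtain ⟨U, hU, hle⟩ := hP
  have := 𝒰.finiteIndex hU
  exact Subgroup.finiteIndex_of_le hle

/-- the trivial module `k` over `P` -/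
abbrev triv : Rep.{0, 0, 0} k P := Rep.trivial k P k

/-- `k[G/P]` as a `Rep.{0,0,0}` (this is `Formal.perm k P` when `k` is a field) -/
abbrev permRing : Rep.{0, 0, 0} k G := Rep.ofMulAction k G (G ⧸ P)

variable (k) in
/-- `k[G/P] ≅ Coind_P^G k` in `Rep.{0,0,0} k G` -/
def permIso [P.FiniteIndex] : permRing (k := k) P ≅ CoindV P (triv (k := k) P) :=
  CoindPerm.permIsoCoind P

/-- the Shapiro morphism of situations `(G, 𝒰, k[G/P]) → (P, subBasis 𝒰 P, k)` -/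
def permMor [P.FiniteIndex] : Mor 𝒰 (permRing (k := k) P) (subBasis 𝒰 P) (triv (k := k) P) :=
  (Mor.ofHom 𝒰 (permIso k P).hom).comp (sh 𝒰 P (triv (k := k) P))

/-- **Shapiro, `H¹`**: `H¹_LC(G; k[G/P]) ≃ H¹_LC(P; k)`. -/
def h1EquivTriv (hP : 𝒰.IsOpen P) :
    H1 𝒰 (permRing (k := k) P) ≃ₗ[k] H1 (subBasis 𝒰 P) (triv (k := k) P) :=
  haveI := finiteIndex_of_isOpen 𝒰 P hP
  (PermSelfDualLC.h1Equiv 𝒰 (permIso k P)).trans
    (LinearEquiv.ofBijective (sh 𝒰 P (triv (k := k) P)).h1 (sh_h1_bijective hP))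

/-- **Shapiro, `H²`**: `H²_LC(G; k[G/P]) ≃ H²_LC(P; k)`. -/
def h2EquivTriv (hP : 𝒰.IsOpen P) :
    H2 𝒰 (permRing (k := k) P) ≃ₗ[k] H2 (subBasis 𝒰 P) (triv (k := k) P) :=
  haveI := finiteIndex_of_isOpen 𝒰 P hP
  (PermSelfDualLC.h2Equiv 𝒰 (permIso k P)).trans
    (LinearEquiv.ofBijective (sh 𝒰 P (triv (k := k) P)).h2 (sh_h2_bijective hP))

/-- **Shapiro, `H³`**: `H³_LC(G; k[G/P]) ≃ H³_LC(P; k)`. -/
def h3EquivTriv (hP : 𝒰.IsOpen P) :
    H3 𝒰 (permRing (k := k) P) ≃ₗ[k] H3 (subBasis 𝒰 P) (triv (k := k) P) :=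
  haveI := finiteIndex_of_isOpen 𝒰 P hP
  (h3Equiv 𝒰 (permIso k P)).trans
    (LinearEquiv.ofBijective (sh 𝒰 P (triv (k := k) P)).h3 (sh_h3_bijective hP))

lemma h1EquivTriv_apply (hP : 𝒰.IsOpen P) [P.FiniteIndex] (x : H1 𝒰 (permRing (k := k) P)) :
    h1EquivTriv 𝒰 P hP x =
      (sh 𝒰 P (triv (k := k) P)).h1 ((Mor.ofHom 𝒰 (permIso k P).hom).h1 x) := rfl

lemma h2EquivTriv_apply (hP : 𝒰.IsOpen P) [P.FiniteIndex] (x : H2 𝒰 (permRing (k := k) P)) :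
    h2EquivTriv 𝒰 P hP x =
      (sh 𝒰 P (triv (k := k) P)).h2 ((Mor.ofHom 𝒰 (permIso k P).hom).h2 x) := rfl

lemma h3EquivTriv_apply (hP : 𝒰.IsOpen P) [P.FiniteIndex] (x : H3 𝒰 (permRing (k := k) P)) :
    h3EquivTriv 𝒰 P hP x =
      (sh 𝒰 P (triv (k := k) P)).h3 ((Mor.ofHom 𝒰 (permIso k P).hom).h3 x) := rfl

/-- **`Vanish₃` transfer**: `H³_LC(G; k[G/P]) = 0 ↔ H³_LC(P; k) = 0`. -/
theorem vanish₃_permRing_iff (hP : 𝒰.IsOpen P) :
    Vanish₃ 𝒰 (permRing (k := k) P) ↔ Vanish₃ (subBasis 𝒰 P) (triv (k := k) P) := by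
  rw [vanish₃_iff_subsingleton, vanish₃_iff_subsingleton]
  exact (h3EquivTriv 𝒰 P hP).toEquiv.subsingleton_congr

/-- **`Vanish₂` transfer**. -/
theorem vanish₂_permRing_iff (hP : 𝒰.IsOpen P) :
    Vanish₂ 𝒰 (permRing (k := k) P) ↔ Vanish₂ (subBasis 𝒰 P) (triv (k := k) P) := by
  rw [vanish₂_iff_subsingleton, vanish₂_iff_subsingleton]
  exact (h2EquivTriv 𝒰 P hP).toEquiv.subsingleton_congr

theorem finite_H1_permRing_iff (hP : 𝒰.IsOpen P) :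
    Module.Finite k (H1 𝒰 (permRing (k := k) P)) ↔
      Module.Finite k (H1 (subBasis 𝒰 P) (triv (k := k) P)) :=
  Module.Finite.equiv_iff (h1EquivTriv 𝒰 P hP)

theorem finite_H2_permRing_iff (hP : 𝒰.IsOpen P) :
    Module.Finite k (H2 𝒰 (permRing (k := k) P)) ↔
      Module.Finite k (H2 (subBasis 𝒰 P) (triv (k := k) P)) :=
  Module.Finite.equiv_iff (h2EquivTriv 𝒰 P hP)

theorem finrank_H1_permRing (hP : 𝒰.IsOpen P) :
    finrank k (H1 𝒰 (permRing (k := k) P)) = finrank k (H1 (subBasis 𝒰 P) (triv (k := k) P)) :=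
  (h1EquivTriv 𝒰 P hP).finrank_eq

theorem finrank_H2_permRing (hP : 𝒰.IsOpen P) :
    finrank k (H2 𝒰 (permRing (k := k) P)) = finrank k (H2 (subBasis 𝒰 P) (triv (k := k) P)) :=
  (h2EquivTriv 𝒰 P hP).finrank_eq

end Ring

/-! ### Consumer forms for `Formal.perm k P` (`k` a field), in the literal `BaseA` shapes -/

section Field

variable {k : Type} [Field k] {G : Type} [Group G] (𝒰 : NBasis G) (P : Subgroup G)

/-- `BaseA.vanish₃` / `BaseA.vanish₃_loc` shape. -/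
theorem vanish₃_perm_iff (hP : 𝒰.IsOpen P) :
    Vanish₃ 𝒰 (perm k P) ↔ Vanish₃ (subBasis 𝒰 P) (Rep.trivial k P k) :=
  vanish₃_permRing_iff 𝒰 P hP

theorem vanish₃_perm_of_triv (hP : 𝒰.IsOpen P)
    (h : Vanish₃ (subBasis 𝒰 P) (Rep.trivial k P k)) : Vanish₃ 𝒰 (perm k P) :=
  (vanish₃_perm_iff 𝒰 P hP).2 h

theorem finite_H1_perm_iff (hP : 𝒰.IsOpen P) :
    Module.Finite k (H1 𝒰 (perm k P)) ↔ Module.Finite k (H1 (subBasis 𝒰 P) (Rep.trivial k P k)) :=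
  finite_H1_permRing_iff 𝒰 P hP

theorem finite_H2_perm_iff (hP : 𝒰.IsOpen P) :
    Module.Finite k (H2 𝒰 (perm k P)) ↔ Module.Finite k (H2 (subBasis 𝒰 P) (Rep.trivial k P k)) :=
  finite_H2_permRing_iff 𝒰 P hP

theorem finrank_H1_perm (hP : 𝒰.IsOpen P) :
    finrank k (H1 𝒰 (perm k P)) = finrank k (H1 (subBasis 𝒰 P) (Rep.trivial k P k)) :=
  finrank_H1_permRing 𝒰 P hP

theorem finrank_H2_perm (hP : 𝒰.IsOpen P) :
    finrank k (H2 𝒰 (perm k P)) = finrank k (H2 (subBasis 𝒰 P) (Rep.trivial k P k)) :=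
  finrank_H2_permRing 𝒰 P hP

/-- `BaseA.loc₂` shape: `H²_LC(P; k)` finite of dimension `≤ 1` gives the same for `perm k P`. -/
theorem loc₂_perm_of_triv (hP : 𝒰.IsOpen P)
    (h : Module.Finite k (H2 (subBasis 𝒰 P) (Rep.trivial k P k)) ∧
      finrank k (H2 (subBasis 𝒰 P) (Rep.trivial k P k)) ≤ 1) :
    Module.Finite k (H2 𝒰 (perm k P)) ∧ finrank k (H2 𝒰 (perm k P)) ≤ 1 :=
  ⟨(finite_H2_perm_iff 𝒰 P hP).2 h.1, (finrank_H2_perm 𝒰 P hP).le.trans h.2⟩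

/-- a member of the basis is open -/
theorem isOpen_of_mem {U : Subgroup G} (hU : 𝒰.mem U) : 𝒰.IsOpen U := ⟨U, hU, le_rfl⟩

end Field

end

end Fermat.Agent.S55.LM.ShapiroPerm
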