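/-
S55 / LM — row (LM.h1), consumer form for `perm k P` over the full local group `Γ_q`.  (helper65)

`H1Bound.finrank_H1_trivial_le` + `LM/ShapiroPerm` (helper40):
for `P ≤ Γ_q` open with the mod `p` cyclotomic character trivial on `P`, `E` the fixed field of `P`:

  `H¹_LC(Γ_q, V_q; 𝔽_p[Γ_q/P])` is finite and `p ^ dim ≤ [Eˣ : (Eˣ)^p]`.
-/
import Mathlib
import Fermat.Agent.S55.LM.H1Bound
import Fermat.Agent.S55.LM.ShapiroPerm

set_option autoImplicit false

open CategoryTheory groupCohomology ExtCitation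

noncomputable section

namespace Fermat.Agent.S55.LM.H1BoundPerm

open Fermat.Agent.S55.Formal Fermat.Agent.S55.Formal.PreludeLC Fermat.Agent.S55.Bridge.ShapiroLC
  Fermat.Agent.S55.LM.Defs Fermat.Agent.S55.LM.H1Core

variable {q : Nat.Primes}

attribute [local instance] fact_q

/-- **(LM.h1), `BaseA`-side shape**: the local `H¹` of a permutation module. -/
theorem finrank_H1_perm_le (p : ℕ) [Fact p.Prime] (P : Subgroup (Gq q)) (hP : (Vq q).IsOpen P)
    (hχ : ∀ s ∈ P, cycloChar p (primeLocalToGlobal q s) = 1)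
    (h90 : H90 (VP q P) (Ox q P))
    (E : IntermediateField ℚ_[(q : ℕ)] (Om q))
    (hE : ∀ x : Om q, x ∈ E ↔ ∀ g ∈ P, toAut q g x = x)
    (hfin : (powMonoidHom p : (↥E)ˣ →* (↥E)ˣ).range.index ≠ 0) :
    Module.Finite (ZMod p) (H1 (Vq q) (perm (ZMod p) P)) ∧
      p ^ Module.finrank (ZMod p) (H1 (Vq q) (perm (ZMod p) P)) ≤
        (powMonoidHom p : (↥E)ˣ →* (↥E)ˣ).range.index := by
  obtain ⟨h1, h2⟩ := H1Bound.finrank_H1_trivial_le p P hχ h90 E hE hfin
  refine ⟨(ShapiroPerm.finite_H1_perm_iff (Vq q) P hP).2 h1, ?_⟩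
  rw [ShapiroPerm.finrank_H1_perm (Vq q) P hP]
  exact h2

end Fermat.Agent.S55.LM.H1BoundPerm

end
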