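/-
S55 / LM block, row `LM.kummer` (helper90): the LOCAL KUMMER SEQUENCE in LC language.

For a prime `q`, `Ω = PadicAlgCl q`, `Γ_q`, an arbitrary subgroup `P ≤ Γ_q` with the induced basis
`VP q P`, and a natural number `n ≠ 0`:

* `isSmooth_unitsRep`, `isSmooth_Ox` : `Ωˣ` is smooth (Krasner: every element of `Ω` lies in
  `ℚ_q(ι α)` for some `α ∈ ℚ̄`);
* `mu q n P : Rep ℤ P` (the `n`-th roots of unity of `Ω`), `muToOx : mu ⟶ Ox`, `powOx n : Ox ⟶ Ox`
  (`x ↦ xⁿ`), and **the Kummer sequence** `kummerSES : SES (VP q P) (muToOx q n P) (powOx q n P)`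
  in the sense of `Formal/CoefExactSmooth` — hence the whole LC long exact sequence `H0 … H3`.
-/
import Mathlib
import Fermat.Agent.S55.LM.Defs
import Fermat.Agent.S55.Middle.SubQuot
import Fermat.Agent.S55.Formal.CoefExactSmooth

set_option autoImplicit false

open CategoryTheory groupCohomology ExtCitation

noncomputable section

namespace Fermat.Agent.S55.LM.KummerLocal

open Fermat.Agent.S55.Formal Fermat.Agent.S55.Formal.PreludeLC Fermat.Agent.S55.Bridge.ShapiroLC
open Fermat.Agent.S55.Formal.SmoothLift Fermat.Agent.S55.Formal.CoefExactSmooth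
open Fermat.Agent.S55.Middle.SubQuot Fermat.Agent.S55.LM.Defs Fermat.Agent.S55.KrasnerBridge

variable (q : Nat.Primes)

attribute [local instance] fact_q

/-! ### smoothness -/

/-- every element of `Ω` is fixed by a basic open subgroup of `Γ_q`. -/
theorem exists_mem_Vq_fixing (x : Om q) :
    ∃ U, (Vq q).mem U ∧ ∀ s ∈ U, toAut q s x = x := by
  obtain ⟨α, hα⟩ := exists_mem_adjoin_padicEmbedding (q : ℕ) x
  have : FiniteDimensional ℚ (IntermediateField.adjoin ℚ {α}) :=
    IntermediateField.adjoin.finiteDimensional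
      ((AlgebraicClosure.isAlgebraic ℚ).isAlgebraic α).isIntegral
  obtain ⟨U, hU, hle⟩ := exists_mem_localBasis_le (primeLocalToGlobal q)
    (IntermediateField.adjoin ℚ {α})
  refine ⟨U, hU, fun s hs => ?_⟩
  have hs' : primeLocalToGlobal q s ∈ (IntermediateField.adjoin ℚ {α}).fixingSubgroup := hle hs
  rw [IntermediateField.mem_fixingSubgroup_iff] at hs'
  have hα' : primeLocalToGlobal q s α = α :=
    hs' α (IntermediateField.mem_adjoin_simple_self ℚ α)
  have h1 : toAut q s (padicEmbedding (q : ℕ) α) = padicEmbedding (q : ℕ) α := by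
    have := padicEmbedding_localGaloisToGlobal (q : ℕ) (toAut q s) α
    rw [← this]
    exact congrArg _ hα'
  exact apply_eq_of_mem_adjoin (q : ℕ) (toAut q s) h1 hα

/-- `Ωˣ` is a smooth `Γ_q`-module. -/
theorem isSmooth_unitsRep : IsSmooth (Vq q) (unitsRep q) := by
  intro b
  obtain ⟨U, hU, hfix⟩ := exists_mem_Vq_fixing q ((toU q b : (Om q)ˣ) : Om q)
  refine ⟨U, hU, fun s hs => ?_⟩
  apply toU_injective
  apply Units.ext
  rw [coe_unitsRep_ρ]
  exact hfix s hs

/-- `Ωˣ` is a smooth `P`-module, for every subgroup `P ≤ Γ_q`. -/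
theorem isSmooth_Ox (P : Subgroup (Gq q)) : IsSmooth (VP q P) (Ox q P) := by
  intro b
  obtain ⟨U, hU, hfix⟩ := isSmooth_unitsRep q b
  exact ⟨U.subgroupOf P, ⟨U, hU, rfl⟩, fun s hs => hfix (s : Gq q) hs⟩


/-! ### the Kummer sequence -/

section Kummer

variable (n : ℕ) (P : Subgroup (Gq q))

/-- the underlying unit of an element of `Ox q P` -/
def toUP (a : Ox q P) : (Om q)ˣ := toU q (a : unitsRep q)

theorem toUP_injective : Function.Injective (toUP q P) := fun _ _ h => h

/-- a unit of `Ω` as an element of `Ox q P` -/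
def ofUP (u : (Om q)ˣ) : Ox q P := ofU q u

@[simp] theorem toUP_ofUP (u : (Om q)ˣ) : toUP q P (ofUP q P u) = u := rfl
@[simp] theorem ofUP_toUP (a : Ox q P) : ofUP q P (toUP q P a) = a := rfl

@[simp] theorem toUP_add (a b : Ox q P) : toUP q P (a + b) = toUP q P a * toUP q P b := rfl
@[simp] theorem toUP_zero : toUP q P (0 : Ox q P) = 1 := rfl
theorem toUP_zsmul (m : ℤ) (a : Ox q P) : toUP q P (m • a) = toUP q P a ^ m := rfl
theorem toUP_natCast_zsmul (m : ℕ) (a : Ox q P) : toUP q P ((m : ℤ) • a) = toUP q P a ^ m := by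
  rw [toUP_zsmul, zpow_natCast]

theorem coe_toUP_ρ (g : P) (a : Ox q P) :
    ((toUP q P ((Ox q P).ρ g a) : (Om q)ˣ) : Om q) =
      toAut q (g : Gq q) ((toUP q P a : (Om q)ˣ) : Om q) := rfl

/-- the `n`-th roots of unity, as a submodule of `Ox q P` -/
def muSub : Submodule ℤ (Ox q P) where
  carrier := {a | toUP q P a ^ n = 1}
  add_mem' := fun {a b} ha hb => by
    show toUP q P (a + b) ^ n = 1
    rw [toUP_add, mul_pow, ha, hb, one_mul]
  zero_mem' := by
    show toUP q P (0 : Ox q P) ^ n = 1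
    rw [toUP_zero, one_pow]
  smul_mem' := fun c a ha => by
    show toUP q P (c • a) ^ n = 1
    rw [toUP_zsmul, ← zpow_natCast, ← zpow_mul, mul_comm, zpow_mul, zpow_natCast, ha, one_zpow]

theorem mem_muSub_iff (a : Ox q P) : a ∈ muSub q n P ↔ toUP q P a ^ n = 1 := Iff.rfl

theorem muSub_stable : IsStable (Ox q P) (muSub q n P) := by
  intro g a ha
  show toUP q P ((Ox q P).ρ g a) ^ n = 1
  have ha' : toUP q P a ^ n = 1 := ha
  apply Units.ext
  rw [Units.val_pow_eq_pow_val, coe_toUP_ρ, ← map_pow, ← Units.val_pow_eq_pow_val, ha',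
    Units.val_one, map_one]

/-- `μ_n(Ω)` as a `P`-module -/
abbrev mu : Rep.{0, 0, 0} ℤ P := sub (muSub q n P) (muSub_stable q n P)

/-- the inclusion `μ_n → Ωˣ` -/
def muToOx : mu q n P ⟶ Ox q P := Rep.subtype (Ox q P) (muSub q n P) (muSub_stable q n P)

@[simp] theorem muToOx_apply (x : mu q n P) : (muToOx q n P).hom x = val x := rfl

/-- `x ↦ xⁿ` on `Ωˣ` -/
def powOx : Ox q P ⟶ Ox q P :=
  Rep.ofHom (ρ := (Ox q P).ρ) (σ := (Ox q P).ρ)
    (((n : ℤ) • (LinearMap.id : (Ox q P) →ₗ[ℤ] (Ox q P))).intertwiningMap_of_isIntertwiningMap _ _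
      (fun g x => by
        simp only [LinearMap.smul_apply, LinearMap.id_coe, id_eq, map_smul]))

@[simp] theorem powOx_apply (x : Ox q P) : (powOx q n P).hom x = (n : ℤ) • x := rfl

theorem toUP_powOx (x : Ox q P) : toUP q P ((powOx q n P).hom x) = toUP q P x ^ n := by
  rw [powOx_apply, toUP_natCast_zsmul]

theorem muToOx_injective : Function.Injective (muToOx q n P).hom := fun _ _ h => val_injective h

theorem exact_muToOx_powOx : Function.Exact (muToOx q n P).hom (powOx q n P).hom := by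
  intro x
  constructor
  · intro hx
    have h1 : toUP q P x ^ n = 1 := by
      rw [← toUP_powOx, hx, toUP_zero]
    exact ⟨mk' (muSub q n P) (muSub_stable q n P) x h1, rfl⟩
  · rintro ⟨y, rfl⟩
    apply toUP_injective
    rw [toUP_powOx, toUP_zero]
    exact val_mem y

theorem powOx_surjective (hn : n ≠ 0) : Function.Surjective (powOx q n P).hom := by
  intro b
  obtain ⟨z, hz⟩ := IsAlgClosed.exists_pow_nat_eq ((toUP q P b : (Om q)ˣ) : Om q)
    (Nat.pos_of_ne_zero hn)
  have hz0 : z ≠ 0 := by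
    rintro rfl
    rw [zero_pow hn] at hz
    exact (toUP q P b).ne_zero hz.symm
  refine ⟨ofUP q P (Units.mk0 z hz0), ?_⟩
  apply toUP_injective
  rw [toUP_powOx, toUP_ofUP]
  apply Units.ext
  rw [Units.val_pow_eq_pow_val]
  exact hz

/-- **The local Kummer sequence** `0 → μ_n → Ωˣ -n→ Ωˣ → 0` over `(P, VP q P)`, in the shape of
`Formal/CoefExactSmooth`: the whole LC long exact sequence follows. -/
theorem kummerSES (hn : n ≠ 0) : SES (VP q P) (muToOx q n P) (powOx q n P) where
  inj := muToOx_injective q n P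
  surj := powOx_surjective q n P hn
  exact := exact_muToOx_powOx q n P
  smooth := isSmooth_Ox q P

/-- `μ_n` is a smooth `P`-module. -/
theorem isSmooth_mu : IsSmooth (VP q P) (mu q n P) :=
  isSmooth_sub (VP q P) (muSub_stable q n P) (fun m _ => isSmooth_Ox q P m)

end Kummer

end Fermat.Agent.S55.LM.KummerLocal

end
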