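/-
S55 / LM block, row `LM.kummer` part (d) (helper90): LOCAL HILBERT 90 IN LC LANGUAGE.

* `generic_h90` : a group `P` acting on a field `Ω` by ring automorphisms, `U ≤ P` normal of finite
  index and *closed* (an element of `P` fixing all `U`-fixed elements of `Ω` lies in `U`); every
  crossed homomorphism `c : P → Ω \ {0}` which is right `U`-invariant is of the form `g ↦ g β / β`
  (Dedekind independence of characters; no identification of `P ⧸ U` with a Galois group needed).
* `h90_Ox` : for every subgroup `P ≤ Γ_q`, every LC `1`-cocycle of `(P, VP q P)` with values in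
  `Ox q P = Ωˣ` is an LC coboundary, i.e. `H¹_LC(P; Ωˣ) = 0`.
-/
import Mathlib
import Fermat.Agent.S55.LM.KummerLocal

set_option autoImplicit false

open CategoryTheory groupCohomology ExtCitation

noncomputable section

namespace Fermat.Agent.S55.LM.H90Local

open Fermat.Agent.S55.Formal Fermat.Agent.S55.Formal.PreludeLC Fermat.Agent.S55.Bridge.ShapiroLC
open Fermat.Agent.S55.Formal.SmoothLift
open Fermat.Agent.S55.LM.Defs Fermat.Agent.S55.LM.KummerLocal Fermat.Agent.S55.KrasnerBridge

/-! ### the generic lemma -/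

section Generic

variable {P Ω : Type} [Group P] [Field Ω] (act : P →* (Ω ≃+* Ω))
  (U : Subgroup P) [U.Normal] [U.FiniteIndex]

/-- the multiplicative monoid of `U`-fixed elements -/
def fixedMonoid : Submonoid Ω where
  carrier := {x | ∀ s ∈ U, act s x = x}
  one_mem' := fun s _ => map_one _
  mul_mem' := fun {a b} ha hb s hs => by rw [map_mul, ha s hs, hb s hs]

/-- the character `x ↦ g x` on the `U`-fixed elements -/
def charOf (g : P) : fixedMonoid act U →* Ω where
  toFun x := act g (x : Ω)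
  map_one' := map_one _
  map_mul' _ _ := map_mul _ _ _

theorem generic_h90
    (hclosed : ∀ g : P, (∀ x : Ω, (∀ s ∈ U, act s x = x) → act g x = x) → g ∈ U)
    (c : P → Ω) (hc0 : ∀ g, c g ≠ 0) (hcoc : ∀ g h, c (g * h) = c g * act g (c h))
    (hinv : ∀ g, ∀ s ∈ U, c (g * s) = c g) :
    ∃ β : Ω, β ≠ 0 ∧ ∀ g, c g = act g β / β := by
  classical
  have : Fintype (P ⧸ U) := Fintype.ofFinite _
  -- the characters attached to the cosets
  let χ : P ⧸ U → (fixedMonoid act U →* Ω) := fun d => charOf act U d.out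
  have hχ : Function.Injective χ := by
    intro d d' h
    have hmem : d.out⁻¹ * d'.out ∈ U := by
      apply hclosed
      intro x hx
      have h1 : act d.out x = act d'.out x :=
        DFunLike.congr_fun h (⟨x, hx⟩ : fixedMonoid act U)
      rw [map_mul, RingAut.mul_apply, ← h1, ← RingAut.mul_apply, ← map_mul, inv_mul_cancel,
        map_one, RingAut.one_apply]
    have := (QuotientGroup.eq (s := U)).2 hmem
    rwa [QuotientGroup.out_eq', QuotientGroup.out_eq'] at this
  have hli : LinearIndependent Ω (fun d : P ⧸ U => (χ d : fixedMonoid act U → Ω)) :=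
    (linearIndependent_monoidHom (fixedMonoid act U) Ω).comp χ hχ
  -- a point where the Poincaré series does not vanish
  have hne : (∑ d : P ⧸ U, c d.out • (χ d : fixedMonoid act U → Ω)) ≠ 0 := by
    intro h0
    have := Fintype.linearIndependent_iff.1 hli (fun d => c d.out) h0 ((1 : P) : P ⧸ U)
    exact hc0 _ this
  obtain ⟨z, hz⟩ : ∃ z : fixedMonoid act U,
      (∑ d : P ⧸ U, c d.out • (χ d : fixedMonoid act U → Ω)) z ≠ 0 := by
    by_contra hcon
    push Not at hcon
    exact hne (funext hcon)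
  -- the function `φ g = c g * g z` is right `U`-invariant
  let φ : P → Ω := fun g => c g * act g (z : Ω)
  have hφ : ∀ g, ∀ s ∈ U, φ (g * s) = φ g := by
    intro g s hs
    show c (g * s) * act (g * s) (z : Ω) = c g * act g (z : Ω)
    rw [hinv g s hs, map_mul, RingAut.mul_apply, z.2 s hs]
  have hφout : ∀ g : P, φ ((g : P ⧸ U).out) = φ g := by
    intro g
    obtain ⟨s, hs⟩ := QuotientGroup.mk_out_eq_mul U g
    rw [hs]
    exact hφ g s s.2
  set b : Ω := ∑ d : P ⧸ U, φ d.out with hb
  have hb0 : b ≠ 0 := by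
    have : (∑ d : P ⧸ U, c d.out • (χ d : fixedMonoid act U → Ω)) z = b := by
      rw [Finset.sum_apply]
      rfl
    rwa [this] at hz
  -- the transformation rule of `b`
  have hgb : ∀ g : P, act g b = (c g)⁻¹ * b := by
    intro g
    have h1 : ∀ d : P ⧸ U, act g (φ d.out) = (c g)⁻¹ * φ (((g : P ⧸ U) * d).out) := by
      intro d
      have hd : ((g : P ⧸ U) * d) = ((g * d.out : P) : P ⧸ U) := by
        rw [QuotientGroup.mk_mul, QuotientGroup.out_eq']
      rw [hd, hφout]
      show act g (c d.out * act d.out (z : Ω)) = (c g)⁻¹ * (c (g * d.out) * act (g * d.out) (z : Ω))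
      rw [hcoc, map_mul, map_mul, RingAut.mul_apply]
      field_simp [hc0 g]
    rw [hb, map_sum, Finset.mul_sum]
    calc ∑ d : P ⧸ U, act g (φ d.out)
        = ∑ d : P ⧸ U, (c g)⁻¹ * φ (((g : P ⧸ U) * d).out) :=
          Finset.sum_congr rfl fun d _ => h1 d
      _ = ∑ d : P ⧸ U, (c g)⁻¹ * φ d.out :=
          Equiv.sum_comp (Equiv.mulLeft (g : P ⧸ U)) (fun d : P ⧸ U => (c g)⁻¹ * φ d.out)
  refine ⟨b⁻¹, inv_ne_zero hb0, fun g => ?_⟩
  rw [map_inv₀, hgb]
  field_simp [hc0 g]

end Generic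

/-! ### the local application -/

section Local

variable (q : Nat.Primes)

attribute [local instance] fact_q

/-- the action of `P ≤ Γ_q` on `Ω` by ring automorphisms -/
def actP (P : Subgroup (Gq q)) : P →* (Om q ≃+* Om q) where
  toFun g := (toAut q (g : Gq q)).toRingEquiv
  map_one' := rfl
  map_mul' _ _ := rfl

@[simp] theorem actP_apply (P : Subgroup (Gq q)) (g : P) (x : Om q) :
    actP q P g x = toAut q (g : Gq q) x := rfl

/-- **Local Hilbert 90 in LC language**: `H¹_LC(P; Ωˣ) = 0` for every subgroup `P ≤ Γ_q`. -/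
theorem h90_Ox (P : Subgroup (Gq q)) (f : ↥(C₁ (VP q P) (Ox q P)))
    (hf : dC₁ (VP q P) (Ox q P) f = 0) :
    ∃ m : ↥(C₀ (VP q P) (Ox q P)), dC₀ (VP q P) (Ox q P) m = f := by
  obtain ⟨f, W, ⟨N, hN, rfl⟩, hlev⟩ := f
  have hNmem : (VP q P).mem (N.subgroupOf P) := ⟨N, hN, rfl⟩
  obtain ⟨F, hFfin, hFn, rfl⟩ := hN
  set U : Subgroup P := (F.fixingSubgroup.comap (primeLocalToGlobal q)).subgroupOf P with hU
  have : U.Normal := (VP q P).normal hNmem
  have : U.FiniteIndex := (VP q P).finiteIndex hNmem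
  -- the cocycle condition
  have hcoc : ∀ g h : P, f (g * h) = (Ox q P).ρ g (f h) + f g := by
    intro g h
    have h0 := congrFun (congrArg Subtype.val hf) (g, h)
    rw [dC₁_coe, d₁₂_hom_apply] at h0
    have h1 : (Ox q P).ρ g (f h) - f (g * h) + f g = 0 := h0
    rw [sub_add_eq_add_sub, sub_eq_zero] at h1
    exact h1.symm
  -- closedness of `U`
  have hclosed : ∀ g : P, (∀ x : Om q, (∀ s ∈ U, actP q P s x = x) → actP q P g x = x) → g ∈ U := by
    intro g hg
    rw [hU, Subgroup.mem_subgroupOf, Subgroup.mem_comap,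
      IntermediateField.mem_fixingSubgroup_iff]
    intro y hy
    apply (padicEmbedding (q : ℕ)).injective
    have hx : ∀ s ∈ U, actP q P s (padicEmbedding (q : ℕ) y) = padicEmbedding (q : ℕ) y := by
      intro s hs
      rw [hU, Subgroup.mem_subgroupOf, Subgroup.mem_comap,
        IntermediateField.mem_fixingSubgroup_iff] at hs
      rw [actP_apply, ← padicEmbedding_localGaloisToGlobal (q : ℕ) (toAut q (s : Gq q)) y]
      exact congrArg _ (hs y hy)
    have := hg _ hx
    rw [actP_apply, ← padicEmbedding_localGaloisToGlobal (q : ℕ) (toAut q (g : Gq q)) y] at this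
    exact this
  obtain ⟨β, hβ0, hβ⟩ := generic_h90 (actP q P) U hclosed
    (fun g => ((toUP q P (f g) : (Om q)ˣ) : Om q)) (fun g => Units.ne_zero _)
    (fun g h => by
      show ((toUP q P (f (g * h)) : (Om q)ˣ) : Om q) = _
      rw [hcoc g h, toUP_add, Units.val_mul, coe_toUP_ρ, mul_comm]
      rfl)
    (fun g s hs => by
      show ((toUP q P (f (g * s)) : (Om q)ˣ) : Om q) = _
      rw [(hlev s hs g).1])
  refine ⟨⟨ofUP q P (Units.mk0 β hβ0), isSmooth_Ox q P _⟩, Subtype.ext (funext fun g => ?_)⟩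
  rw [dC₀_coe, d₀₁_hom_apply]
  apply toUP_injective
  apply Units.ext
  show ((toUP q P ((Ox q P).ρ g (ofUP q P (Units.mk0 β hβ0)) - ofUP q P (Units.mk0 β hβ0)) :
    (Om q)ˣ) : Om q) = ((toUP q P (f g) : (Om q)ˣ) : Om q)
  have h3 : toUP q P ((Ox q P).ρ g (ofUP q P (Units.mk0 β hβ0)) - ofUP q P (Units.mk0 β hβ0)) =
      toUP q P ((Ox q P).ρ g (ofUP q P (Units.mk0 β hβ0))) / toUP q P (ofUP q P (Units.mk0 β hβ0)) :=
    rfl
  rw [h3, Units.val_div_eq_div_val, coe_toUP_ρ, toUP_ofUP, Units.val_mk0, hβ g]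
  rfl

/-- `H¹_LC(P; Ωˣ)` is trivial. -/
theorem subsingleton_H1_Ox (P : Subgroup (Gq q)) : Subsingleton (H1 (VP q P) (Ox q P)) := by
  refine ⟨fun x y => ?_⟩
  have h0 : ∀ z : H1 (VP q P) (Ox q P), z = 0 := by
    intro z
    obtain ⟨b, hb, rfl⟩ := Hmid.exists_of z
    rw [Hmid.of_eq_zero_iff]
    exact h90_Ox q P b hb
  rw [h0 x, h0 y]

/-- the connecting map `δ₀ : H⁰(P; Ωˣ) → H¹_LC(P; μ_n)` of the Kummer sequence is onto. -/
theorem δ₀_kummer_surjective (P : Subgroup (Gq q)) (n : ℕ) (hn : n ≠ 0) :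
    Function.Surjective (CoefExactSmooth.δ₀ (kummerSES q n P hn)) := by
  intro x
  have hx : (Mor.ofHom (VP q P) (muToOx q n P)).h1 x = 0 :=
    (subsingleton_H1_Ox q P).elim _ _
  exact (CoefExactSmooth.exact_δ₀_h1 (kummerSES q n P hn) x).1 hx

end Local

end Fermat.Agent.S55.LM.H90Local

end
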