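/-
S55 / LM — row (LM.h1), FINAL FORM: hypothesis-free up to `PowIndex`.  (helper65)

`H1Bound.finrank_H1_trivial_le` / `H1BoundPerm.finrank_H1_perm_le` with the LC Hilbert 90 hypothesis
discharged by helper90's `LM/H90Local.h90_Ox` (`H¹_LC(P; Ωˣ) = 0` for every subgroup `P ≤ Γ_q`).
-/
import Mathlib
import Fermat.Agent.S55.LM.H1BoundPerm
import Fermat.Agent.S55.LM.H90Local

set_option autoImplicit false

open CategoryTheory groupCohomology ExtCitation

noncomputable section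

namespace Fermat.Agent.S55.LM.H1Final

open Fermat.Agent.S55.Formal Fermat.Agent.S55.Formal.PreludeLC Fermat.Agent.S55.Bridge.ShapiroLC
  Fermat.Agent.S55.LM.Defs Fermat.Agent.S55.LM.H1Core

variable {q : Nat.Primes}

attribute [local instance] fact_q

/-- helper90's local LC Hilbert 90 in the `H1Core.H90` shape. -/
theorem h90 (P : Subgroup (Gq q)) : H90 (VP q P) (Ox q P) :=
  fun f hf => H90Local.h90_Ox q P f hf

/-- **(LM.h1)**, trivial coefficients: `χ_p` trivial on `P`, `E` the fixed field of `P`: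
`H¹_LC(P; 𝔽_p)` is finite and `p ^ dim ≤ [Eˣ : (Eˣ)^p]`. -/
theorem finrank_H1_trivial_le (p : ℕ) [Fact p.Prime] (P : Subgroup (Gq q))
    (hχ : ∀ s ∈ P, cycloChar p (primeLocalToGlobal q s) = 1)
    (E : IntermediateField ℚ_[(q : ℕ)] (Om q))
    (hE : ∀ x : Om q, x ∈ E ↔ ∀ g ∈ P, toAut q g x = x)
    (hfin : (powMonoidHom p : (↥E)ˣ →* (↥E)ˣ).range.index ≠ 0) :
    Module.Finite (ZMod p) (H1 (VP q P) (Rep.trivial (ZMod p) P (ZMod p))) ∧
      p ^ Module.finrank (ZMod p) (H1 (VP q P) (Rep.trivial (ZMod p) P (ZMod p))) ≤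
        (powMonoidHom p : (↥E)ˣ →* (↥E)ˣ).range.index :=
  H1Bound.finrank_H1_trivial_le p P hχ (h90 P) E hE hfin

/-- **(LM.h1)**, permutation module over `Γ_q` (the `BaseA`/(C6)[b] side shape). -/
theorem finrank_H1_perm_le (p : ℕ) [Fact p.Prime] (P : Subgroup (Gq q)) (hP : (Vq q).IsOpen P)
    (hχ : ∀ s ∈ P, cycloChar p (primeLocalToGlobal q s) = 1)
    (E : IntermediateField ℚ_[(q : ℕ)] (Om q))
    (hE : ∀ x : Om q, x ∈ E ↔ ∀ g ∈ P, toAut q g x = x)
    (hfin : (powMonoidHom p : (↥E)ˣ →* (↥E)ˣ).range.index ≠ 0) :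
    Module.Finite (ZMod p) (H1 (Vq q) (perm (ZMod p) P)) ∧
      p ^ Module.finrank (ZMod p) (H1 (Vq q) (perm (ZMod p) P)) ≤
        (powMonoidHom p : (↥E)ˣ →* (↥E)ˣ).range.index :=
  H1BoundPerm.finrank_H1_perm_le p P hP hχ (h90 P) E hE hfin

end Fermat.Agent.S55.LM.H1Final

end
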