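/-
S55 / LM — count (C6)[b], PER PLACE, hypothesis-free (helper11).

For `q ∈ S`, an open subgroup `P ≤ Γ_q` on which the mod `p` cyclotomic character is trivial:

  `finrank_H1_trivial_le_index : Module.Finite 𝔽_p H¹_LC(P; 𝔽_p) ∧
       dim H¹_LC(P; 𝔽_p) ≤ 2 + (if q = p then [Γ_q : P] else 0)`

(and the same for `H¹_LC(Γ_q; 𝔽_p[Γ_q/P])`).  Chain: helper65 `H1Final` (Kummer + local Hilbert 90:
`p ^ dim ≤ [Eˣ : Eˣᵖ]`, `E = Ω^P`) + `PowIndexConcrete` (helper62 `PowIndex` + `LocalDegreeIndex`: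
`[Eˣ : Eˣᵖ] ≤ p ^ (2 + δ [E : ℚ_p])`) + helper92 `GaloisDict` + Mathlib
`finrank_eq_fixingSubgroup_index` (`[E : ℚ_q] = [Γ_q : P]`).  Summing over the double coset
representatives with `Middle/OrbitSum.sum_index_conjSub` gives `dim P¹ ≤ 2 |S_K| + [K : ℚ]`.
-/
import Mathlib
import Fermat.Agent.S55.LM.H1Final
import Fermat.Agent.S55.LM.GaloisDict
import Fermat.Agent.S55.Local.PowIndexConcrete

set_option autoImplicit false
set_option linter.unusedSectionVars false

open CategoryTheory groupCohomology ExtCitation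

noncomputable section

namespace Fermat.Agent.S55.LM.H1PlaceBound

open Fermat.Agent.S55.Formal Fermat.Agent.S55.Formal.PreludeLC Fermat.Agent.S55.Bridge.ShapiroLC
  Fermat.Agent.S55.LM.Defs Fermat.Agent.S55.LM.H1Core Fermat.Agent.S55.LM.GaloisDict
  Fermat.Agent.S55.Local

section dict

variable (q : ℕ) [Fact q.Prime]

/-- `[Ω^P : ℚ_q] = [Γ_q : P]` for an open subgroup `P`. -/
theorem finrank_fixedField_eq_index {P : Subgroup (Gam q)} (hP : IsOpenSub q P) :
    Module.finrank ℚ_[q] (IntermediateField.fixedField P : IntermediateField ℚ_[q] (PadicAlgCl q)) =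
      P.index := by
  have := isGalois_padicAlgCl q
  rw [IntermediateField.finrank_eq_fixingSubgroup_index, fixingSubgroup_fixedField q hP]

end dict

variable {q : Nat.Primes}

attribute [local instance] fact_q

/-- a primitive `p`-th root of unity in the fixed field of `P` when `χ_p` is trivial on `P` -/
theorem exists_primitiveRoot_fixedField (p : ℕ) [Fact p.Prime] (P : Subgroup (Gam (q : ℕ)))
    (hχ : ∀ s ∈ P, cycloChar p (localGaloisToGlobal (q : ℕ) s) = 1) :
    ∃ ζ : ↥(IntermediateField.fixedField P : IntermediateField ℚ_[(q : ℕ)] (PadicAlgCl (q : ℕ))),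
      IsPrimitiveRoot ζ p := by
  obtain ⟨ζ₀, hζ₀⟩ := H1Bound.exists_primitiveRoot_Qbar p
  set ζ : PadicAlgCl (q : ℕ) := padicEmbedding (q : ℕ) ζ₀ with hζdef
  have hζ : IsPrimitiveRoot ζ p :=
    hζ₀.map_of_injective (f := padicEmbedding (q : ℕ)) (padicEmbedding (q : ℕ)).injective
  have hfixζ : ∀ s ∈ P, s ζ = ζ := by
    intro s hs
    have h1 := padicEmbedding_localGaloisToGlobal (q : ℕ) s ζ₀
    have h2 : (localGaloisToGlobal (q : ℕ) s) ζ₀ = ζ₀ :=
      H1Bound.apply_root_of_cycloChar_eq_one p _ (hχ s hs) ζ₀ hζ₀.pow_eq_one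
    rw [h2] at h1
    exact h1.symm
  have hmem : ζ ∈ (IntermediateField.fixedField P :
      IntermediateField ℚ_[(q : ℕ)] (PadicAlgCl (q : ℕ))) := by
    rw [IntermediateField.mem_fixedField_iff]
    exact hfixζ
  refine ⟨⟨ζ, hmem⟩, ?_⟩
  exact IsPrimitiveRoot.of_map_of_injective (f := (IntermediateField.fixedField P :
      IntermediateField ℚ_[(q : ℕ)] (PadicAlgCl (q : ℕ))).val) (by simpa using hζ)
    (IntermediateField.fixedField P).val.injective


/-- **Count (C6)[b], per place**: for an open `P ≤ Γ_q` on which `χ_p` is trivial,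
`dim H¹_LC(P; 𝔽_p) ≤ 2 + [Γ_p : P]` if `q = p`, and `≤ 2` if `q ≠ p`. -/
theorem finrank_H1_trivial_le_index (p : ℕ) [Fact p.Prime] (P : Subgroup (Gq q))
    (hP : (Vq q).IsOpen P)
    (hχ : ∀ s ∈ P, cycloChar p (primeLocalToGlobal q s) = 1) :
    Module.Finite (ZMod p) (H1 (VP q P) (Rep.trivial (ZMod p) P (ZMod p))) ∧
      Module.finrank (ZMod p) (H1 (VP q P) (Rep.trivial (ZMod p) P (ZMod p))) ≤
        2 + if (q : ℕ) = p then P.index else 0 := by
  have hP' : IsOpenSub (q : ℕ) (P : Subgroup (Gam (q : ℕ))) := hP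
  set E : IntermediateField ℚ_[(q : ℕ)] (Om q) :=
    (IntermediateField.fixedField (P : Subgroup (Gam (q : ℕ))) :
      IntermediateField ℚ_[(q : ℕ)] (PadicAlgCl (q : ℕ))) with hEdef
  have hE : ∀ x : Om q, x ∈ E ↔ ∀ g ∈ P, toAut q g x = x := fun x =>
    IntermediateField.mem_fixedField_iff _ x
  have hfd : FiniteDimensional ℚ_[(q : ℕ)] E := finiteDimensional_fixedField (q : ℕ) hP'
  obtain ⟨ζ, hζ⟩ := exists_primitiveRoot_fixedField (q := q) p (P : Subgroup (Gam (q : ℕ))) hχ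
  have hne : (powMonoidHom p : (↥E)ˣ →* (↥E)ˣ).range.index ≠ 0 :=
    PowIndexConcrete.index_pow_ne_zero (q : ℕ) p E hζ
  obtain ⟨hfinite, hle⟩ := H1Final.finrank_H1_trivial_le p P hχ E hE hne
  refine ⟨hfinite, ?_⟩
  have h2 := PowIndexConcrete.index_pow_le (q : ℕ) p E hζ
  have h3 : Module.finrank ℚ_[(q : ℕ)] E = P.index :=
    finrank_fixedField_eq_index (q : ℕ) hP'
  rw [h3] at h2
  exact (Nat.pow_le_pow_iff_right (Fact.out : p.Prime).one_lt).mp (hle.trans h2)


/-- The same for the permutation module over `Γ_q` (the `BaseA` side shape). -/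
theorem finrank_H1_perm_le_index (p : ℕ) [Fact p.Prime] (P : Subgroup (Gq q))
    (hP : (Vq q).IsOpen P)
    (hχ : ∀ s ∈ P, cycloChar p (primeLocalToGlobal q s) = 1) :
    Module.Finite (ZMod p) (H1 (Vq q) (perm (ZMod p) P)) ∧
      Module.finrank (ZMod p) (H1 (Vq q) (perm (ZMod p) P)) ≤
        2 + if (q : ℕ) = p then P.index else 0 := by
  have hP' : IsOpenSub (q : ℕ) (P : Subgroup (Gam (q : ℕ))) := hP
  set E : IntermediateField ℚ_[(q : ℕ)] (Om q) :=
    (IntermediateField.fixedField (P : Subgroup (Gam (q : ℕ))) :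
      IntermediateField ℚ_[(q : ℕ)] (PadicAlgCl (q : ℕ))) with hEdef
  have hE : ∀ x : Om q, x ∈ E ↔ ∀ g ∈ P, toAut q g x = x := fun x =>
    IntermediateField.mem_fixedField_iff _ x
  have hfd : FiniteDimensional ℚ_[(q : ℕ)] E := finiteDimensional_fixedField (q : ℕ) hP'
  obtain ⟨ζ, hζ⟩ := exists_primitiveRoot_fixedField (q := q) p (P : Subgroup (Gam (q : ℕ))) hχ
  have hne : (powMonoidHom p : (↥E)ˣ →* (↥E)ˣ).range.index ≠ 0 :=
    PowIndexConcrete.index_pow_ne_zero (q : ℕ) p E hζ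
  obtain ⟨hfinite, hle⟩ := H1Final.finrank_H1_perm_le p P hP hχ E hE hne
  refine ⟨hfinite, ?_⟩
  have h2 := PowIndexConcrete.index_pow_le (q : ℕ) p E hζ
  have h3 : Module.finrank ℚ_[(q : ℕ)] E = P.index :=
    finrank_fixedField_eq_index (q : ℕ) hP'
  rw [h3] at h2
  exact (Nat.pow_le_pow_iff_right (Fact.out : p.Prime).one_lt).mp (hle.trans h2)

end Fermat.Agent.S55.LM.H1PlaceBound

end
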