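/-
S55 / LM — CYCLOTOMIC GROWTH, LOCAL FORM, directly in LC language (helper11, claim M.cycloGrow.local).

This is the level-existence input of `Middle/ImageLevel` (`htors`) next to `LM/TorsLevel`:
for an open subgroup `D ≤ Γ_q` on which the mod `p` cyclotomic character is trivial and every `k`,
there are members `N` of the local basis `𝒱_q` (as deep as we like) with `p ^ k ∣ [D : D ∩ N]`;
concretely `N = cycN q p m := (ℚ(μ_{p^m})).fixingSubgroup.comap (primeLocalToGlobal q)`, `m ≫ 0`.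

* `muField p m : IntermediateField ℚ Qbar := adjoin ℚ {t | t ^ (p ^ m) = 1}` (literally the body of
  `CycloPow.cycloPowField`), `mem_fixingSubgroup_muField_iff`, `finiteDimensional_muField`,
  `normal_fixingSubgroup_muField`, `fixingSubgroup_muField_antitone`;
* `pow_mem_fixingSubgroup_muField` : `χ_p(σ) = 1 ⇒ σ ^ (p ^ m)` fixes `μ_{p^m}` (so the quotients are
  `p`-groups);
* `norm_natCast_le_dist` : distinct `p`-power roots of unity of an ultrametric normed field are
  `‖p‖`-separated; `finite_pPowRoots` : a finite extension of `ℚ_q` inside `ℚ̄_q` contains only finitely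
  many `p`-power roots of unity (separation + compactness of the unit ball);
* `cycN`, `cycN_mem : (Vq q).mem (cycN q p m)`, `cycN_subgroupOf_mem : (VP q D).mem _`;
* **`exists_pow_dvd_index`** : `(Vq q).IsOpen D → (∀ s ∈ D, χ_p (ι_q s) = 1) → ∀ k, ∃ m₀, ∀ m ≥ m₀,
  p ^ k ∣ ((cycN q p m).subgroupOf D).index`;  `exists_mem_le_pow_dvd_index` (below any given level);
* K-site form: `comap_conjHom_subgroupOf` (pull-back of a level `N ⊴ G_ℚ` along `κ_t`) and
  `exists_pow_dvd_index_conj` (for `D = conjSub ι_q P t`, level `= ℚ(μ_{p^m})`-level of `P`).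

No completions of number fields, no `e·f` dictionary: the proof is purely local.
-/
import Mathlib
import Fermat.Agent.S55.LM.H1PlaceBound
import Fermat.Agent.S55.Bridge.Mackey

set_option autoImplicit false
set_option linter.style.haveILetI false
set_option linter.unusedSectionVars false

open ExtCitation

noncomputable section

namespace Fermat.Agent.S55.LM.CycloGrowLocal

open Fermat.Agent.S55.Formal Fermat.Agent.S55.Formal.PreludeLC Fermat.Agent.S55.LM.GaloisDict

section sepA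


section sep

variable {L : Type*} [NormedField L] [IsUltrametricDist L]

/-- `‖ξ^n - 1‖ ≤ ‖ξ - 1‖` for `‖ξ‖ ≤ 1` in an ultrametric normed field. -/
theorem norm_pow_sub_one_le {ξ : L} (hξ : ‖ξ‖ ≤ 1) (n : ℕ) : ‖ξ ^ n - 1‖ ≤ ‖ξ - 1‖ := by
  rw [← geom_sum_mul, norm_mul]
  have h1 : ‖∑ i ∈ Finset.range n, ξ ^ i‖ ≤ 1 := by
    refine IsUltrametricDist.norm_sum_le_of_forall_le_of_nonneg zero_le_one (fun i _ => ?_)
    rw [norm_pow]
    exact pow_le_one₀ (norm_nonneg _) hξ
  calc ‖∑ i ∈ Finset.range n, ξ ^ i‖ * ‖ξ - 1‖ ≤ 1 * ‖ξ - 1‖ :=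
        mul_le_mul_of_nonneg_right h1 (norm_nonneg _)
    _ = ‖ξ - 1‖ := one_mul _

/-- a root of unity has norm one -/
theorem norm_eq_one_of_pow_eq_one {x : L} {n : ℕ} (hn : n ≠ 0) (hx : x ^ n = 1) : ‖x‖ = 1 := by
  have h : ‖x‖ ^ n = 1 := by rw [← norm_pow, hx, norm_one]
  exact (pow_eq_one_iff_of_nonneg (norm_nonneg _) hn).mp h

/-- for `ω ≠ 1` with `ω ^ p = 1`: `‖p‖ ≤ ‖ω - 1‖`. -/
theorem norm_natCast_le_of_pow_eq_one {ω : L} {p : ℕ} (hp : p ≠ 0) (hω : ω ^ p = 1) (h1 : ω ≠ 1) :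
    ‖(p : L)‖ ≤ ‖ω - 1‖ := by
  have hnorm : ‖ω‖ ≤ 1 := (norm_eq_one_of_pow_eq_one hp hω).le
  have hsum : ∑ i ∈ Finset.range p, ω ^ i = 0 := by
    have h := geom_sum_mul ω p
    rw [hω, sub_self] at h
    exact (mul_eq_zero.mp h).resolve_right (sub_ne_zero.mpr h1)
  have hp' : (p : L) = - ∑ i ∈ Finset.range p, (ω ^ i - 1) := by
    rw [Finset.sum_sub_distrib, hsum]
    simp
  rw [hp', norm_neg]
  refine IsUltrametricDist.norm_sum_le_of_forall_le_of_nonneg (norm_nonneg _) (fun i _ => ?_)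
  exact norm_pow_sub_one_le hnorm i

/-- distinct `p`-power roots of unity are `‖p‖`-separated. -/
theorem norm_natCast_le_dist {p : ℕ} (hp : p.Prime) {x y : L} (hx : ∃ j : ℕ, x ^ p ^ j = 1)
    (hy : ∃ j : ℕ, y ^ p ^ j = 1) (hxy : x ≠ y) : ‖(p : L)‖ ≤ ‖x - y‖ := by
  obtain ⟨a, ha⟩ := hx
  obtain ⟨b, hb⟩ := hy
  have hy0 : y ≠ 0 := by
    rintro rfl
    rw [zero_pow (pow_ne_zero _ hp.ne_zero)] at hb
    exact zero_ne_one hb
  have hyn : ‖y‖ = 1 := norm_eq_one_of_pow_eq_one (pow_ne_zero b hp.ne_zero) hb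
  set ξ : L := x / y with hξdef
  have hξ1 : ξ ≠ 1 := by
    intro h
    exact hxy ((div_eq_one_iff_eq hy0).mp h)
  have hξpow : ξ ^ p ^ (a + b) = 1 := by
    rw [hξdef, div_pow, pow_add, pow_mul, ha, one_pow, mul_comm, pow_mul, hb, one_pow, div_one]
  have hξn : ‖ξ‖ ≤ 1 := (norm_eq_one_of_pow_eq_one (pow_ne_zero _ hp.ne_zero) hξpow).le
  -- least `i` with `ξ ^ p ^ i = 1`
  classical
  let i := Nat.find (⟨a + b, hξpow⟩ : ∃ i, ξ ^ p ^ i = 1)
  have hi : ξ ^ p ^ i = 1 := Nat.find_spec (⟨a + b, hξpow⟩ : ∃ i, ξ ^ p ^ i = 1)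
  have hi0 : i ≠ 0 := by
    intro h0
    rw [h0, pow_zero, pow_one] at hi
    exact hξ1 hi
  obtain ⟨i', hi'⟩ := Nat.exists_eq_succ_of_ne_zero hi0
  have hmin : ξ ^ p ^ i' ≠ 1 := by
    intro h
    have := Nat.find_min' (⟨a + b, hξpow⟩ : ∃ i, ξ ^ p ^ i = 1) h
    omega
  set ω : L := ξ ^ p ^ i' with hωdef
  have hωp : ω ^ p = 1 := by
    rw [hωdef, ← pow_mul, ← pow_succ, ← Nat.succ_eq_add_one, ← hi']
    exact hi
  have h2 : ‖(p : L)‖ ≤ ‖ω - 1‖ := norm_natCast_le_of_pow_eq_one hp.ne_zero hωp hmin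
  have h3 : ‖ω - 1‖ ≤ ‖ξ - 1‖ := norm_pow_sub_one_le hξn _
  have h4 : ‖x - y‖ = ‖ξ - 1‖ := by
    have : x - y = y * (ξ - 1) := by
      rw [hξdef]; field_simp
    rw [this, norm_mul, hyn, one_mul]
  rw [h4]
  exact h2.trans h3

end sep


end sepA

section sepB


/-- an `ε`-separated subset of a compact set is finite -/
theorem finite_of_sep_of_isCompact {α : Type*} [PseudoMetricSpace α] {K T : Set α}
    (hK : IsCompact K) (hT : T ⊆ K) {ε : ℝ} (hε : 0 < ε)
    (hsep : ∀ x ∈ T, ∀ y ∈ T, x ≠ y → ε ≤ dist x y) : T.Finite := by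
  classical
  obtain ⟨t, _, htfin, hcov⟩ := finite_cover_balls_of_compact hK (half_pos hε)
  have hex : ∀ y ∈ T, ∃ x ∈ t, y ∈ Metric.ball x (ε / 2) := by
    intro y hy
    have := hcov (hT hy)
    simpa using this
  choose! f hf using hex
  refine Set.Finite.of_injOn (f := f) (t := t) (fun y hy => (hf y hy).1) ?_ htfin
  intro y hy y' hy' heq
  by_contra hne
  have h1 := (hf y hy).2
  have h2 := (hf y' hy').2
  rw [heq] at h1
  have h3 : dist y y' < ε := by
    calc dist y y' ≤ dist y (f y') + dist y' (f y') := dist_triangle_right _ _ _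
      _ < ε / 2 + ε / 2 := add_lt_add (Metric.mem_ball.mp h1) (Metric.mem_ball.mp h2)
      _ = ε := add_halves ε
  exact absurd (hsep y hy y' hy' hne) (not_le.mpr h3)


end sepB

section sepC


variable (q : ℕ) [Fact q.Prime]

/-- a finite extension of `ℚ_q` inside `ℚ̄_q` contains only finitely many `p`-power roots of
unity. -/
theorem finite_pPowRoots (p : ℕ) (hp : p.Prime)
    (F : IntermediateField ℚ_[q] (PadicAlgCl q)) [FiniteDimensional ℚ_[q] F] :
    {x : PadicAlgCl q | x ∈ F ∧ ∃ j : ℕ, x ^ p ^ j = 1}.Finite := by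
  haveI : ProperSpace F := FiniteDimensional.proper ℚ_[q] F
  set T : Set F := {x | ∃ j : ℕ, (x : PadicAlgCl q) ^ p ^ j = 1} with hT
  have hp0 : ‖((p : ℕ) : PadicAlgCl q)‖ ≠ 0 := by
    rw [norm_ne_zero_iff]
    exact_mod_cast hp.ne_zero
  have hfin : T.Finite := by
    refine finite_of_sep_of_isCompact (isCompact_closedBall (0 : F) 1) ?_
      (lt_of_le_of_ne (norm_nonneg _) (Ne.symm hp0)) ?_
    · rintro x ⟨j, hj⟩
      rw [mem_closedBall_zero_iff]
      have : ‖(x : PadicAlgCl q)‖ = 1 :=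
        norm_eq_one_of_pow_eq_one (pow_ne_zero j hp.ne_zero) hj
      exact this.le
    · intro x hx y hy hxy
      have hxy' : (x : PadicAlgCl q) ≠ y := fun h => hxy (Subtype.ext h)
      have := norm_natCast_le_dist hp hx hy hxy'
      rw [dist_eq_norm]
      exact this
  have : {x : PadicAlgCl q | x ∈ F ∧ ∃ j : ℕ, x ^ p ^ j = 1} = (fun x : F => (x : PadicAlgCl q)) '' T := by
    ext x
    constructor
    · rintro ⟨hxF, hx⟩
      exact ⟨⟨x, hxF⟩, hx, rfl⟩
    · rintro ⟨y, hy, rfl⟩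
      exact ⟨y.2, hy⟩
  rw [this]
  exact hfin.image _


end sepC

section globA



variable (p : ℕ) (m : ℕ)

/-- `ℚ(μ_{p^m}) ⊆ ℚ̄` -/
def muField : IntermediateField ℚ Qbar :=
  IntermediateField.adjoin ℚ {t : Qbar | t ^ (p ^ m) = 1}

theorem mem_fixingSubgroup_muField_iff (σ : GQ) :
    σ ∈ (muField p m).fixingSubgroup ↔ ∀ t : Qbar, t ^ (p ^ m) = 1 → σ t = t := by
  rw [IntermediateField.mem_fixingSubgroup_iff]
  constructor
  · intro h t ht
    exact h t (IntermediateField.subset_adjoin ℚ _ ht)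
  · intro h x hx
    induction hx using IntermediateField.adjoin_induction with
    | mem t ht => exact h t ht
    | algebraMap a => exact σ.commutes a
    | add x y _ _ hx hy => rw [map_add, hx, hy]
    | inv x _ hx => rw [map_inv₀, hx]
    | mul x y _ _ hx hy => rw [map_mul, hx, hy]

theorem finite_muSet (hp : p ≠ 0) : {t : Qbar | t ^ (p ^ m) = 1}.Finite := by
  have hpos : 0 < p ^ m := pow_pos (Nat.pos_of_ne_zero hp) m
  refine Set.Finite.subset (Polynomial.nthRoots (p ^ m) (1 : Qbar)).toFinset.finite_toSet ?_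
  intro t ht
  simp only [Finset.mem_coe, Multiset.mem_toFinset]
  exact (Polynomial.mem_nthRoots hpos).mpr ht

theorem finiteDimensional_muField (hp : p ≠ 0) : FiniteDimensional ℚ (muField p m) := by
  haveI : Finite {t : Qbar | t ^ (p ^ m) = 1} := (finite_muSet p m hp).to_subtype
  refine IntermediateField.finiteDimensional_adjoin (fun x _ => ?_)
  exact (AlgebraicClosure.isAlgebraic ℚ).isIntegral.isIntegral x

theorem normal_fixingSubgroup_muField : (muField p m).fixingSubgroup.Normal := by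
  refine ⟨fun σ hσ τ => ?_⟩
  rw [mem_fixingSubgroup_muField_iff] at hσ ⊢
  intro t ht
  have h1 : (τ⁻¹ t) ^ (p ^ m) = 1 := by
    rw [← map_pow, ht, map_one]
  have h2 := hσ _ h1
  show τ (σ (τ⁻¹ t)) = t
  rw [h2]
  exact AlgEquiv.apply_symm_apply τ t

theorem fixingSubgroup_muField_antitone {m m' : ℕ} (h : m ≤ m') :
    (muField p m').fixingSubgroup ≤ (muField p m).fixingSubgroup := by
  intro σ hσ
  rw [mem_fixingSubgroup_muField_iff] at hσ ⊢
  intro t ht
  refine hσ t ?_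
  obtain ⟨d, rfl⟩ := Nat.exists_eq_add_of_le h
  rw [pow_add, pow_mul, ht, one_pow]


end globA

section globB



variable (p : ℕ) [Fact p.Prime]

theorem exists_primitiveRoot_pow (m : ℕ) : ∃ ζ : Qbar, IsPrimitiveRoot ζ (p ^ m) := by
  have hne : p ^ m ≠ 0 := pow_ne_zero m (Fact.out : p.Prime).ne_zero
  have : NeZero (p ^ m) := ⟨hne⟩
  have : NeZero ((p ^ m : ℕ) : Qbar) := ⟨by exact_mod_cast hne⟩
  exact HasEnoughRootsOfUnity.exists_primitiveRoot Qbar (p ^ m)

theorem pow_eq_pow_iff_of_isPrimitiveRoot {ζ : Qbar} {k : ℕ} (hk : k ≠ 0)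
    (hζ : IsPrimitiveRoot ζ k) (a b : ℕ) : ζ ^ a = ζ ^ b ↔ a ≡ b [MOD k] := by
  obtain ⟨u, rfl⟩ := hζ.isUnit hk
  have hu : IsPrimitiveRoot u k := IsPrimitiveRoot.coe_units_iff.mp hζ
  rw [hu.eq_orderOf, ← pow_eq_pow_iff_modEq, ← Units.val_pow_eq_pow_val, ← Units.val_pow_eq_pow_val,
    Units.val_inj]

/-- `σ^j ζ = ζ^(c^j)` when `σ ζ = ζ^c`. -/
theorem pow_apply_of_apply_eq_pow (σ : GQ) (ζ : Qbar) (c : ℕ) (h : σ ζ = ζ ^ c) (j : ℕ) :
    (σ ^ j) ζ = ζ ^ (c ^ j) := by
  induction j with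
  | zero => simp
  | succ j ih =>
    rw [pow_succ, AlgEquiv.mul_apply, h, map_pow, ih, ← pow_mul, ← pow_succ]

/-- if `χ_p(σ) = 1` then `σ^(p^m)` fixes the `p^m`-th roots of unity. -/
theorem pow_mem_fixingSubgroup_muField (σ : GQ) (hσ : cycloChar p σ = 1) (m : ℕ) :
    σ ^ (p ^ m) ∈ (muField p m).fixingSubgroup := by
  have hp : p.Prime := Fact.out
  have hne : p ^ m ≠ 0 := pow_ne_zero m hp.ne_zero
  haveI : NeZero (p ^ m) := ⟨hne⟩
  obtain ⟨ζ, hζ⟩ := exists_primitiveRoot_pow p m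
  -- `σ ζ = ζ ^ c`
  have hσζ : (σ ζ) ^ (p ^ m) = 1 := by rw [← map_pow, hζ.pow_eq_one, map_one]
  obtain ⟨c, -, hc⟩ := hζ.eq_pow_of_pow_eq_one hσζ
  have hc' : σ ζ = ζ ^ c := hc.symm
  -- the key: `(σ ^ (p^m)) ζ = ζ`
  have hkey : (σ ^ (p ^ m)) ζ = ζ := by
    rcases Nat.eq_zero_or_pos m with hm | hm
    · subst hm
      have : ζ = 1 := by simpa using hζ
      rw [this, map_one]
    · obtain ⟨m', rfl⟩ := Nat.exists_eq_succ_of_ne_zero hm.ne'
      -- `σ` fixes `ω = ζ ^ (p^m')`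
      have hω : (ζ ^ (p ^ m')) ^ p = 1 := by
        rw [← pow_mul, ← pow_succ]; exact hζ.pow_eq_one
      have hfix := H1Bound.apply_root_of_cycloChar_eq_one p σ hσ _ hω
      rw [map_pow, hc', ← pow_mul] at hfix
      -- `c * p^m' ≡ p^m' mod p^(m'+1)`
      have hmod : c * p ^ m' ≡ 1 * p ^ m' [MOD p * p ^ m'] := by
        have := (pow_eq_pow_iff_of_isPrimitiveRoot hne hζ (c * p ^ m') (1 * p ^ m')).mp
          (by rw [one_mul]; exact hfix)
        rwa [Nat.succ_eq_add_one, pow_succ, mul_comm (p ^ m') p] at this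
      have hc1 : c ≡ 1 [MOD p] := Nat.ModEq.mul_right_cancel' (pow_ne_zero m' hp.ne_zero) hmod
      -- `c ^ (p^(m'+1)) ≡ 1 mod p^(m'+1)`
      have hdvd : ((p : ℕ) : ℤ) ∣ (c : ℤ) - 1 := by
        have := (Nat.modEq_iff_dvd.mp hc1.symm)
        simpa using this
      have h2 := dvd_sub_pow_of_dvd_sub hdvd (m' + 1)
      have h3 : ((p ^ (m' + 1) : ℕ) : ℤ) ∣ ((c ^ p ^ (m' + 1) : ℕ) : ℤ) - ((1 : ℕ) : ℤ) := by
        push_cast
        refine dvd_trans (pow_dvd_pow _ (Nat.le_succ _)) ?_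
        simpa using h2
      have h4 : 1 ≡ c ^ p ^ (m' + 1) [MOD p ^ (m' + 1)] := Nat.modEq_iff_dvd.mpr h3
      rw [pow_apply_of_apply_eq_pow σ ζ c hc']
      have := (pow_eq_pow_iff_of_isPrimitiveRoot hne hζ (c ^ p ^ (m' + 1)) 1).mpr h4.symm
      rw [this, pow_one]
  rw [mem_fixingSubgroup_muField_iff]
  intro t ht
  obtain ⟨i, -, rfl⟩ := hζ.eq_pow_of_pow_eq_one ht
  rw [map_pow, hkey]


end globB



section nat

variable (q : ℕ) [Fact q.Prime] (p : ℕ) [Fact p.Prime]

/-- the subgroup of `Γ_q` fixing the `p^m`-th roots of unity -/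
def cycNat (m : ℕ) : Subgroup (Gam q) :=
  (muField p m).fixingSubgroup.comap (localGaloisToGlobal q)

theorem mem_cycNat_iff (m : ℕ) (s : Gam q) :
    s ∈ cycNat q p m ↔ ∀ t : Qbar, t ^ (p ^ m) = 1 → localGaloisToGlobal q s t = t := by
  unfold cycNat
  rw [Subgroup.mem_comap, mem_fixingSubgroup_muField_iff]

theorem cycNat_mem (m : ℕ) : (VB q).mem (cycNat q p m) :=
  ⟨muField p m, finiteDimensional_muField p m (Fact.out : p.Prime).ne_zero,
    normal_fixingSubgroup_muField p m, rfl⟩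

instance cycNat_normal (m : ℕ) : (cycNat q p m).Normal := (VB q).normal (cycNat_mem q p m)

instance cycNat_finiteIndex (m : ℕ) : (cycNat q p m).FiniteIndex :=
  (VB q).finiteIndex (cycNat_mem q p m)

theorem cycNat_antitone {m m' : ℕ} (h : m ≤ m') : cycNat q p m' ≤ cycNat q p m :=
  Subgroup.comap_mono (fixingSubgroup_muField_antitone p h)

/-- elements of `cycNat q p m` fix the images in `ℚ̄_q` of the `p^m`-th roots of unity -/
theorem apply_padicEmbedding_of_mem {m : ℕ} {s : Gam q} (hs : s ∈ cycNat q p m) {t : Qbar}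
    (ht : t ^ (p ^ m) = 1) : s (padicEmbedding q t) = padicEmbedding q t := by
  have h1 := padicEmbedding_localGaloisToGlobal q s t
  rw [(mem_cycNat_iff q p m s).mp hs t ht] at h1
  exact h1.symm

variable (D : Subgroup (Gam q))

/-- the quotient `D / (D ∩ cycNat m)` is a `p`-group when `χ_p` is trivial on `D`. -/
theorem isPGroup_quot (hχ : ∀ s ∈ D, cycloChar p (localGaloisToGlobal q s) = 1) (m : ℕ) :
    IsPGroup p (↥D ⧸ (cycNat q p m).subgroupOf D) := by
  intro g
  induction g using QuotientGroup.induction_on with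
  | H s =>
    refine ⟨m, ?_⟩
    rw [← QuotientGroup.mk_pow, QuotientGroup.eq_one_iff, Subgroup.mem_subgroupOf]
    show ((s : Gam q) ^ p ^ m) ∈ cycNat q p m
    unfold cycNat
    rw [Subgroup.mem_comap, map_pow]
    exact pow_mem_fixingSubgroup_muField p _ (hχ s s.2) m

/-- the index `[D : D ∩ cycNat m]` is a power of `p`. -/
theorem exists_index_eq_pow (hχ : ∀ s ∈ D, cycloChar p (localGaloisToGlobal q s) = 1) (m : ℕ) :
    ∃ j : ℕ, ((cycNat q p m).subgroupOf D).index = p ^ j := by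
  rw [Subgroup.index_eq_card]
  exact (IsPGroup.iff_card).mp (isPGroup_quot q p D hχ m)

theorem index_ne_zero (m : ℕ) : ((cycNat q p m).subgroupOf D).index ≠ 0 :=
  Subgroup.FiniteIndex.index_ne_zero

theorem index_dvd_index {m m' : ℕ} (h : m ≤ m') :
    ((cycNat q p m).subgroupOf D).index ∣ ((cycNat q p m').subgroupOf D).index :=
  Subgroup.index_dvd_of_le (Subgroup.subgroupOf_mono D (cycNat_antitone q p h))

/-- the set of `p`-power roots of unity of `ℚ̄` is infinite -/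
theorem infinite_pPowRoots : {t : Qbar | ∃ j : ℕ, t ^ p ^ j = 1}.Infinite := by
  choose f hf using exists_primitiveRoot_pow p
  refine Set.infinite_of_injective_forall_mem (f := f) ?_ (fun j => ⟨j, (hf j).pow_eq_one⟩)
  intro a b hab
  have h1 := hf a
  rw [hab] at h1
  exact Nat.pow_right_injective (Fact.out : p.Prime).two_le (h1.unique (hf b))

/-- the indices `[D : D ∩ cycNat m]` are unbounded for open `D`. -/
theorem unbounded_index (hD : IsOpenSub q D) (B : ℕ) :
    ∃ m : ℕ, B < ((cycNat q p m).subgroupOf D).index := by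
  by_contra hcon
  push Not at hcon
  set idx : ℕ → ℕ := fun m => ((cycNat q p m).subgroupOf D).index with hidx
  -- a maximal value
  have hbdd : BddAbove (Set.range idx) := ⟨B, by rintro _ ⟨m, rfl⟩; exact hcon m⟩
  obtain ⟨M, hM⟩ := Nat.sSup_mem (Set.range_nonempty idx) hbdd
  have hmax : ∀ m, idx m ≤ idx M := fun m => hM ▸ le_csSup hbdd ⟨m, rfl⟩
  -- the chain is stationary from `M` on
  have hstat : ∀ m, (cycNat q p M).subgroupOf D ≤ (cycNat q p m).subgroupOf D := by
    intro m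
    rcases le_total m M with h | h
    · exact Subgroup.subgroupOf_mono D (cycNat_antitone q p h)
    · have hle : (cycNat q p m).subgroupOf D ≤ (cycNat q p M).subgroupOf D :=
        Subgroup.subgroupOf_mono D (cycNat_antitone q p h)
      have hdvd := index_dvd_index q p D h
      have heq : idx m = idx M :=
        le_antisymm (hmax m) (Nat.le_of_dvd (Nat.pos_of_ne_zero (index_ne_zero q p D m)) hdvd)
      have hrel := Subgroup.relIndex_mul_index hle
      have hrel1 : ((cycNat q p m).subgroupOf D).relIndex ((cycNat q p M).subgroupOf D) = 1 := by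
        have h0 : ((cycNat q p M).subgroupOf D).index ≠ 0 := index_ne_zero q p D M
        have : ((cycNat q p m).subgroupOf D).relIndex ((cycNat q p M).subgroupOf D) *
            ((cycNat q p M).subgroupOf D).index = 1 * ((cycNat q p M).subgroupOf D).index := by
          rw [hrel, one_mul]; exact heq
        exact Nat.eq_of_mul_eq_mul_right (Nat.pos_of_ne_zero h0) this
      exact Subgroup.relIndex_eq_one.mp hrel1
  -- the open subgroup `C = cycNat M ⊓ D`
  set C : Subgroup (Gam q) := cycNat q p M ⊓ D with hC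
  have hCopen : IsOpenSub q C := by
    obtain ⟨U, hU, hUD⟩ := hD
    obtain ⟨W, hW, hle⟩ := (VB q).inf (cycNat_mem q p M) hU
    exact ⟨W, hW, hle.trans (inf_le_inf_left _ hUD)⟩
  have hCfix : ∀ s ∈ C, ∀ m, s ∈ cycNat q p m := by
    intro s hs m
    have h1 : (⟨s, hs.2⟩ : D) ∈ (cycNat q p M).subgroupOf D := by
      rw [Subgroup.mem_subgroupOf]; exact hs.1
    have h2 := hstat m h1
    rwa [Subgroup.mem_subgroupOf] at h2
  set E : IntermediateField ℚ_[q] (PadicAlgCl q) := IntermediateField.fixedField C with hE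
  haveI : FiniteDimensional ℚ_[q] E := finiteDimensional_fixedField q hCopen
  have hfin := finite_pPowRoots q p (Fact.out : p.Prime) E
  have hinf : ((fun t : Qbar => padicEmbedding q t) '' {t : Qbar | ∃ j : ℕ, t ^ p ^ j = 1}).Infinite :=
    (infinite_pPowRoots p).image (fun a _ b _ h => (padicEmbedding q).injective h)
  refine hinf (hfin.subset ?_)
  rintro _ ⟨t, ⟨j, hj⟩, rfl⟩
  refine ⟨?_, j, by rw [← map_pow, hj, map_one]⟩
  rw [hE, IntermediateField.mem_fixedField_iff]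
  intro s hs
  exact apply_padicEmbedding_of_mem q p (hCfix s hs j) hj

/-- **Cyclotomic growth, local form.**  For an open subgroup `D ≤ Γ_q` on which `χ_p` is trivial and
every `k`, the index `[D : D ∩ cycNat m]` is divisible by `p ^ k` for all large `m`. -/
theorem exists_pow_dvd_index_nat (hD : IsOpenSub q D)
    (hχ : ∀ s ∈ D, cycloChar p (localGaloisToGlobal q s) = 1) (k : ℕ) :
    ∃ m₀ : ℕ, ∀ m, m₀ ≤ m → p ^ k ∣ ((cycNat q p m).subgroupOf D).index := by
  obtain ⟨m₀, hm₀⟩ := unbounded_index q p D hD (p ^ k)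
  refine ⟨m₀, fun m hm => ?_⟩
  obtain ⟨j, hj⟩ := exists_index_eq_pow q p D hχ m₀
  have hkj : k ≤ j := by
    rw [hj] at hm₀
    exact ((Nat.pow_lt_pow_iff_right (Fact.out : p.Prime).one_lt).mp hm₀).le
  refine dvd_trans ?_ (index_dvd_index q p D hm)
  rw [hj]
  exact pow_dvd_pow p hkj

end nat


section primes

open Fermat.Agent.S55.LM.Defs Fermat.Agent.S55.Bridge.ShapiroLC Fermat.Agent.S55.Bridge.Mackey

variable (q : Nat.Primes) (p : ℕ) [Fact p.Prime]

attribute [local instance] fact_q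

/-- the member of the local basis `𝒱_q` cut out by `ℚ(μ_{p^m})` -/
def cycN (m : ℕ) : Subgroup (Gq q) :=
  (muField p m).fixingSubgroup.comap (primeLocalToGlobal q)

theorem mem_cycN_iff (m : ℕ) (s : Gq q) :
    s ∈ cycN q p m ↔ ∀ t : Qbar, t ^ (p ^ m) = 1 → primeLocalToGlobal q s t = t := by
  unfold cycN
  rw [Subgroup.mem_comap, mem_fixingSubgroup_muField_iff]

theorem cycN_mem (m : ℕ) : (Vq q).mem (cycN q p m) :=
  ⟨muField p m, finiteDimensional_muField p m (Fact.out : p.Prime).ne_zero,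
    normal_fixingSubgroup_muField p m, rfl⟩

theorem cycN_subgroupOf_mem (D : Subgroup (Gq q)) (m : ℕ) :
    (VP q D).mem ((cycN q p m).subgroupOf D) :=
  ⟨cycN q p m, cycN_mem q p m, rfl⟩

theorem cycN_antitone {m m' : ℕ} (h : m ≤ m') : cycN q p m' ≤ cycN q p m :=
  Subgroup.comap_mono (fixingSubgroup_muField_antitone p h)

/-- **Cyclotomic growth, LC form.**  `D ≤ Γ_q` open, `χ_p` trivial on `D`: for every `k` and all large
`m`, `p ^ k ∣ [D : D ∩ cycN q p m]`. -/
theorem exists_pow_dvd_index (D : Subgroup (Gq q)) (hD : (Vq q).IsOpen D)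
    (hχ : ∀ s ∈ D, cycloChar p (primeLocalToGlobal q s) = 1) (k : ℕ) :
    ∃ m₀ : ℕ, ∀ m, m₀ ≤ m → p ^ k ∣ ((cycN q p m).subgroupOf D).index :=
  exists_pow_dvd_index_nat (q : ℕ) p D hD hχ k

/-- the index `[D : D ∩ cycN q p m]` is a power of `p`. -/
theorem exists_index_cycN_eq_pow (D : Subgroup (Gq q))
    (hχ : ∀ s ∈ D, cycloChar p (primeLocalToGlobal q s) = 1) (m : ℕ) :
    ∃ j : ℕ, ((cycN q p m).subgroupOf D).index = p ^ j :=
  exists_index_eq_pow (q : ℕ) p D hχ m

/-- divisibility passes to deeper levels. -/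
theorem pow_dvd_index_of_le (D : Subgroup (Gq q)) {N N' : Subgroup (Gq q)} (h : N' ≤ N) {n : ℕ}
    (hn : n ∣ (N.subgroupOf D).index) : n ∣ (N'.subgroupOf D).index :=
  dvd_trans hn (Subgroup.index_dvd_of_le (Subgroup.subgroupOf_mono D h))

/-- below every level `N₀ ∈ 𝒱_q` there is a level `N ∈ 𝒱_q` with `p ^ k ∣ [D : D ∩ N]`. -/
theorem exists_mem_le_pow_dvd_index (D : Subgroup (Gq q)) (hD : (Vq q).IsOpen D)
    (hχ : ∀ s ∈ D, cycloChar p (primeLocalToGlobal q s) = 1) (k : ℕ)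
    {N₀ : Subgroup (Gq q)} (hN₀ : (Vq q).mem N₀) :
    ∃ N : Subgroup (Gq q), (Vq q).mem N ∧ N ≤ N₀ ∧ (VP q D).mem (N.subgroupOf D) ∧
      p ^ k ∣ (N.subgroupOf D).index := by
  obtain ⟨m₀, hm₀⟩ := exists_pow_dvd_index q p D hD hχ k
  obtain ⟨W, hW, hle⟩ := (Vq q).inf hN₀ (cycN_mem q p m₀)
  exact ⟨W, hW, hle.trans inf_le_left, ⟨W, hW, rfl⟩,
    pow_dvd_index_of_le q D (hle.trans inf_le_right) (hm₀ m₀ le_rfl)⟩

end primes

section ksite

open Fermat.Agent.S55.LM.Defs Fermat.Agent.S55.Bridge.ShapiroLC Fermat.Agent.S55.Bridge.Mackey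

/-- pull-back of a level `N ⊴ G` (cut down to `P`) along `κ_t : D_t → P`, `d ↦ t (r d) t⁻¹`. -/
theorem comap_conjHom_subgroupOf {G H : Type*} [Group G] [Group H] (r : H →* G)
    (P N : Subgroup G) [N.Normal] (t : G) :
    (N.subgroupOf P).comap (conjHom r P t) = (N.comap r).subgroupOf (conjSub r P t) := by
  ext d
  rw [Subgroup.mem_comap, Subgroup.mem_subgroupOf, Subgroup.mem_subgroupOf, Subgroup.mem_comap,
    coe_conjHom]
  constructor
  · intro h
    have := (‹N.Normal›).conj_mem _ h t⁻¹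
    simpa [mul_assoc] using this
  · intro h
    exact (‹N.Normal›).conj_mem _ h t

variable (q : Nat.Primes) (p : ℕ) [Fact p.Prime]

/-- **Cyclotomic growth, K-site form.**  `P ≤ G_ℚ` with `χ_p` trivial on `P`, `t : G_ℚ`,
`D = D_{q,t} = conjSub ι_q P t` open in `Γ_q`: for every `k` and all large `m` the pull-back along
`κ_t` of the level `ℚ(μ_{p^m})` of `P` has index divisible by `p ^ k` in `D`. -/
theorem exists_pow_dvd_index_conj (P : Subgroup GQ) (t : GQ)
    (hD : (Vq q).IsOpen (conjSub (primeLocalToGlobal q) P t))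
    (hχ : ∀ g ∈ P, cycloChar p g = 1) (k : ℕ) :
    ∃ m₀ : ℕ, ∀ m, m₀ ≤ m →
      p ^ k ∣ (((muField p m).fixingSubgroup.subgroupOf P).comap
        (conjHom (primeLocalToGlobal q) P t)).index := by
  have hχ' : ∀ s ∈ conjSub (primeLocalToGlobal q) P t,
      cycloChar p (primeLocalToGlobal q s) = 1 := by
    intro s hs
    have h := hχ _ (mem_conjSub.mp hs)
    rw [map_mul, map_mul, map_inv, mul_comm, ← mul_assoc, inv_mul_cancel, one_mul] at h
    exact h
  obtain ⟨m₀, hm₀⟩ := exists_pow_dvd_index q p _ hD hχ' k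
  refine ⟨m₀, fun m hm => ?_⟩
  haveI := normal_fixingSubgroup_muField p m
  rw [comap_conjHom_subgroupOf]
  exact hm₀ m hm

/-- uniform version over a finite family of places `(q_i, t_i)` (e.g. `i : KSite.Reps.Idx`). -/
theorem exists_pow_dvd_index_conj_family {ι : Type*} [Finite ι] (qf : ι → Nat.Primes)
    (tf : ι → GQ) (p : ℕ) [Fact p.Prime] (P : Subgroup GQ)
    (hD : ∀ i, (Vq (qf i)).IsOpen (conjSub (primeLocalToGlobal (qf i)) P (tf i)))
    (hχ : ∀ g ∈ P, cycloChar p g = 1) (k : ℕ) :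
    ∃ m₀ : ℕ, ∀ m, m₀ ≤ m → ∀ i,
      p ^ k ∣ (((muField p m).fixingSubgroup.subgroupOf P).comap
        (conjHom (primeLocalToGlobal (qf i)) P (tf i))).index := by
  choose f hf using fun i => exists_pow_dvd_index_conj (qf i) p P (tf i) (hD i) hχ k
  obtain ⟨M, hM⟩ := Finite.exists_le f
  exact ⟨M, fun m hm i => hf i m ((hM i).trans hm)⟩

end ksite

end Fermat.Agent.S55.LM.CycloGrowLocal
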