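/-
S55 / LM, piece `LM.dlocDict` part 2 (helper92): DICTIONARY FOR THE LOCAL GROUPS OF THE `K`-SITE.

`Middle/KSite.lean`: for `P ≤ G_ℚ` and `t : G_ℚ`, `Dloc P q t = {d ∈ Γ_q | t · ι_q(d) · t⁻¹ ∈ P}`
with `κ_t = kappa P q t : Dloc P q t →* P` and the embedding `e = emb q t : x ↦ padicEmbedding q (t⁻¹ x)`.

* (a) `isOpenSub_Dloc : IsOpenS S P → IsOpenSub q (Dloc P q t)` — so every result of the LM block
  (which is about open subgroups of `Γ_q`) applies to the `K`-site;
* (b) `Dloc_fixingSubgroup`, `baseField_Dloc`, `baseField_Dloc_of_isOpenS` : the fixed field of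
  `Dloc P q t` is `locField q t K = ℚ_q(e K)`, `K = ℚ̄^P`;
* (c) `levelSub P q t N` (the preimage of `N.subgroupOf P` under `κ_t`): normal, a member of
  `basisLoc P q t` and open when `N ∈ globalBasis S`; its level field is `ℚ_q(e L)` for
  `N = L.fixingSubgroup ≤ P` (`mem_levelField_levelSub_iff`).
-/
import Mathlib
import Fermat.Agent.S55.LM.GaloisDict
import Fermat.Agent.S55.Middle.KSite
import Fermat.Agent.S55.GaloisLevel

set_option autoImplicit false
set_option linter.style.haveILetI false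
set_option linter.unusedSectionVars false

open IntermediateField CategoryTheory ExtCitation

namespace Fermat.Agent.S55.LM.DlocDict

open Fermat.Agent.S55.Formal Fermat.Agent.S55.Formal.PreludeLC Fermat.Agent.S55.KrasnerBridge
open Fermat.Agent.S55.LM.GaloisDict Fermat.Agent.S55.Middle.KSite
open Fermat.Agent.S55.Bridge.Mackey Fermat.Agent.S55.Bridge.ShapiroLC

local instance instFactPrimeDD (q : Nat.Primes) : Fact (q : ℕ).Prime := ⟨q.2⟩

local instance instIsGaloisPadicAlgClDD (q : Nat.Primes) : IsGalois ℚ_[(q : ℕ)] (PadicAlgCl (q : ℕ)) :=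
  isGalois_padicAlgCl (q : ℕ)

variable (S : Finset Nat.Primes) (P : Subgroup GQ) (q : Nat.Primes) (t : GQ)

/-- (a) the local groups of the `K`-site are open in `Γ_q`. -/
theorem isOpenSub_Dloc (hP : IsOpenS S P) : IsOpenSub (q : ℕ) (Dloc P q t) := by
  obtain ⟨N, hN, hNP⟩ := hP
  have hnorm : N.Normal := (globalBasis S).normal hN
  obtain ⟨F, hF, hn, rfl⟩ := hN
  refine ⟨F.fixingSubgroup.comap (localGaloisToGlobal (q : ℕ)), ⟨F, hF.1, hn, rfl⟩, ?_⟩
  intro d hd
  have h1 : localGaloisToGlobal (q : ℕ) d ∈ F.fixingSubgroup := hd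
  exact hNP (hnorm.conj_mem _ h1 t)

/-- the embedding `ℚ̄ → Ω_q` at `(q, t)`: `x ↦ padicEmbedding q (t⁻¹ x)`. -/
noncomputable def emb : Qbar →+* PadicAlgCl (q : ℕ) :=
  ((padicEmbedding (q : ℕ)).toRingHom).comp ((t⁻¹ : GQ) : Qbar ≃ₐ[ℚ] Qbar).toRingEquiv.toRingHom

theorem emb_apply (x : Qbar) : emb q t x = padicEmbedding (q : ℕ) ((t⁻¹ : GQ) x) := rfl

/-- the local field at `(q, t)` of a subfield `K ≤ ℚ̄`: `ℚ_q(e K)`. -/
noncomputable def locField (K : IntermediateField ℚ Qbar) :
    IntermediateField ℚ_[(q : ℕ)] (PadicAlgCl (q : ℕ)) :=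
  IntermediateField.adjoin ℚ_[(q : ℕ)] (emb q t '' (K : Set Qbar))

/-- membership in `Dloc` for the fixing subgroup of a field. -/
theorem mem_Dloc_fixingSubgroup_iff (K : IntermediateField ℚ Qbar)
    (d : PadicAlgCl (q : ℕ) ≃ₐ[ℚ_[(q : ℕ)]] PadicAlgCl (q : ℕ)) :
    d ∈ Dloc K.fixingSubgroup q t ↔ ∀ x ∈ K, d (emb q t x) = emb q t x := by
  change t * localGaloisToGlobal (q : ℕ) d * t⁻¹ ∈ K.fixingSubgroup ↔ _
  rw [IntermediateField.mem_fixingSubgroup_iff]
  have hinj : Function.Injective (padicEmbedding (q : ℕ)) := (padicEmbedding (q : ℕ)).injective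
  constructor
  · intro h x hx
    have h1 := h x hx
    rw [emb_apply, ← padicEmbedding_localGaloisToGlobal]
    congr 1
    have h2 : (t * localGaloisToGlobal (q : ℕ) d * t⁻¹ : GQ) x =
        t (localGaloisToGlobal (q : ℕ) d ((t⁻¹ : GQ) x)) := rfl
    rw [h2] at h1
    have h3 := congrArg (t⁻¹ : GQ) h1
    rwa [← AlgEquiv.mul_apply, inv_mul_cancel, AlgEquiv.one_apply] at h3
  · intro h x hx
    have h1 := h x hx
    rw [emb_apply, ← padicEmbedding_localGaloisToGlobal] at h1
    have h2 := hinj h1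
    change t (localGaloisToGlobal (q : ℕ) d ((t⁻¹ : GQ) x)) = x
    rw [h2, ← AlgEquiv.mul_apply, mul_inv_cancel, AlgEquiv.one_apply]

/-- (b) `Dloc` of the fixing subgroup of `K` is the fixing subgroup of `ℚ_q(e K)`. -/
theorem Dloc_fixingSubgroup (K : IntermediateField ℚ Qbar) :
    Dloc K.fixingSubgroup q t = (locField q t K).fixingSubgroup := by
  ext d
  refine (mem_Dloc_fixingSubgroup_iff q t K d).trans ?_
  refine Iff.trans ?_ (mem_fixingSubgroup_adjoin_iff (q : ℕ) (emb q t '' (K : Set Qbar)) d).symm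
  constructor
  · rintro h _ ⟨x, hx, rfl⟩
    exact h x hx
  · intro h x hx
    exact h _ ⟨x, hx, rfl⟩

/-- (b) the fixed field of `Dloc K.fixingSubgroup q t` is `ℚ_q(e K)`. -/
theorem baseField_Dloc (K : IntermediateField ℚ Qbar) :
    baseField (q : ℕ) (Dloc K.fixingSubgroup q t) = locField q t K := by
  unfold baseField
  rw [Dloc_fixingSubgroup]
  exact InfiniteGalois.fixedField_fixingSubgroup _

/-- an `S`-open subgroup of `G_ℚ` is the fixing subgroup of its fixed field. -/
theorem fixingSubgroup_fixedField_of_isOpenS (hP : IsOpenS S P) :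
    (IntermediateField.fixedField P).fixingSubgroup = P := by
  obtain ⟨N, ⟨F, hF, _, rfl⟩, hNP⟩ := hP
  haveI := hF.1
  exact (Fermat.Agent.S55.GaloisLevel.fixingSubgroup_fixedField_of_le P hNP).1

/-- (b) for `P` open: the fixed field of `Dloc P q t` is `ℚ_q(e K)`, `K = ℚ̄^P`. -/
theorem baseField_Dloc_of_isOpenS (hP : IsOpenS S P) :
    baseField (q : ℕ) (Dloc P q t) = locField q t (IntermediateField.fixedField P) := by
  conv_lhs => rw [← fixingSubgroup_fixedField_of_isOpenS S P hP]
  exact baseField_Dloc q t _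

section Level

variable (N : Subgroup GQ)

/-- for a normal subgroup `N` of `G_ℚ`, `Dloc N q t` is the preimage of `N` in `Γ_q`. -/
theorem Dloc_normal_eq_comap [N.Normal] :
    Dloc N q t = N.comap (primeLocalToGlobal q) := by
  ext d
  change t * primeLocalToGlobal q d * t⁻¹ ∈ N ↔ primeLocalToGlobal q d ∈ N
  constructor
  · intro h
    have := (inferInstance : N.Normal).conj_mem _ h t⁻¹
    simpa [mul_assoc] using this
  · intro h
    exact (inferInstance : N.Normal).conj_mem _ h t

/-- the level subgroup of `Dloc P q t` cut out by a subgroup `N` of `G_ℚ`. -/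
noncomputable def levelSub : Subgroup ↥(Dloc P q t) := (Dloc N q t).subgroupOf (Dloc P q t)

theorem mem_levelSub_iff (d : ↥(Dloc P q t)) :
    d ∈ levelSub P q t N ↔ ((kappa P q t d : ↥P) : GQ) ∈ N := Iff.rfl

/-- the level subgroup is the preimage of `N.subgroupOf P` under `κ_t`. -/
theorem levelSub_eq_comap : levelSub P q t N = (N.subgroupOf P).comap (kappa P q t) := rfl

instance levelSub_normal [N.Normal] : (levelSub P q t N).Normal := by
  rw [levelSub_eq_comap]
  infer_instance

/-- the level subgroup of a member of the global basis is a member of the local basis of `Dloc`. -/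
theorem levelSub_mem_basisLoc (hN : (globalBasis S).mem N) :
    (basisLoc P q t).mem (levelSub P q t N) := by
  haveI : N.Normal := (globalBasis S).normal hN
  refine ⟨N.comap (primeLocalToGlobal q), ?_, ?_⟩
  · obtain ⟨F, hF, hn, rfl⟩ := hN
    exact ⟨F, hF.1, hn, rfl⟩
  · unfold levelSub
    rw [Dloc_normal_eq_comap q t N]

/-- the level subgroup of a member of the global basis is open. -/
theorem isOpenIn_levelSub (hP : IsOpenS S P) (hN : (globalBasis S).mem N) :
    IsOpenIn (q : ℕ) (levelSub P q t N) := by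
  haveI : N.Normal := (globalBasis S).normal hN
  have hmem : (VB (q : ℕ)).mem (N.comap (localGaloisToGlobal (q : ℕ))) := by
    obtain ⟨F, hF, hn, rfl⟩ := hN
    exact ⟨F, hF.1, hn, rfl⟩
  have h := isOpenIn_subgroupOf (q : ℕ) (isOpenSub_Dloc S P q t hP) hmem
  have e : levelSub P q t N =
      (N.comap (localGaloisToGlobal (q : ℕ))).subgroupOf (Dloc P q t) := by
    unfold levelSub
    rw [Dloc_normal_eq_comap q t N]
    rfl
  rw [e]
  exact h

/-- (c) the level field of `levelSub` for `N = L.fixingSubgroup ≤ P` is `ℚ_q(e L)`. -/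
theorem mem_levelField_levelSub_iff (L : IntermediateField ℚ Qbar) (hLP : L.fixingSubgroup ≤ P)
    (x : PadicAlgCl (q : ℕ)) :
    x ∈ levelField (q : ℕ) (levelSub P q t L.fixingSubgroup) ↔ x ∈ locField q t L := by
  have hle : Dloc L.fixingSubgroup q t ≤ Dloc P q t := fun d hd => hLP hd
  rw [← baseField_Dloc q t L]
  constructor
  · intro h
    rintro ⟨d, hd⟩
    exact h ⟨d, hle hd⟩ hd
  · intro h d hd
    exact h ⟨d.1, hd⟩

end Level

end Fermat.Agent.S55.LM.DlocDict
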