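/-
S55 / LM (local colimit layer), piece `LM.galoisDict` part 2 (helper92): the FINITE-LEVEL PACKAGE for
`Ωˣ` over an open subgroup `P ≤ Γ_q`, in the literal shape of `Formal/LCLevel.lean`
(`(unitsRepOn q P).quotientToInvariants U`, `U` an open normal subgroup of `P`).

Inputs = the concrete closed Props of the Local block (`Local/UnitDataBlocks.lean`).

* `subsingleton_level_H1` : `H¹(P ⧸ U, (Ωˣ)^U) = 0` (Hilbert 90, unconditional);
* `card_level_H2` : `#H²(P ⧸ U, (Ωˣ)^U) = [P : U]` from `H2CardStatement`;
* `isAddCyclic_level_H2` : cyclic, from `H2CyclicStatement`;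
* `subsingleton_level_H3` : `H³(P ⧸ U, (Ωˣ)^U) = 0` from `H3VanishStatement`;
* `exists_deeper_level` : below every member `N` of `𝒱_q` there is a member `N' ≤ P` with
  `m ∣ [P : N']` (unramified extension of degree `m`, `Local/UnramExt.lean`): the input for the
  `p`-divisibility of `H²_LC(P; Ωˣ)`.
-/
import Mathlib
import Fermat.Agent.S55.LM.GaloisDict
import Fermat.Agent.S55.Local.UnitDataBlocks
import Fermat.Agent.S55.Local.UnramExt

set_option autoImplicit false
set_option linter.style.haveILetI false
set_option linter.unusedSectionVars false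

open IntermediateField CategoryTheory

namespace Fermat.Agent.S55.LM.GaloisDictLevels

open Fermat.Agent.S55.Formal Fermat.Agent.S55.Formal.PreludeLC Fermat.Agent.S55.KrasnerBridge
open Fermat.Agent.S55.Local.UnitDataBlocks Fermat.Agent.S55.LM.GaloisDict

variable (q : ℕ) [Fact q.Prime]

local instance instIsGaloisPadicAlgClL : IsGalois ℚ_[q] (PadicAlgCl q) := isGalois_padicAlgCl q

section Package

variable {P : Subgroup (Gam q)} (U : Subgroup ↥P) [U.Normal]

/-- finite level: `H¹(P ⧸ U, (Ωˣ)^U) = 0` (Hilbert 90). -/
theorem subsingleton_level_H1 (hP : IsOpenSub q P) (hU : IsOpenIn q U) :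
    Subsingleton (groupCohomology ((unitsRepOn q P).quotientToInvariants U) 1) := by
  haveI := finiteDimensional_levelField q hU
  haveI : Subsingleton (groupCohomology
      (Rep.ofAlgebraAutOnUnits (baseField q P) (levelField q U)) 1) :=
    (groupCohomology.H1ofAutOnUnitsUnique (baseField q P) (levelField q U)).instSubsingleton
  exact (levelCohIso q U hP hU 1).toLinearEquiv.toEquiv.subsingleton

/-- finite level: `#H²(P ⧸ U, (Ωˣ)^U) = [P : U]`, from the local block. -/
theorem card_level_H2 (h : H2CardStatement) (hP : IsOpenSub q P) (hU : IsOpenIn q U) :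
    Nat.card (groupCohomology ((unitsRepOn q P).quotientToInvariants U) 2) = U.index := by
  haveI := finiteDimensional_fixedField q hP
  haveI := finiteDimensional_levelField q hU
  haveI := isGalois_levelField q hP U
  rw [Nat.card_congr (levelCohIso q U hP hU 2).toLinearEquiv.toEquiv, ← finrank_levelField q U hP hU]
  exact h q (baseField q P) (levelField q U)

/-- finite level: `H²(P ⧸ U, (Ωˣ)^U)` is cyclic, from the local block. -/
theorem isAddCyclic_level_H2 (h : H2CyclicStatement) (hP : IsOpenSub q P) (hU : IsOpenIn q U) :
    IsAddCyclic (groupCohomology ((unitsRepOn q P).quotientToInvariants U) 2) := by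
  haveI := finiteDimensional_fixedField q hP
  haveI := finiteDimensional_levelField q hU
  haveI := isGalois_levelField q hP U
  haveI : IsAddCyclic (groupCohomology
      (Rep.ofAlgebraAutOnUnits (baseField q P) (levelField q U)) 2) :=
    h q (baseField q P) (levelField q U)
  exact isAddCyclic_of_surjective
    ((levelCohIso q U hP hU 2).toLinearEquiv.symm.toAddEquiv.toAddMonoidHom)
    (levelCohIso q U hP hU 2).toLinearEquiv.symm.toAddEquiv.surjective

/-- finite level: `H³(P ⧸ U, (Ωˣ)^U) = 0`, from the local block. -/
theorem subsingleton_level_H3 (h : H3VanishStatement) (hP : IsOpenSub q P) (hU : IsOpenIn q U) :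
    Subsingleton (groupCohomology ((unitsRepOn q P).quotientToInvariants U) 3) := by
  haveI := finiteDimensional_fixedField q hP
  haveI := finiteDimensional_levelField q hU
  haveI := isGalois_levelField q hP U
  haveI : Subsingleton (groupCohomology
      (Rep.ofAlgebraAutOnUnits (baseField q P) (levelField q U)) 3) :=
    h q (baseField q P) (levelField q U)
  exact (levelCohIso q U hP hU 3).toLinearEquiv.toEquiv.subsingleton

end Package

section Deep

variable {P : Subgroup (Gam q)}

/-- the index in `P` of the subgroup fixing a finite extension `E` of `K = Ω^P` is `[E : K]`. -/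
theorem index_comap_fixingSubgroup (hP : IsOpenSub q P)
    (E : IntermediateField (baseField q P) (PadicAlgCl q)) :
    (E.fixingSubgroup.comap (openEquiv q hP).toMonoidHom).index =
      Module.finrank (baseField q P) E := by
  rw [Subgroup.index_comap_of_surjective _ (openEquiv q hP).surjective,
    IntermediateField.finrank_eq_fixingSubgroup_index]

/-- **deep levels**: below any member `N` of the local basis there is a member `N' ≤ P` whose index
in `P` is divisible by a given `m > 0` (an unramified extension of degree `m` of `Ω^P`). -/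
theorem exists_deeper_level (hP : IsOpenSub q P) {m : ℕ} (hm : 0 < m) {N : Subgroup (Gam q)}
    (hN : (VB q).mem N) :
    ∃ N', (VB q).mem N' ∧ N' ≤ N ∧ N' ≤ P ∧ m ∣ (N'.subgroupOf P).index := by
  haveI := finiteDimensional_fixedField q hP
  obtain ⟨_, _, E, hEfd, _, _, hdeg, -⟩ :=
    Fermat.Agent.S55.Local.UnramExt.exists_unramified (K := baseField q P) m hm
  haveI := hEfd
  haveI : FiniteDimensional ℚ_[q] (E.restrictScalars ℚ_[q]) :=
    FiniteDimensional.trans ℚ_[q] (baseField q P) E
  obtain ⟨W, hW, hWE⟩ := isOpenSub_fixingSubgroup q (E.restrictScalars ℚ_[q])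
  obtain ⟨N', hN', hle⟩ := (VB q).inf hW hN
  have hfix : ∀ s ∈ N', ∀ x ∈ E, s x = x := by
    intro s hs x hx
    have := hWE (hle hs).1
    rw [IntermediateField.mem_fixingSubgroup_iff] at this
    exact this x hx
  have hN'P : N' ≤ P := by
    intro s hs
    rw [← fixingSubgroup_fixedField q hP, IntermediateField.mem_fixingSubgroup_iff]
    intro x hx
    exact hfix s hs x (E.algebraMap_mem ⟨x, hx⟩)
  refine ⟨N', hN', fun s hs => (hle hs).2, hN'P, ?_⟩
  rw [← hdeg, ← index_comap_fixingSubgroup q hP E]
  apply Subgroup.index_dvd_of_le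
  intro s hs
  rw [Subgroup.mem_comap, IntermediateField.mem_fixingSubgroup_iff]
  intro x hx
  exact hfix s.1 (Subgroup.mem_subgroupOf.1 hs) x hx

end Deep

end Fermat.Agent.S55.LM.GaloisDictLevels
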