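/-
S55 / LM block (helper90): the field `h1` of helper91's `LevelFacts (VP q P) (Ox q P)`, WITHOUT any
Galois identification: Hilbert 90 on every subgroup of every finite level,

  `H¹(H, ((Ωˣ)^W)) = 0`   for `W ∈ VP q P` and every subgroup `H ≤ P ⧸ W`,

directly from `H90Local.generic_h90` (Dedekind independence): a cocycle of `H` with values in
`(Ωˣ)^W` pulls back to a right-`W`-invariant crossed homomorphism on the preimage of `H` in `P`.
-/
import Mathlib
import Fermat.Agent.S55.LM.H90Local

set_option autoImplicit false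

open CategoryTheory groupCohomology ExtCitation

noncomputable section

namespace Fermat.Agent.S55.LM.LevelH1

open Fermat.Agent.S55.Formal Fermat.Agent.S55.Formal.PreludeLC Fermat.Agent.S55.Bridge.ShapiroLC
open Fermat.Agent.S55.LM.Defs Fermat.Agent.S55.LM.KummerLocal Fermat.Agent.S55.LM.H90Local

variable (q : Nat.Primes)

attribute [local instance] fact_q

/-- a member of `VP q P` is closed: an element of `P` fixing every `W`-fixed element of `Ω` lies
in `W`. -/
theorem closed_of_mem_VP (P : Subgroup (Gq q)) (W : Subgroup P) (hW : (VP q P).mem W) (g : P)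
    (hg : ∀ x : Om q, (∀ s ∈ W, actP q P s x = x) → actP q P g x = x) : g ∈ W := by
  obtain ⟨N, ⟨F, _, _, rfl⟩, rfl⟩ := hW
  rw [Subgroup.mem_subgroupOf, Subgroup.mem_comap, IntermediateField.mem_fixingSubgroup_iff]
  intro y hy
  apply (padicEmbedding (q : ℕ)).injective
  have hx : ∀ s ∈ (F.fixingSubgroup.comap (primeLocalToGlobal q)).subgroupOf P,
      actP q P s (padicEmbedding (q : ℕ) y) = padicEmbedding (q : ℕ) y := by
    intro s hs
    rw [Subgroup.mem_subgroupOf, Subgroup.mem_comap,
      IntermediateField.mem_fixingSubgroup_iff] at hs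
    rw [actP_apply, ← padicEmbedding_localGaloisToGlobal (q : ℕ) (toAut q (s : Gq q)) y]
    exact congrArg _ (hs y hy)
  have := hg _ hx
  rw [actP_apply, ← padicEmbedding_localGaloisToGlobal (q : ℕ) (toAut q (g : Gq q)) y] at this
  exact this

/-- **`LevelFacts.h1` for `(VP q P, Ox q P)`**: Hilbert 90 on every subgroup of every finite level. -/
theorem levelFacts_h1 (P : Subgroup (Gq q)) (W : Subgroup P) (hW : (VP q P).mem W) [W.Normal]
    (H : Subgroup (P ⧸ W)) :
    Limits.IsZero (groupCohomology (Rep.res H.subtype ((Ox q P).quotientToInvariants W)) 1) := by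
  have hfi : W.FiniteIndex := (VP q P).finiteIndex hW
  rw [ModuleCat.isZero_iff_subsingleton]
  suffices h0 : ∀ z : H1 (Rep.res H.subtype ((Ox q P).quotientToInvariants W)), z = 0 from
    ⟨fun x y => by rw [h0 x, h0 y]⟩
  intro z
  induction z using H1_induction_on with
  | h x =>
  rw [H1π_eq_zero_iff]
  -- the preimage of `H` in `P`
  set H' : Subgroup P := H.comap (QuotientGroup.mk' W) with hH'
  have hWH' : W ≤ H' := fun s hs => by
    rw [hH', Subgroup.mem_comap, QuotientGroup.mk'_apply, (QuotientGroup.eq_one_iff s).2 hs]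
    exact H.one_mem
  set U : Subgroup H' := W.subgroupOf H' with hU
  have hcocx := (mem_cocycles₁_iff (A := Rep.res H.subtype ((Ox q P).quotientToInvariants W)) x).1 x.2
  -- the crossed homomorphism on `H'`
  let xh : H' → Ox q P := fun g => ((x ⟨QuotientGroup.mk' W (g : P), g.2⟩ :
    Representation.invariants ((Ox q P).ρ.comp W.subtype)) : Ox q P)
  obtain ⟨β, hβ0, hβ⟩ := generic_h90 ((actP q P).comp H'.subtype) U
    (fun g hg => by
      rw [hU, Subgroup.mem_subgroupOf]
      apply closed_of_mem_VP q P W hW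
      intro y hy
      apply hg
      intro s hs
      exact hy s hs)
    (fun g => ((toUP q P (xh g) : (Om q)ˣ) : Om q)) (fun g => Units.ne_zero _)
    (fun g h => by
      have h1 := hcocx ⟨QuotientGroup.mk' W (g : P), g.2⟩ ⟨QuotientGroup.mk' W (h : P), h.2⟩
      have h2 : xh (g * h) = (Ox q P).ρ (g : P) (xh h) + xh g := congrArg Subtype.val h1
      show ((toUP q P (xh (g * h)) : (Om q)ˣ) : Om q) = _
      rw [h2, toUP_add, Units.val_mul, coe_toUP_ρ, mul_comm]
      rfl)
    (fun g s hs => by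
      have hs' : (s : P) ∈ W := hs
      have : (⟨QuotientGroup.mk' W ((g * s : H') : P), (g * s).2⟩ : H) =
          ⟨QuotientGroup.mk' W (g : P), g.2⟩ := by
        apply Subtype.ext
        show QuotientGroup.mk' W ((g : P) * (s : P)) = QuotientGroup.mk' W (g : P)
        rw [map_mul, QuotientGroup.mk'_apply, QuotientGroup.mk'_apply,
          (QuotientGroup.eq_one_iff (s : P)).2 hs', mul_one]
      show ((toUP q P (xh (g * s)) : (Om q)ˣ) : Om q) = ((toUP q P (xh g) : (Om q)ˣ) : Om q)
      show ((toUP q P ((x ⟨QuotientGroup.mk' W ((g * s : H') : P), (g * s).2⟩ :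
        Representation.invariants ((Ox q P).ρ.comp W.subtype)) : Ox q P) : (Om q)ˣ) : Om q) = _
      rw [this])
  -- `β` is fixed by `W`
  have hβW : ∀ s ∈ W, actP q P s β = β := by
    intro s hs
    have h1 := hβ ⟨s, hWH' hs⟩
    have h2 : (⟨QuotientGroup.mk' W s, (⟨s, hWH' hs⟩ : H').2⟩ : H) = 1 := by
      apply Subtype.ext
      show QuotientGroup.mk' W s = 1
      rw [QuotientGroup.mk'_apply, (QuotientGroup.eq_one_iff s).2 hs]
    have h3 : xh ⟨s, hWH' hs⟩ = 0 := by
      show ((x ⟨QuotientGroup.mk' W s, (⟨s, hWH' hs⟩ : H').2⟩ :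
        Representation.invariants ((Ox q P).ρ.comp W.subtype)) : Ox q P) = 0
      rw [h2, cocycles₁_map_one]
      rfl
    have h4 : ((toUP q P (xh ⟨s, hWH' hs⟩) : (Om q)ˣ) : Om q) = 1 := by
      rw [h3, toUP_zero, Units.val_one]
    rw [h4] at h1
    have h5 : ((actP q P).comp H'.subtype) ⟨s, hWH' hs⟩ β = β := by
      rw [eq_div_iff hβ0, one_mul] at h1
      exact h1.symm
    exact h5
  -- the primitive
  have hinv : ofUP q P (Units.mk0 β hβ0) ∈
      Representation.invariants ((Ox q P).ρ.comp W.subtype) := by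
    intro s
    apply toUP_injective
    apply Units.ext
    show ((toUP q P ((Ox q P).ρ (s : P) (ofUP q P (Units.mk0 β hβ0))) : (Om q)ˣ) : Om q) = _
    rw [coe_toUP_ρ, toUP_ofUP, Units.val_mk0]
    exact hβW s s.2
  refine ⟨(⟨ofUP q P (Units.mk0 β hβ0), hinv⟩ :
    Representation.invariants ((Ox q P).ρ.comp W.subtype)), funext fun h => ?_⟩
  obtain ⟨hq, hh⟩ := h
  obtain ⟨g, rfl⟩ := QuotientGroup.mk_surjective hq
  rw [d₀₁_hom_apply]
  apply Subtype.ext
  apply toUP_injective
  apply Units.ext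
  have hg : g ∈ H' := hh
  have h6 := hβ ⟨g, hg⟩
  show ((toUP q P ((Ox q P).ρ g (ofUP q P (Units.mk0 β hβ0)) - ofUP q P (Units.mk0 β hβ0)) :
    (Om q)ˣ) : Om q) = ((toUP q P (xh ⟨g, hg⟩) : (Om q)ˣ) : Om q)
  have h7 : toUP q P ((Ox q P).ρ g (ofUP q P (Units.mk0 β hβ0)) - ofUP q P (Units.mk0 β hβ0)) =
      toUP q P ((Ox q P).ρ g (ofUP q P (Units.mk0 β hβ0))) / toUP q P (ofUP q P (Units.mk0 β hβ0)) :=
    rfl
  rw [h7, Units.val_div_eq_div_val, coe_toUP_ρ, toUP_ofUP, Units.val_mk0, h6]
  rfl

end Fermat.Agent.S55.LM.LevelH1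

end
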