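/-
S55 / LM / OutGlue (helper72): GENERIC GLUE from the output of the abstract local core
(`Middle/LocalLCMain.main`, over `ℤ`, on the open subgroup `P` with the induced basis) to the literal
local fields of `Formal/Blocks.BaseA` (`ZMod p`-linear, `perm (ZMod p) P` over the big group):

  core for `T = toInt (Rep.trivial (ZMod p) P (ZMod p))` over `(P, subBasis 𝒰 P)`
    ⇒ `Module.Finite`, `finrank (H2 𝒰 (perm (ZMod p) P)) = 1` (in particular `≤ 1`, `≠ 0`),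
      `Vanish₃ 𝒰 (perm (ZMod p) P)`.

Uses `Bridge/ScalarsLC` (helper14), `LM/ShapiroPerm` (helper40).
-/
import Mathlib
import Fermat.Agent.S55.Middle.LocalLCAdapter
import Fermat.Agent.S55.Bridge.ScalarsLC
import Fermat.Agent.S55.LM.ShapiroPerm

set_option autoImplicit false
set_option linter.style.haveILetI false

open CategoryTheory Module

namespace Fermat.Agent.S55.LM.OutGlue

open Fermat.Agent.S55.Formal Fermat.Agent.S55.Bridge.ShapiroLC Fermat.Agent.S55.Bridge.ScalarsLC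
open Fermat.Agent.S55.Middle.LocalLCCore Fermat.Agent.S55.Middle.LocalLCMain

noncomputable section

variable {G : Type} [Group G] (𝒰 : NBasis G) (P : Subgroup G) (p : ℕ) [Fact p.Prime]

/-- the coefficient module `𝔽_p` (trivial action) over `P`, as a `ℤ`-representation -/
abbrev Tp : Rep.{0, 0, 0} ℤ P := toInt (Rep.trivial (ZMod p) P (ZMod p))

section transfer

variable {k : Type} [CommRing k] {H : Type} [Group H] (𝒱 : NBasis H) (M : Rep.{0, 0, 0} k H)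

/-- cyclicity of `H²` does not depend on the coefficient ring -/
theorem cyclic_of_toInt
    (h : ∀ x y : H2 𝒱 (toInt M), x ≠ 0 → ∃ n : ℤ, y = n • x) :
    ∀ x y : H2 𝒱 M, x ≠ 0 → ∃ n : ℤ, y = n • x := by
  intro x y hx
  have hx' : h2IntEquiv 𝒱 M x ≠ 0 := fun h0 => hx ((h2IntEquiv 𝒱 M).map_eq_zero_iff.1 h0)
  obtain ⟨n, hn⟩ := h _ (h2IntEquiv 𝒱 M y) hx'
  refine ⟨n, (h2IntEquiv 𝒱 M).injective ?_⟩
  rw [hn, map_zsmul]

theorem nontrivial_of_toInt (h : ∃ x : H2 𝒱 (toInt M), x ≠ 0) : ∃ x : H2 𝒱 M, x ≠ 0 := by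
  obtain ⟨x, hx⟩ := h
  refine ⟨(h2IntEquiv 𝒱 M).symm x, fun h0 => hx ?_⟩
  have := congrArg (h2IntEquiv 𝒱 M) h0
  rwa [AddEquiv.apply_symm_apply, map_zero] at this

end transfer

/-- **Generic LM.out**: the core statement for `𝔽_p` over `(P, subBasis 𝒰 P)` gives the local
`BaseA` fields for `perm (ZMod p) P` over `(G, 𝒰)`. -/
theorem fields_of_core (hP : 𝒰.IsOpen P)
    (hcore : (∀ x y : H2 (subBasis 𝒰 P) (Tp P p), x ≠ 0 → ∃ n : ℤ, y = n • x) ∧
      Vanish₃ (subBasis 𝒰 P) (Tp P p) ∧ ∃ x : H2 (subBasis 𝒰 P) (Tp P p), x ≠ 0) :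
    Module.Finite (ZMod p) (H2 𝒰 (perm (ZMod p) P)) ∧
      finrank (ZMod p) (H2 𝒰 (perm (ZMod p) P)) = 1 ∧ Vanish₃ 𝒰 (perm (ZMod p) P) := by
  obtain ⟨hc, hv, hn⟩ := hcore
  have hc' := cyclic_of_toInt (subBasis 𝒰 P) (Rep.trivial (ZMod p) P (ZMod p)) hc
  obtain ⟨hfin, hle⟩ := finite_and_finrank_le_one_of_cyclic (K := ZMod p) hc'
  obtain ⟨x, hx⟩ := nontrivial_of_toInt (subBasis 𝒰 P) (Rep.trivial (ZMod p) P (ZMod p)) hn
  have hpos : 0 < finrank (ZMod p) (H2 (subBasis 𝒰 P) (Rep.trivial (ZMod p) P (ZMod p))) := by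
    haveI := hfin
    haveI : Nontrivial (H2 (subBasis 𝒰 P) (Rep.trivial (ZMod p) P (ZMod p))) := ⟨⟨x, 0, hx⟩⟩
    exact Module.finrank_pos
  have heq : finrank (ZMod p) (H2 (subBasis 𝒰 P) (Rep.trivial (ZMod p) P (ZMod p))) = 1 :=
    le_antisymm hle hpos
  refine ⟨(ShapiroPerm.finite_H2_perm_iff 𝒰 P hP).2 hfin, ?_, ?_⟩
  · rw [ShapiroPerm.finrank_H2_perm 𝒰 P hP, heq]
  · exact ShapiroPerm.vanish₃_perm_of_triv 𝒰 P hP
      ((vanish₃_toInt_iff (subBasis 𝒰 P) (Rep.trivial (ZMod p) P (ZMod p))).1 hv)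

/-- **Generic LM.out from the LM interface**: Kummer datum `ι : 𝔽_p → A` and the finite-level facts
for a smooth `p`-divisible `A : Rep ℤ P` give the local `BaseA` fields for `perm (ZMod p) P`. -/
theorem fields_of_facts (hP : 𝒰.IsOpen P) (A : Rep.{0, 0, 0} ℤ P) (ι : Tp P p ⟶ A)
    (h : IsKummer (subBasis 𝒰 P) A (Tp P p) ((p : ℕ) : ℤ) ι)
    (h1 : ∀ W, (subBasis 𝒰 P).mem W → ∀ [W.Normal] (H : Subgroup (P ⧸ W)),
      Limits.IsZero (groupCohomology (Rep.res H.subtype (A.quotientToInvariants W)) 1))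
    (h3 : ∀ W, (subBasis 𝒰 P).mem W → ∀ [W.Normal],
      Limits.IsZero (groupCohomology (A.quotientToInvariants W) 3))
    (h2card : ∀ W, (subBasis 𝒰 P).mem W → ∀ [W.Normal],
      Nat.card (groupCohomology (A.quotientToInvariants W) 2) = W.index)
    (h2cyc : ∀ W, (subBasis 𝒰 P).mem W → ∀ [W.Normal],
      IsAddCyclic (groupCohomology (A.quotientToInvariants W) 2))
    (grow : ∀ W, (subBasis 𝒰 P).mem W → ∀ m : ℕ, 0 < m →
      ∃ W', (subBasis 𝒰 P).mem W' ∧ W' ≤ W ∧ m ∣ W'.index) :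
    Module.Finite (ZMod p) (H2 𝒰 (perm (ZMod p) P)) ∧
      finrank (ZMod p) (H2 𝒰 (perm (ZMod p) P)) = 1 ∧ Vanish₃ 𝒰 (perm (ZMod p) P) :=
  fields_of_core 𝒰 P p hP
    (Fermat.Agent.S55.Middle.LocalLCAdapter.main_of_facts (subBasis 𝒰 P) A (Fact.out : p.Prime) h
      h1 h3 h2card h2cyc grow)

end

end Fermat.Agent.S55.LM.OutGlue
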