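/-
S55 / LM / KummerTriv (helper72): THE KUMMER DATUM `𝔽_p → Ωˣ` over a subgroup `P ≤ Γ_q` on which the
mod-`p` cyclotomic character is trivial, in the shape consumed by `LM/OutGlue.fields_of_facts`:

  `ι : OutGlue.Tp P p ⟶ Ox q P`,   `IsKummer (VP q P) (Ox q P) (Tp P p) ((p : ℕ) : ℤ) ι`.

* generic part: an invariant element `a` of a smooth `p`-divisible `A : Rep ℤ G`, `a ≠ 0`, `p • a = 0`,
  generating the `p`-torsion, gives `iotaRep : toInt (Rep.trivial 𝔽_p) ⟶ A` and `IsKummer`;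
* local part: `a = ζ_p ∈ Ωˣ` (the image of a primitive `p`-th root of unity of `ℚ̄`), fixed by `P`
  because the cyclotomic character is trivial on `P`.
-/
import Mathlib
import Fermat.Prelude.Def_ExtCitation_KummerBridge
import Fermat.Agent.S55.LM.OutGlue
import Fermat.Agent.S55.LM.KummerLocal
import Fermat.Agent.S55.LM.H1Bound

set_option autoImplicit false
set_option linter.style.haveILetI false

open CategoryTheory ExtCitation

namespace Fermat.Agent.S55.LM.KummerTriv

open Fermat.Agent.S55.Formal Fermat.Agent.S55.Bridge.ShapiroLC Fermat.Agent.S55.Bridge.ScalarsLC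
open Fermat.Agent.S55.Middle.LocalLCCore Fermat.Agent.S55.LM.Defs Fermat.Agent.S55.LM.KummerLocal

noncomputable section

/-! ### generic part -/

section generic

/-- a morphism of representations from an additive equivariant map which commutes with scalars
(generic in the ring, so that the module instances are the ones of `Rep`). -/
def mkHom {k : Type} [CommRing k] {G : Type} [Group G] (T A : Rep.{0, 0, 0} k G) (f : T →+ A)
    (hsmul : ∀ (c : k) (t : T), f (c • t) = c • f t)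
    (hequiv : ∀ g t, f (T.ρ g t) = A.ρ g (f t)) : T ⟶ A :=
  Rep.ofHom (ρ := T.ρ) (σ := A.ρ)
    (({ toFun := f
        map_add' := map_add f
        map_smul' := hsmul } : T →ₗ[k] A).intertwiningMap_of_isIntertwiningMap _ _ hequiv)

@[simp] theorem mkHom_apply {k : Type} [CommRing k] {G : Type} [Group G] (T A : Rep.{0, 0, 0} k G)
    (f : T →+ A) (hsmul : ∀ (c : k) (t : T), f (c • t) = c • f t)
    (hequiv : ∀ g t, f (T.ρ g t) = A.ρ g (f t)) (t : T) :
    (mkHom T A f hsmul hequiv).hom t = f t := rfl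

/-- module scalar multiplication of a representation, generic in the ring -/
abbrev msmul {k : Type} [CommRing k] {G : Type} [Group G] (A : Rep.{0, 0, 0} k G) (c : k) (a : A) :
    A := c • a

variable {G : Type} [Group G] (𝒰 : NBasis G) (A : Rep.{0, 0, 0} ℤ G) (p : ℕ) [Fact p.Prime]

theorem msmul_eq (n : ℤ) (a : A) : msmul A n a = n • a := int_smul_eq_zsmul _ n a

/-- `n ↦ n • a` as a morphism `𝔽_p → A` of `ℤ`-representations, for an invariant `a` killed by
`p`. -/
def iotaRep (a : A) (hp : (p : ℤ) • a = 0) (hfix : ∀ g, A.ρ g a = a) :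
    toInt (Rep.trivial (ZMod p) G (ZMod p)) ⟶ A :=
  mkHom (toInt (Rep.trivial (ZMod p) G (ZMod p))) A (zmodHom p a hp)
    (fun n t => by
      change _ = msmul A n _
      rw [msmul_eq]
      exact map_zsmul (zmodHom p a hp) n t)
    (fun g t => by
      obtain ⟨n, rfl⟩ := ZMod.intCast_surjective t
      show zmodHom p a hp (n : ZMod p) = A.ρ g (zmodHom p a hp (n : ZMod p))
      rw [zmodHom_intCast, map_zsmul, hfix])

theorem iotaRep_apply (a : A) (hp : (p : ℤ) • a = 0) (hfix : ∀ g, A.ρ g a = a) (n : ℤ) :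
    (iotaRep A p a hp hfix).hom ((n : ZMod p) : ZMod p) = n • a :=
  zmodHom_intCast p a hp n

/-- **generic Kummer datum for trivial `𝔽_p`**. -/
theorem isKummer_iotaRep (a : A) (ha0 : a ≠ 0) (hp : (p : ℤ) • a = 0) (hfix : ∀ g, A.ρ g a = a)
    (hgen : ∀ b : A, (p : ℤ) • b = 0 → ∃ n : ℤ, b = n • a)
    (hdiv : ∀ b : A, ∃ c : A, (p : ℤ) • c = b) (hsm : SmoothLift.IsSmooth 𝒰 A) :
    IsKummer 𝒰 A (toInt (Rep.trivial (ZMod p) G (ZMod p))) ((p : ℕ) : ℤ)
      (iotaRep A p a hp hfix) where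
  inj := by
    have hpp : p.Prime := Fact.out
    rw [injective_iff_map_eq_zero]
    intro t ht
    obtain ⟨n, rfl⟩ := ZMod.intCast_surjective t
    rw [iotaRep_apply] at ht
    by_contra hne
    have hnd : ¬ ((p : ℤ) ∣ n) := fun hd => hne ((ZMod.intCast_zmod_eq_zero_iff_dvd n p).2 hd)
    have hcop : IsCoprime (p : ℤ) n :=
      (Nat.prime_iff_prime_int.mp hpp).irreducible.coprime_iff_not_dvd.2 hnd
    obtain ⟨u, v, huv⟩ := hcop
    apply ha0
    calc a = (1 : ℤ) • a := (one_smul ℤ a).symm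
      _ = (u * (p : ℤ) + v * n) • a := by rw [huv]
      _ = u • ((p : ℤ) • a) + v • (n • a) := by rw [add_smul, mul_smul, mul_smul]
      _ = 0 := by rw [hp, ht, smul_zero, smul_zero, add_zero]
  tors := by
    intro b
    change msmul A ((p : ℕ) : ℤ) b = 0 ↔ _
    rw [msmul_eq]
    constructor
    · intro hb
      obtain ⟨n, rfl⟩ := hgen b hb
      exact ⟨((n : ZMod p) : ZMod p), iotaRep_apply A p a hp hfix n⟩
    · rintro ⟨t, rfl⟩
      obtain ⟨n, rfl⟩ := ZMod.intCast_surjective t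
      rw [iotaRep_apply, smul_comm, hp, smul_zero]
  div := by
    intro b
    obtain ⟨c, hc⟩ := hdiv b
    refine ⟨c, ?_⟩
    change msmul A ((p : ℕ) : ℤ) c = b
    rw [msmul_eq, hc]
  smooth := hsm

end generic

/-! ### the local instance -/

section local_

variable (q : Nat.Primes)

attribute [local instance] fact_q

variable (p : ℕ) [Fact p.Prime] (P : Subgroup (Gq q))

/-- the data of a primitive `p`-th root of unity in `Ωˣ` fixed by `P` -/
theorem exists_zeta (hχ : ∀ s ∈ P, cycloChar p (primeLocalToGlobal q s) = 1) :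
    ∃ a : Ox q P, a ≠ 0 ∧ ((p : ℕ) : ℤ) • a = 0 ∧ (∀ g, (Ox q P).ρ g a = a) ∧
      ∀ b : Ox q P, ((p : ℕ) : ℤ) • b = 0 → ∃ n : ℤ, b = n • a := by
  have : NeZero p := ⟨(Fact.out : p.Prime).ne_zero⟩
  obtain ⟨ζ₀, hζ₀⟩ := H1Bound.exists_primitiveRoot_Qbar p
  set ζ : Om q := padicEmbedding (q : ℕ) ζ₀ with hζdef
  have hζ : IsPrimitiveRoot ζ p :=
    hζ₀.map_of_injective (f := padicEmbedding (q : ℕ)) (padicEmbedding (q : ℕ)).injective
  have hζp : ζ ^ p = 1 := hζ.pow_eq_one
  have hζu : IsUnit ζ := IsUnit.of_pow_eq_one hζp (NeZero.ne p)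
  obtain ⟨u, hu⟩ := hζu
  have hfixζ : ∀ s ∈ P, toAut q s ζ = ζ := by
    intro s hs
    have h1 := padicEmbedding_localGaloisToGlobal (q : ℕ) (toAut q s) ζ₀
    have h2 : (localGaloisToGlobal (q : ℕ) (toAut q s)) ζ₀ = ζ₀ :=
      H1Bound.apply_root_of_cycloChar_eq_one p _ (hχ s hs) ζ₀ hζ₀.pow_eq_one
    rw [h2] at h1
    exact h1.symm
  refine ⟨ofUP q P u, ?_, ?_, ?_, ?_⟩
  · intro h0
    have h1 : u = 1 := congrArg (toUP q P) h0
    have h2 : ζ = 1 := by rw [← hu, h1]; rfl
    have := hζ.eq_orderOf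
    rw [h2, orderOf_one] at this
    exact (Fact.out : p.Prime).one_lt.ne' this
  · apply toUP_injective q P
    rw [toUP_natCast_zsmul, toUP_ofUP, toUP_zero]
    apply Units.ext
    rw [Units.val_pow_eq_pow_val, hu, Units.val_one]
    exact hζp
  · intro g
    apply toUP_injective q P
    apply Units.ext
    rw [coe_toUP_ρ, toUP_ofUP, hu]
    exact hfixζ g g.2
  · intro b hb
    have hb' : ((toUP q P b : (Om q)ˣ) : Om q) ^ p = 1 := by
      have h1 : (toUP q P b) ^ p = 1 := by
        rw [← toUP_natCast_zsmul, hb, toUP_zero]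
      have h2 := congrArg (fun w : (Om q)ˣ => (w : Om q)) h1
      simpa using h2
    obtain ⟨i, _, hi⟩ := hζ.eq_pow_of_pow_eq_one hb'
    refine ⟨(i : ℤ), ?_⟩
    apply toUP_injective q P
    rw [toUP_natCast_zsmul, toUP_ofUP]
    apply Units.ext
    rw [Units.val_pow_eq_pow_val, hu]
    exact hi.symm

/-- **(LM.out (a))**: the Kummer datum `𝔽_p → Ωˣ` over `P` when the cyclotomic character is trivial
on `P`. -/
theorem exists_isKummer (hχ : ∀ s ∈ P, cycloChar p (primeLocalToGlobal q s) = 1) :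
    ∃ ι : OutGlue.Tp P p ⟶ Ox q P,
      IsKummer (VP q P) (Ox q P) (OutGlue.Tp P p) ((p : ℕ) : ℤ) ι := by
  obtain ⟨a, ha0, hp, hfix, hgen⟩ := exists_zeta q p P hχ
  refine ⟨iotaRep (Ox q P) p a hp hfix,
    isKummer_iotaRep (VP q P) (Ox q P) p a ha0 hp hfix hgen (fun b => ?_) (isSmooth_Ox q P)⟩
  obtain ⟨c, hc⟩ := powOx_surjective q p P (Fact.out : p.Prime).ne_zero b
  exact ⟨c, hc⟩

end local_

end

end Fermat.Agent.S55.LM.KummerTriv
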