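/-
S55 / LM / Out (helper72): THE LOCAL FIELDS OF `BaseA (arithSite S) (ZMod p) (cycloChar p)`, literally,
from the finite-level facts of `(VP q P, Ox q P)` (the output of row LM.fix).

  `Facts q P`  (five fields = helper91's `LevelFacts (VP q P) (Ox q P)`)
  `fields`     : for `P` open in `Γ_q` on which `χ_p ∘ r_q` is trivial:
                 `Module.Finite`, `finrank (H2 (Vq q) (perm (ZMod p) P)) = 1`, `Vanish₃ (Vq q) (perm (ZMod p) P)`
  `vanish₃_loc_arith`, `loc₂_arith`, `loc₂_eq_one_arith` : the literal `BaseA` fields for `arithSite S`.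
-/
import Mathlib
import Fermat.Agent.S55.Formal.ArithSite
import Fermat.Agent.S55.LM.OutGlue
import Fermat.Agent.S55.LM.KummerTriv

set_option autoImplicit false
set_option linter.style.haveILetI false

open CategoryTheory ExtCitation Module

namespace Fermat.Agent.S55.LM.Out

open Fermat.Agent.S55.Formal Fermat.Agent.S55.Formal.PreludeLC Fermat.Agent.S55.Formal.ArithSite
open Fermat.Agent.S55.Bridge.ShapiroLC Fermat.Agent.S55.LM.Defs

noncomputable section

/-- **The finite-level facts** for `Ωˣ` over an (open) subgroup `P ≤ Γ_q` with the induced basis: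
Hilbert 90 on every subgroup of every finite level, `H³ = 0`, `H²` cyclic of order the index, and
levels of index divisible by any given `m`. -/
structure Facts (q : Nat.Primes) (P : Subgroup (Gq q)) : Prop where
  h1 : ∀ W, (VP q P).mem W → ∀ [W.Normal] (H : Subgroup (P ⧸ W)),
    Limits.IsZero (groupCohomology (Rep.res H.subtype ((Ox q P).quotientToInvariants W)) 1)
  h3 : ∀ W, (VP q P).mem W → ∀ [W.Normal],
    Limits.IsZero (groupCohomology ((Ox q P).quotientToInvariants W) 3)
  h2card : ∀ W, (VP q P).mem W → ∀ [W.Normal],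
    Nat.card (groupCohomology ((Ox q P).quotientToInvariants W) 2) = W.index
  h2cyc : ∀ W, (VP q P).mem W → ∀ [W.Normal],
    IsAddCyclic (groupCohomology ((Ox q P).quotientToInvariants W) 2)
  grow : ∀ W, (VP q P).mem W → ∀ m : ℕ, 0 < m →
    ∃ W', (VP q P).mem W' ∧ W' ≤ W ∧ m ∣ W'.index

variable (p : ℕ) [Fact p.Prime]

/-- **LM.out, one prime**: the three local facts for an open `P ≤ Γ_q` on which the mod-`p`
cyclotomic character is trivial. -/
theorem fields (q : Nat.Primes) (P : Subgroup (Gq q)) (hP : (Vq q).IsOpen P)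
    (hχ : TrivOn ((cycloChar p).comp (primeLocalToGlobal q)) P) (F : Facts q P) :
    Module.Finite (ZMod p) (H2 (Vq q) (perm (ZMod p) P)) ∧
      finrank (ZMod p) (H2 (Vq q) (perm (ZMod p) P)) = 1 ∧ Vanish₃ (Vq q) (perm (ZMod p) P) := by
  obtain ⟨ι, hK⟩ := KummerTriv.exists_isKummer q p P hχ
  exact OutGlue.fields_of_facts (Vq q) P p hP (Ox q P) ι hK F.h1 F.h3 F.h2card F.h2cyc F.grow

variable (S : Finset Nat.Primes)

/-- the literal field `BaseA.vanish₃_loc` of `BaseA (arithSite S) (ZMod p) (cycloChar p)`. -/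
theorem vanish₃_loc_arith (F : ∀ (q : Nat.Primes) (P : Subgroup (Gq q)), (Vq q).IsOpen P → Facts q P) :
    ∀ (v : (arithSite S).I) (P : Subgroup ((arithSite S).Γ v)), ((arithSite S).𝒱 v).IsOpen P →
      TrivOn ((cycloChar p).comp ((arithSite S).ι v)) P →
        Vanish₃ ((arithSite S).𝒱 v) (perm (ZMod p) P) :=
  fun v P hP hχ => (fields p v.1 P hP hχ (F v.1 P hP)).2.2

/-- the literal field `BaseA.loc₂` of `BaseA (arithSite S) (ZMod p) (cycloChar p)`. -/
theorem loc₂_arith (F : ∀ (q : Nat.Primes) (P : Subgroup (Gq q)), (Vq q).IsOpen P → Facts q P) :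
    ∀ (v : (arithSite S).I) (U : Subgroup ((arithSite S).Γ v)), ((arithSite S).𝒱 v).mem U →
      TrivOn ((cycloChar p).comp ((arithSite S).ι v)) U →
        Module.Finite (ZMod p) (H2 ((arithSite S).𝒱 v) (perm (ZMod p) U)) ∧
          finrank (ZMod p) (H2 ((arithSite S).𝒱 v) (perm (ZMod p) U)) ≤ 1 := by
  intro v U hU hχ
  have hop : (Vq v.1).IsOpen U := ⟨U, hU, le_rfl⟩
  obtain ⟨h1, h2, -⟩ := fields p v.1 U hop hχ (F v.1 U hop)
  exact ⟨h1, h2.le⟩

/-- the sharp form (for `BaseA.inv`): the local `H²` of `perm (ZMod p) P` is one-dimensional. -/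
theorem loc₂_eq_one_arith
    (F : ∀ (q : Nat.Primes) (P : Subgroup (Gq q)), (Vq q).IsOpen P → Facts q P) :
    ∀ (v : (arithSite S).I) (P : Subgroup ((arithSite S).Γ v)), ((arithSite S).𝒱 v).IsOpen P →
      TrivOn ((cycloChar p).comp ((arithSite S).ι v)) P →
        Module.Finite (ZMod p) (H2 ((arithSite S).𝒱 v) (perm (ZMod p) P)) ∧
          finrank (ZMod p) (H2 ((arithSite S).𝒱 v) (perm (ZMod p) P)) = 1 :=
  fun v P hP hχ => ⟨(fields p v.1 P hP hχ (F v.1 P hP)).1, (fields p v.1 P hP hχ (F v.1 P hP)).2.1⟩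

end

end Fermat.Agent.S55.LM.Out
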