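/-
S55 / LM / OutFinal (helper72): THE LOCAL FIELDS OF `BaseA (arithSite S) (ZMod p) (cycloChar p)`,
UNCONDITIONALLY.

Assembly of `Out.Facts q P` (the finite-level facts of `(VP q P, Ox q P)`, `P` open in `Γ_q`) from
* `LevelH1.levelFacts_h1` (helper90: Hilbert 90 on every subgroup of every level),
* `GaloisDictLevels` (helper92: levels = `Gal(L/K)` acting on `Lˣ`, deep unramified levels),
* `ConcreteLF` (helper39) + `Local/BrauerUnramFinal` (helper43: `#H² = [L:K]`, cyclic, `H³ = 0`),
and then `Out.vanish₃_loc_arith`, `Out.loc₂_arith`, `Out.loc₂_eq_one_arith` without hypotheses.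
-/
import Mathlib
import Fermat.Agent.S55.LM.Out
import Fermat.Agent.S55.LM.LevelH1
import Fermat.Agent.S55.LM.GaloisDictLevels
import Fermat.Agent.S55.LM.ConcreteLF
import Fermat.Agent.S55.Local.BrauerUnramFinal

set_option autoImplicit false
set_option linter.style.haveILetI false

open CategoryTheory ExtCitation Module

namespace Fermat.Agent.S55.LM.OutFinal

open Fermat.Agent.S55.Formal Fermat.Agent.S55.Formal.PreludeLC Fermat.Agent.S55.Formal.ArithSite
open Fermat.Agent.S55.Bridge.ShapiroLC Fermat.Agent.S55.LM.Defs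
open Fermat.Agent.S55.Local Fermat.Agent.S55.Local.UnitDataBlocks

noncomputable section

attribute [local instance] fact_q

/-- `#H²(Gal(E/K), Eˣ) = [E : K]` in the concrete form of `Local/UnitDataBlocks`. -/
theorem h2CardStatement : H2CardStatement := fun q _ K _ E _ _ =>
  ConcreteLF.concrete_h2Card q K E BrauerUnramFinal.h2Card

/-- `H²(Gal(E/K), Eˣ)` is cyclic, concrete form. -/
theorem h2CyclicStatement : H2CyclicStatement := fun q _ K _ E _ _ =>
  ConcreteLF.concrete_h2Cyclic q K E BrauerUnramFinal.h2Cyclic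

/-- `H³(Gal(E/K), Eˣ) = 0`, concrete form. -/
theorem h3VanishStatement : H3VanishStatement := fun q _ K _ E _ _ =>
  (ModuleCat.isZero_iff_subsingleton).1 (ConcreteLF.concrete_h3Vanish q K E BrauerUnramFinal.h3Vanish)

/-- **Row LM.fix**: the finite-level facts of `Ωˣ` over every open subgroup of `Γ_q`. -/
theorem facts (q : Nat.Primes) (P : Subgroup (Gq q)) (hP : (Vq q).IsOpen P) : Out.Facts q P where
  h1 := fun W hW _ H => LevelH1.levelFacts_h1 q P W hW H
  h3 := by
    rintro W ⟨N, hN, rfl⟩ hnormal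
    haveI := hnormal
    have hP' : GaloisDict.IsOpenSub (q : ℕ) P := hP
    have hU := GaloisDict.isOpenIn_subgroupOf (q : ℕ) hP' hN
    rw [ModuleCat.isZero_iff_subsingleton]
    exact @GaloisDictLevels.subsingleton_level_H3 (q : ℕ) _ P (N.subgroupOf P) hnormal h3VanishStatement hP' hU
  h2card := by
    rintro W ⟨N, hN, rfl⟩ hnormal
    haveI := hnormal
    have hP' : GaloisDict.IsOpenSub (q : ℕ) P := hP
    have hU := GaloisDict.isOpenIn_subgroupOf (q : ℕ) hP' hN
    exact @GaloisDictLevels.card_level_H2 (q : ℕ) _ P (N.subgroupOf P) hnormal h2CardStatement hP' hU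
  h2cyc := by
    rintro W ⟨N, hN, rfl⟩ hnormal
    haveI := hnormal
    have hP' : GaloisDict.IsOpenSub (q : ℕ) P := hP
    have hU := GaloisDict.isOpenIn_subgroupOf (q : ℕ) hP' hN
    exact @GaloisDictLevels.isAddCyclic_level_H2 (q : ℕ) _ P (N.subgroupOf P) hnormal h2CyclicStatement hP' hU
  grow := by
    rintro W ⟨N, hN, rfl⟩ m hm
    have hP' : GaloisDict.IsOpenSub (q : ℕ) P := hP
    obtain ⟨N', hN', hle, -, hdvd⟩ := GaloisDictLevels.exists_deeper_level (q : ℕ) hP' hm hN
    refine ⟨N'.subgroupOf P, ⟨N', hN', rfl⟩, ?_, hdvd⟩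
    intro s hs
    exact Subgroup.mem_subgroupOf.2 (hle (Subgroup.mem_subgroupOf.1 hs))

variable (p : ℕ) [Fact p.Prime]

/-- **LM.out, one prime, unconditional.** -/
theorem fields (q : Nat.Primes) (P : Subgroup (Gq q)) (hP : (Vq q).IsOpen P)
    (hχ : TrivOn ((cycloChar p).comp (primeLocalToGlobal q)) P) :
    Module.Finite (ZMod p) (H2 (Vq q) (perm (ZMod p) P)) ∧
      finrank (ZMod p) (H2 (Vq q) (perm (ZMod p) P)) = 1 ∧ Vanish₃ (Vq q) (perm (ZMod p) P) :=
  Out.fields p q P hP hχ (facts q P hP)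

variable (S : Finset Nat.Primes)

/-- **`BaseA.vanish₃_loc`** of `BaseA (arithSite S) (ZMod p) (cycloChar p)`, unconditionally. -/
theorem vanish₃_loc_arith :
    ∀ (v : (arithSite S).I) (P : Subgroup ((arithSite S).Γ v)), ((arithSite S).𝒱 v).IsOpen P →
      TrivOn ((cycloChar p).comp ((arithSite S).ι v)) P →
        Vanish₃ ((arithSite S).𝒱 v) (perm (ZMod p) P) :=
  Out.vanish₃_loc_arith p S facts

/-- **`BaseA.loc₂`** of `BaseA (arithSite S) (ZMod p) (cycloChar p)`, unconditionally. -/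
theorem loc₂_arith :
    ∀ (v : (arithSite S).I) (U : Subgroup ((arithSite S).Γ v)), ((arithSite S).𝒱 v).mem U →
      TrivOn ((cycloChar p).comp ((arithSite S).ι v)) U →
        Module.Finite (ZMod p) (H2 ((arithSite S).𝒱 v) (perm (ZMod p) U)) ∧
          finrank (ZMod p) (H2 ((arithSite S).𝒱 v) (perm (ZMod p) U)) ≤ 1 :=
  Out.loc₂_arith p S facts

/-- the sharp form (for `BaseA.inv`): the local `H²` of `perm (ZMod p) P` is one-dimensional. -/
theorem loc₂_eq_one_arith :
    ∀ (v : (arithSite S).I) (P : Subgroup ((arithSite S).Γ v)), ((arithSite S).𝒱 v).IsOpen P →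
      TrivOn ((cycloChar p).comp ((arithSite S).ι v)) P →
        Module.Finite (ZMod p) (H2 ((arithSite S).𝒱 v) (perm (ZMod p) P)) ∧
          finrank (ZMod p) (H2 ((arithSite S).𝒱 v) (perm (ZMod p) P)) = 1 :=
  Out.loc₂_eq_one_arith p S facts

end

end Fermat.Agent.S55.LM.OutFinal
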