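/-
S55 / LM / OutTriv (helper72): THE LOCAL FIELDS OF `Middle/OutSkeleton.ULevel (arithSite S) (ZMod p) χ_p`
(trivial coefficients over the open subgroup itself, BEFORE Shapiro), unconditionally:

  `vanish₃_loc_ulevel` : `Vanish₃ (subBasis (𝒱 v) P) (Rep.trivial (ZMod p) P (ZMod p))`
  `loc₂_ulevel`        : `Module.Finite`, `finrank (H2 (subBasis (𝒱 v) U) (Rep.trivial (ZMod p) U (ZMod p))) ≤ 1`
  `loc₂_eq_one_ulevel` : the same with `= 1` for every open `P` (`χ_p` trivial on `P`).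
-/
import Mathlib
import Fermat.Agent.S55.LM.OutFinal

set_option autoImplicit false
set_option linter.style.haveILetI false

open CategoryTheory ExtCitation Module

namespace Fermat.Agent.S55.LM.OutTriv

open Fermat.Agent.S55.Formal Fermat.Agent.S55.Formal.PreludeLC Fermat.Agent.S55.Formal.ArithSite
open Fermat.Agent.S55.Bridge.ShapiroLC Fermat.Agent.S55.Bridge.ScalarsLC Fermat.Agent.S55.LM.Defs
open Fermat.Agent.S55.Middle.LocalLCMain Fermat.Agent.S55.LM.OutGlue

noncomputable section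

section generic

variable {H : Type} [Group H] (𝒱 : NBasis H) (p : ℕ) [Fact p.Prime]

/-- from the `ℤ`-linear core statement for `𝔽_p` to the `ZMod p`-linear one (same group, same
basis, trivial coefficients). -/
theorem triv_of_core
    (hcore : (∀ x y : H2 𝒱 (toInt (Rep.trivial (ZMod p) H (ZMod p))), x ≠ 0 → ∃ n : ℤ, y = n • x) ∧
      Vanish₃ 𝒱 (toInt (Rep.trivial (ZMod p) H (ZMod p))) ∧
      ∃ x : H2 𝒱 (toInt (Rep.trivial (ZMod p) H (ZMod p))), x ≠ 0) :
    Module.Finite (ZMod p) (H2 𝒱 (Rep.trivial (ZMod p) H (ZMod p))) ∧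
      finrank (ZMod p) (H2 𝒱 (Rep.trivial (ZMod p) H (ZMod p))) = 1 ∧
      Vanish₃ 𝒱 (Rep.trivial (ZMod p) H (ZMod p)) := by
  obtain ⟨hc, hv, hn⟩ := hcore
  have hc' := cyclic_of_toInt 𝒱 (Rep.trivial (ZMod p) H (ZMod p)) hc
  obtain ⟨hfin, hle⟩ := finite_and_finrank_le_one_of_cyclic (K := ZMod p) hc'
  obtain ⟨x, hx⟩ := nontrivial_of_toInt 𝒱 (Rep.trivial (ZMod p) H (ZMod p)) hn
  have hpos : 0 < finrank (ZMod p) (H2 𝒱 (Rep.trivial (ZMod p) H (ZMod p))) := by
    haveI := hfin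
    haveI : Nontrivial (H2 𝒱 (Rep.trivial (ZMod p) H (ZMod p))) := ⟨⟨x, 0, hx⟩⟩
    exact Module.finrank_pos
  exact ⟨hfin, le_antisymm hle hpos,
    (vanish₃_toInt_iff 𝒱 (Rep.trivial (ZMod p) H (ZMod p))).1 hv⟩

end generic

attribute [local instance] fact_q

variable (p : ℕ) [Fact p.Prime]

/-- **LM.out, trivial coefficients over `P` itself** (any subgroup `P ≤ Γ_q` satisfying the
finite-level facts, `χ_p ∘ r_q` trivial on `P`). -/
theorem triv_fields_of_facts (q : Nat.Primes) (P : Subgroup (Gq q))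
    (hχ : TrivOn ((cycloChar p).comp (primeLocalToGlobal q)) P) (F : Out.Facts q P) :
    Module.Finite (ZMod p) (H2 (VP q P) (Rep.trivial (ZMod p) P (ZMod p))) ∧
      finrank (ZMod p) (H2 (VP q P) (Rep.trivial (ZMod p) P (ZMod p))) = 1 ∧
      Vanish₃ (VP q P) (Rep.trivial (ZMod p) P (ZMod p)) := by
  obtain ⟨ι, hK⟩ := KummerTriv.exists_isKummer q p P hχ
  exact triv_of_core (VP q P) p
    (Fermat.Agent.S55.Middle.LocalLCAdapter.main_of_facts (VP q P) (Ox q P) (Fact.out : p.Prime) hK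
      F.h1 F.h3 F.h2card F.h2cyc F.grow)

/-- the same, unconditionally, for `P` open. -/
theorem triv_fields (q : Nat.Primes) (P : Subgroup (Gq q)) (hP : (Vq q).IsOpen P)
    (hχ : TrivOn ((cycloChar p).comp (primeLocalToGlobal q)) P) :
    Module.Finite (ZMod p) (H2 (VP q P) (Rep.trivial (ZMod p) P (ZMod p))) ∧
      finrank (ZMod p) (H2 (VP q P) (Rep.trivial (ZMod p) P (ZMod p))) = 1 ∧
      Vanish₃ (VP q P) (Rep.trivial (ZMod p) P (ZMod p)) :=
  triv_fields_of_facts p q P hχ (OutFinal.facts q P hP)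

variable (S : Finset Nat.Primes)

/-- **`ULevel.vanish₃_loc`** for `arithSite S`, `ZMod p`, `cycloChar p`, unconditionally. -/
theorem vanish₃_loc_ulevel :
    ∀ (v : (arithSite S).I) (P : Subgroup ((arithSite S).Γ v)), ((arithSite S).𝒱 v).IsOpen P →
      TrivOn ((cycloChar p).comp ((arithSite S).ι v)) P →
        Vanish₃ (subBasis ((arithSite S).𝒱 v) P) (Rep.trivial (ZMod p) P (ZMod p)) :=
  fun v P hP hχ => (triv_fields p v.1 P hP hχ).2.2

/-- **`ULevel.loc₂`** for `arithSite S`, `ZMod p`, `cycloChar p`, unconditionally. -/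
theorem loc₂_ulevel :
    ∀ (v : (arithSite S).I) (U : Subgroup ((arithSite S).Γ v)), ((arithSite S).𝒱 v).mem U →
      TrivOn ((cycloChar p).comp ((arithSite S).ι v)) U →
        Module.Finite (ZMod p) (H2 (subBasis ((arithSite S).𝒱 v) U) (Rep.trivial (ZMod p) U (ZMod p))) ∧
          finrank (ZMod p)
            (H2 (subBasis ((arithSite S).𝒱 v) U) (Rep.trivial (ZMod p) U (ZMod p))) ≤ 1 := by
  intro v U hU hχ
  have hop : (Vq v.1).IsOpen U := ⟨U, hU, le_rfl⟩
  obtain ⟨h1, h2, -⟩ := triv_fields p v.1 U hop hχ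
  exact ⟨h1, h2.le⟩

/-- the sharp form: the local `H²(P, 𝔽_p)` is a line, for every open `P` with `χ_p|P = 1`. -/
theorem loc₂_eq_one_ulevel :
    ∀ (v : (arithSite S).I) (P : Subgroup ((arithSite S).Γ v)), ((arithSite S).𝒱 v).IsOpen P →
      TrivOn ((cycloChar p).comp ((arithSite S).ι v)) P →
        Module.Finite (ZMod p) (H2 (subBasis ((arithSite S).𝒱 v) P) (Rep.trivial (ZMod p) P (ZMod p))) ∧
          finrank (ZMod p)
            (H2 (subBasis ((arithSite S).𝒱 v) P) (Rep.trivial (ZMod p) P (ZMod p))) = 1 :=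
  fun v P hP hχ => ⟨(triv_fields p v.1 P hP hχ).1, (triv_fields p v.1 P hP hχ).2.1⟩

end

end Fermat.Agent.S55.LM.OutTriv
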