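/-
S55 / LM / DlocFields (helper72): THE LOCAL FACTS OVER THE PLACES OF THE `K`-SITE
(`Middle/KSite.siteOver S P R`, local groups `Dloc P q t ≤ Γ_q`, bases `basisLoc P q t`), unconditional.

For `P` open for the `S`-basis (`KSite.IsOpenS S P`), every `q`, `t`:
* `isOpen_Dloc`, `facts_Dloc : Out.Facts q (Dloc P q t)` (finite-level facts of `Ωˣ` over `Dloc`);
and if moreover the mod `p` cyclotomic character is trivial on `P` (`Blocks.Level p S P`):
* `trivOn_Dloc` : `χ_p ∘ r_q` is trivial on `Dloc P q t`;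
* `triv_fields_Dloc` : `H²(Dloc; 𝔽_p)` is a LINE and `H³(Dloc; 𝔽_p) = 0` (LC, trivial coefficients);
* `h2Loc_line` : the same for the literal local group `Blocks2.H2Loc p R i` of the `K`-site;
* `exists_isKummer_Dloc` : a Kummer datum `𝔽_p → Ωˣ` over `Dloc P q t`.
-/
import Mathlib
import Fermat.Agent.S55.LM.OutTriv
import Fermat.Agent.S55.LM.DlocDict
import Fermat.Agent.S55.Middle.Blocks2

set_option autoImplicit false
set_option linter.style.haveILetI false
set_option linter.unusedSectionVars false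

open CategoryTheory ExtCitation Module

namespace Fermat.Agent.S55.LM.DlocFields

open Fermat.Agent.S55.Formal Fermat.Agent.S55.Formal.PreludeLC
open Fermat.Agent.S55.Bridge.ShapiroLC Fermat.Agent.S55.Bridge.Mackey Fermat.Agent.S55.LM.Defs
open Fermat.Agent.S55.Middle.KSite Fermat.Agent.S55.Middle.Blocks Fermat.Agent.S55.Middle.Blocks2
open Fermat.Agent.S55.Middle.LocalLCCore

noncomputable section

attribute [local instance] fact_q

variable (S : Finset Nat.Primes) (P : Subgroup Middle.Defs.GQ) (q : Nat.Primes) (t : Middle.Defs.GQ)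

/-- the local groups of the `K`-site are open in `Γ_q`. -/
theorem isOpen_Dloc (hP : IsOpenS S P) : (Vq q).IsOpen (Dloc P q t) :=
  DlocDict.isOpenSub_Dloc S P q t hP

/-- the finite-level facts of `Ωˣ` over the local groups of the `K`-site. -/
theorem facts_Dloc (hP : IsOpenS S P) : Out.Facts q (Dloc P q t) :=
  OutFinal.facts q (Dloc P q t) (isOpen_Dloc S P q t hP)

variable (p : ℕ) [Fact p.Prime]

/-- the cyclotomic character is trivial on `Dloc P q t` when it is trivial on `P`. -/
theorem trivOn_Dloc (hχ : ∀ g ∈ P, cycloChar p g = 1) :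
    TrivOn ((cycloChar p).comp (primeLocalToGlobal q)) (Dloc P q t) := by
  intro d hd
  have h1 : cycloChar p (t * primeLocalToGlobal q d * t⁻¹) = 1 := hχ _ hd
  rw [map_mul, map_mul, map_inv, mul_comm, ← mul_assoc, inv_mul_cancel, one_mul] at h1
  exact h1

/-- **the local line**: `H²(Dloc; 𝔽_p)` is one-dimensional and `H³(Dloc; 𝔽_p) = 0`. -/
theorem triv_fields_Dloc (hP : Level p S P) :
    Module.Finite (ZMod p) (H2 (basisLoc P q t) (Rep.trivial (ZMod p) (Dloc P q t) (ZMod p))) ∧
      finrank (ZMod p) (H2 (basisLoc P q t) (Rep.trivial (ZMod p) (Dloc P q t) (ZMod p))) = 1 ∧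
      Vanish₃ (basisLoc P q t) (Rep.trivial (ZMod p) (Dloc P q t) (ZMod p)) :=
  OutTriv.triv_fields p q (Dloc P q t) (isOpen_Dloc S P q t hP.isOpen) (trivOn_Dloc P q t p hP.triv)

/-- a Kummer datum `𝔽_p → Ωˣ` over `Dloc P q t`. -/
theorem exists_isKummer_Dloc (hχ : ∀ g ∈ P, cycloChar p g = 1) :
    ∃ ι : OutGlue.Tp (Dloc P q t) p ⟶ Ox q (Dloc P q t),
      IsKummer (basisLoc P q t) (Ox q (Dloc P q t)) (OutGlue.Tp (Dloc P q t) p) ((p : ℕ) : ℤ) ι :=
  KummerTriv.exists_isKummer q p (Dloc P q t) (trivOn_Dloc P q t p hχ)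

variable {S P}

/-- **the local line of the `K`-site**, in the literal shape of `Blocks2.H2Loc`. -/
theorem h2Loc_line (hP : Level p S P) (R : Reps S P) (i : R.Idx) :
    Module.Finite (ZMod p) (H2Loc p R i) ∧ finrank (ZMod p) (H2Loc p R i) = 1 := by
  obtain ⟨h1, h2, -⟩ := triv_fields_Dloc S P i.1.1 i.2.1 p hP
  exact ⟨h1, h2⟩

/-- `H³` of the `K`-site local groups vanishes (trivial coefficients), literal `Site` shape. -/
theorem vanish₃_loc_siteOver (hP : Level p S P) (R : Reps S P) (i : R.Idx) :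
    Vanish₃ ((siteOver S P R).𝒱 i) ((siteOver S P R).loc (kP p P) i) :=
  (triv_fields_Dloc S P i.1.1 i.2.1 p hP).2.2

end

end Fermat.Agent.S55.LM.DlocFields
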