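/-
S55 / LM, piece `LM.dlocDict` part 1 (helper92): the LEVEL MAP for an open subgroup `D ≤ Γ_q`.

`D ≤ Γ_q` open (`GaloisDict.IsOpenSub q D`), `U` a member of the induced basis `subBasis (VB q) D`
(`= LM.Defs.VP q D`), `K = Ω^D`, `L = Ω^U` (`GaloisDict.baseField`, `levelField`).

* `isZero_H1_res_level` : Hilbert 90 on every subgroup of a finite level `(D ⧸ U, (Ωˣ)^U)` (the literal
  hypothesis of `LCLevelInj.ι₂_injective` / `LevelFacts.h1`);
* `pairLevel : PairEquiv (Inv (unitsRepOn q D) U) (Rep.ofAlgebraAutOnUnits K L)` (the local dictionary in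
  the shape of `Coh/PairEquiv.lean`, consumed by `Middle/LocSAbs.lean`);
* `jLoc : H²(Gal(L/K), Lˣ) →+ H²_LC(D; Ωˣ)` (`= LCLevelH.ι₂ ∘ levelCohIso⁻¹`), `jLoc_injective`, and the
  cocycle formula `jLoc_π`: the class of any LC cocycle `z` with `z (d₁, d₂) = c (d₁|_L, d₂|_L)` is
  `jLoc [c]`.
-/
import Mathlib
import Fermat.Agent.S55.LM.GaloisDict
import Fermat.Agent.S55.Bridge.ShapiroLC
import Fermat.Agent.S55.Formal.LCLevelInj
import Fermat.Agent.S55.Local.Transport
import Fermat.Agent.S55.Coh.PairEquiv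
import Fermat.Agent.S55.Middle.Dict

set_option autoImplicit false
set_option linter.style.haveILetI false
set_option linter.unusedSectionVars false

open IntermediateField CategoryTheory groupCohomology

namespace Fermat.Agent.S55.LM.LevelMap

open Fermat.Agent.S55.Formal Fermat.Agent.S55.Formal.PreludeLC Fermat.Agent.S55.KrasnerBridge
open Fermat.Agent.S55.LM.GaloisDict Fermat.Agent.S55.Bridge.ShapiroLC
open Fermat.Agent.S55.Formal.LCLevelH Fermat.Agent.S55.Formal.LCLevelInj

variable (q : ℕ) [Fact q.Prime]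

local instance instIsGaloisPadicAlgClLM : IsGalois ℚ_[q] (PadicAlgCl q) := isGalois_padicAlgCl q

variable {D : Subgroup (Gam q)} (U : Subgroup ↥D) [U.Normal]

/-- Hilbert 90 on every subgroup of a finite level. -/
theorem isZero_H1_res_level (hD : IsOpenSub q D) (hU : IsOpenIn q U) (H : Subgroup (D ⧸ U)) :
    Limits.IsZero (groupCohomology
      (Rep.res H.subtype ((unitsRepOn q D).quotientToInvariants U)) 1) := by
  haveI := finiteDimensional_levelField q hU
  let e := levelIso q U hD hU
  let H' : Subgroup (levelField q U ≃ₐ[baseField q D] levelField q U) := H.map e.toMonoidHom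
  have iso : groupCohomology (Rep.res H.subtype ((unitsRepOn q D).quotientToInvariants U)) 1 ≅
      groupCohomology (Rep.res H'.subtype
        (Rep.ofAlgebraAutOnUnits (baseField q D) (levelField q U))) 1 :=
    groupCohomology.mapIso (e.subgroupMap H) (invEquiv q U) (fun g => by
      have := invEquiv_comp_ρ q U hD hU (g : D ⧸ U)
      exact this) 1
  exact (iso.isZero_iff).2
    (Fermat.Agent.S55.Local.Transport.isZero_H1_resSub (baseField q D) (levelField q U) H')

theorem finite_quotient_of_mem (hmem : (subBasis (VB q) D).mem U) : Finite (↥D ⧸ U) := by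
  haveI := (subBasis (VB q) D).finiteIndex hmem
  exact Subgroup.finite_quotient_of_finiteIndex

/-- members of the induced basis of an open subgroup are open. -/
theorem isOpenIn_of_mem (hD : IsOpenSub q D) {V : Subgroup ↥D} (hV : (subBasis (VB q) D).mem V) :
    IsOpenIn q V := by
  obtain ⟨N, hN, rfl⟩ := hV
  exact isOpenIn_subgroupOf q hD hN

/-- **the level map** `H²(Gal(L/K), Lˣ) → H²_LC(D; Ωˣ)`, `K = Ω^D`, `L = Ω^U`. -/
noncomputable def jLoc (hD : IsOpenSub q D) (hmem : (subBasis (VB q) D).mem U) :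
    groupCohomology (Rep.ofAlgebraAutOnUnits (baseField q D) (levelField q U)) 2 →+
      Formal.H2 (subBasis (VB q) D) (unitsRepOn q D) :=
  haveI := finite_quotient_of_mem q U hmem
  (ι₂ (subBasis (VB q) D) (unitsRepOn q D) U hmem).toAddMonoidHom.comp
    (levelCohIso q U hD (isOpenIn_of_mem q hD hmem) 2).toLinearEquiv.symm.toAddEquiv.toAddMonoidHom

theorem jLoc_apply (hD : IsOpenSub q D) (hmem : (subBasis (VB q) D).mem U)
    (x : groupCohomology (Rep.ofAlgebraAutOnUnits (baseField q D) (levelField q U)) 2) :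
    haveI := finite_quotient_of_mem q U hmem
    jLoc q U hD hmem x = ι₂ (subBasis (VB q) D) (unitsRepOn q D) U hmem
      ((levelCohIso q U hD (isOpenIn_of_mem q hD hmem) 2).toLinearEquiv.symm x) := rfl

/-- the level map is injective (Hilbert 90). -/
theorem jLoc_injective (hD : IsOpenSub q D) (hmem : (subBasis (VB q) D).mem U) :
    Function.Injective (jLoc q U hD hmem) := by
  haveI := finite_quotient_of_mem q U hmem
  intro x y h
  rw [jLoc_apply, jLoc_apply] at h
  refine (LinearEquiv.injective _) (ι₂_injective (M := unitsRepOn q D) (U := U)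
    (subBasis (VB q) D) hmem ?_ h)
  intro V hV hVU _
  exact isZero_H1_res_level q V hD (isOpenIn_of_mem q hD hV) _

/-- the inverse coefficient morphism `Lˣ → (Ωˣ)^U` along `levelIso`. -/
noncomputable def invHom (hD : IsOpenSub q D) (hU : IsOpenIn q U) :
    Rep.res (levelIso q U hD hU).toMonoidHom
        (Rep.ofAlgebraAutOnUnits (baseField q D) (levelField q U)) ⟶
      (unitsRepOn q D).quotientToInvariants U :=
  Rep.ofHom ⟨unitsToInv q U, fun g => by
    induction g using QuotientGroup.induction_on with | H s =>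
    apply LinearMap.ext
    intro y
    exact (quotient_ρ_unitsToInv q U hD s y).symm⟩

theorem invHom_apply (hD : IsOpenSub q D) (hU : IsOpenIn q U)
    (y : Additive (levelField q U)ˣ) : (invHom q U hD hU).hom y = unitsToInv q U y := rfl

set_option maxHeartbeats 1000000 in
theorem levelCohIso_inv (hD : IsOpenSub q D) (hU : IsOpenIn q U) :
    (levelCohIso q U hD hU 2).inv =
      groupCohomology.map (levelIso q U hD hU).toMonoidHom (invHom q U hD hU) 2 := rfl

theorem levelCohIso_symm_apply (hD : IsOpenSub q D) (hU : IsOpenIn q U)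
    (x : groupCohomology (Rep.ofAlgebraAutOnUnits (baseField q D) (levelField q U)) 2) :
    (levelCohIso q U hD hU 2).toLinearEquiv.symm x =
      (groupCohomology.map (levelIso q U hD hU).toMonoidHom (invHom q U hD hU) 2).hom x := by
  rw [← levelCohIso_inv]
  rfl

theorem levelCohIso_symm_π (hD : IsOpenSub q D) (hU : IsOpenIn q U)
    (c : cocycles₂ (Rep.ofAlgebraAutOnUnits (baseField q D) (levelField q U))) :
    (levelCohIso q U hD hU 2).toLinearEquiv.symm (H2π _ c) =
      H2π _ (mapCocycles₂ (levelIso q U hD hU).toMonoidHom (invHom q U hD hU) c) := by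
  rw [levelCohIso_symm_apply]
  exact H2π_comp_map_apply _ _ c

/-- the inflated cocycle of the transported cocycle, evaluated. -/
theorem inflZ₂_mapCocycles₂_apply (hD : IsOpenSub q D) (hmem : (subBasis (VB q) D).mem U)
    (c : cocycles₂ (Rep.ofAlgebraAutOnUnits (baseField q D) (levelField q U))) (d₁ d₂ : D) :
    haveI := finite_quotient_of_mem q U hmem
    ((toUnit q (((inflZ₂ (subBasis (VB q) D) (unitsRepOn q D) U hmem
        (mapCocycles₂ (levelIso q U hD (isOpenIn_of_mem q hD hmem)).toMonoidHom
          (invHom q U hD (isOpenIn_of_mem q hD hmem)) c) :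
        ↥(C₂ (subBasis (VB q) D) (unitsRepOn q D))) : D × D → unitsRepOn q D) (d₁, d₂)) :
      (PadicAlgCl q)ˣ) : PadicAlgCl q) =
    (((Additive.toMul (c (levelHom q U hD d₁, levelHom q U hD d₂)) : (levelField q U)ˣ) :
        levelField q U) : PadicAlgCl q) := rfl

/-- **cocycle formula for the level map**: the class of an LC `2`-cocycle `z` of `D` with values in
`Ωˣ` which is given by `z (d₁, d₂) = c (d₁|_L, d₂|_L)` is `jLoc [c]`. -/
theorem jLoc_π (hD : IsOpenSub q D) (hmem : (subBasis (VB q) D).mem U)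
    (c : cocycles₂ (Rep.ofAlgebraAutOnUnits (baseField q D) (levelField q U)))
    (z : LinearMap.ker (dC₂ (subBasis (VB q) D) (unitsRepOn q D)))
    (hz : ∀ d₁ d₂ : D,
      ((toUnit q (((z : ↥(C₂ (subBasis (VB q) D) (unitsRepOn q D))) : D × D → unitsRepOn q D)
        (d₁, d₂)) : (PadicAlgCl q)ˣ) : PadicAlgCl q) =
      (((Additive.toMul (c (levelHom q U hD d₁, levelHom q U hD d₂)) : (levelField q U)ˣ) :
        levelField q U) : PadicAlgCl q)) :
    jLoc q U hD hmem (H2π _ c) =
      Hmid.mk (dC₁ (subBasis (VB q) D) (unitsRepOn q D))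
        (dC₂ (subBasis (VB q) D) (unitsRepOn q D)) z := by
  haveI := finite_quotient_of_mem q U hmem
  have hU := isOpenIn_of_mem q hD hmem
  have e1 := jLoc_apply q U hD hmem (H2π _ c)
  have e2 := congrArg (ι₂ (subBasis (VB q) D) (unitsRepOn q D) U hmem)
    (levelCohIso_symm_π q U hD hU c)
  have e3 := ι₂_π (subBasis (VB q) D) (unitsRepOn q D) U hmem
    (mapCocycles₂ (levelIso q U hD hU).toMonoidHom (invHom q U hD hU) c)
  refine e1.trans (e2.trans (e3.trans ?_))
  congr 1
  apply Subtype.ext
  apply Subtype.ext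
  funext ⟨d₁, d₂⟩
  apply toUnit_injective
  apply Units.ext
  rw [hz d₁ d₂]
  exact inflZ₂_mapCocycles₂_apply q U hD hmem c d₁ d₂

/-- **the local dictionary as a `PairEquiv`**: `(D ⧸ U, (Ωˣ)^U) ≅ (Gal(L/K), Lˣ)`. -/
noncomputable def pairLevel (hD : IsOpenSub q D) (hU : IsOpenIn q U) :
    Fermat.Agent.S55.Coh.PairEquiv.PairEquiv
      (Fermat.Agent.S55.Middle.Dict.Inv (unitsRepOn q D) U)
      (Rep.ofAlgebraAutOnUnits (baseField q D) (levelField q U)) where
  e := levelIso q U hD hU
  φ := invEquiv q U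
  comm g x := LinearMap.congr_fun (invEquiv_comp_ρ q U hD hU g) x

end Fermat.Agent.S55.LM.LevelMap
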