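/-
S55 / LM, piece `LM.dlocDict` part 3 (helper92): THE LOCAL END OF ROW (LOC-S) FOR THE `K`-SITE, in the
literal objects of `Middle/KSite.lean` (`Dloc P q t`, `basisLoc P q t`, `LM.Defs.Ox q (Dloc P q t)`).

For `P` `S`-open, `N ∈ globalBasis S` (`N` normal), `U := levelSub P q t N` (preimage of `N` under
`κ_t`), `K_v := baseField q (Dloc P q t) = ℚ_q(e K)`, `L_w := levelField q U = ℚ_q(e L)`:

* `pairDloc : PairEquiv (Inv (Ox q (Dloc P q t)) U) (Rep.ofAlgebraAutOnUnits K_v L_w)` (the `pl` of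
  `Middle/LocSAbs.lean` up to helper79's `stabToGal`);
* `jDloc : H²(Gal(L_w/K_v), L_wˣ) →+ H2 (basisLoc P q t) (Ox q (Dloc P q t))`, `jDloc_injective`,
  `resDloc` (restriction `Dloc → Gal(L_w/K_v)`), cocycle formula `jDloc_π`;
* `isZero_H1_res_Dloc` : Hilbert 90 on all subgroups of all finite levels.
-/
import Mathlib
import Fermat.Agent.S55.LM.DlocDict
import Fermat.Agent.S55.LM.LevelMap

set_option autoImplicit false
set_option linter.style.haveILetI false
set_option linter.unusedSectionVars false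

open IntermediateField CategoryTheory ExtCitation groupCohomology

namespace Fermat.Agent.S55.LM.DlocLevelMap

open Fermat.Agent.S55.Formal Fermat.Agent.S55.Formal.PreludeLC Fermat.Agent.S55.KrasnerBridge
open Fermat.Agent.S55.LM.GaloisDict Fermat.Agent.S55.Middle.KSite Fermat.Agent.S55.LM.DlocDict
open Fermat.Agent.S55.LM.LevelMap
open Fermat.Agent.S55.Bridge.Mackey Fermat.Agent.S55.Bridge.ShapiroLC

local instance instFactPrimeDLM (q : Nat.Primes) : Fact (q : ℕ).Prime := ⟨q.2⟩

variable (S : Finset Nat.Primes) (P : Subgroup GQ) (q : Nat.Primes) (t : GQ) (N : Subgroup GQ)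

/-- the level map of the `K`-site at `(q, t)` for the global level `N`. -/
noncomputable def jDloc [N.Normal] (hP : IsOpenS S P) (hN : (globalBasis S).mem N) :
    groupCohomology (Rep.ofAlgebraAutOnUnits (baseField (q : ℕ) (Dloc P q t))
        (levelField (q : ℕ) (levelSub P q t N))) 2 →+
      Formal.H2 (basisLoc P q t) (Fermat.Agent.S55.LM.Defs.Ox q (Dloc P q t)) :=
  @jLoc (q : ℕ) _ (Dloc P q t) (levelSub P q t N) (levelSub_normal P q t N)
    (isOpenSub_Dloc S P q t hP) (levelSub_mem_basisLoc S P q t N hN)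

theorem jDloc_injective [N.Normal] (hP : IsOpenS S P) (hN : (globalBasis S).mem N) :
    Function.Injective (jDloc S P q t N hP hN) :=
  @jLoc_injective (q : ℕ) _ (Dloc P q t) (levelSub P q t N) (levelSub_normal P q t N)
    (isOpenSub_Dloc S P q t hP) (levelSub_mem_basisLoc S P q t N hN)

/-- the local dictionary of the `K`-site at `(q, t)` for the global level `N`, as a `PairEquiv`. -/
noncomputable def pairDloc [N.Normal] (hP : IsOpenS S P) (hN : (globalBasis S).mem N) :
    Fermat.Agent.S55.Coh.PairEquiv.PairEquiv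
      (Fermat.Agent.S55.Middle.Dict.Inv (Fermat.Agent.S55.LM.Defs.Ox q (Dloc P q t))
        (levelSub P q t N))
      (Rep.ofAlgebraAutOnUnits (baseField (q : ℕ) (Dloc P q t))
        (levelField (q : ℕ) (levelSub P q t N))) :=
  @pairLevel (q : ℕ) _ (Dloc P q t) (levelSub P q t N) (levelSub_normal P q t N)
    (isOpenSub_Dloc S P q t hP) (isOpenIn_levelSub S P q t N hP hN)

/-- Hilbert 90 on every subgroup of every finite level of the `K`-site local groups. -/
theorem isZero_H1_res_Dloc (hP : IsOpenS S P) (V : Subgroup ↥(Dloc P q t)) [V.Normal]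
    (hV : (basisLoc P q t).mem V) (H : Subgroup (↥(Dloc P q t) ⧸ V)) :
    Limits.IsZero (groupCohomology (Rep.res H.subtype
      ((Fermat.Agent.S55.LM.Defs.Ox q (Dloc P q t)).quotientToInvariants V)) 1) :=
  @isZero_H1_res_level (q : ℕ) _ (Dloc P q t) V ‹V.Normal› (isOpenSub_Dloc S P q t hP)
    (isOpenIn_of_mem (q : ℕ) (isOpenSub_Dloc S P q t hP) hV) H

/-- the restriction `Dloc P q t → Gal(L_w/K_v)` at the level `N`. -/
noncomputable def resDloc [N.Normal] (hP : IsOpenS S P) :
    ↥(Dloc P q t) →* (levelField (q : ℕ) (levelSub P q t N) ≃ₐ[baseField (q : ℕ) (Dloc P q t)]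
      levelField (q : ℕ) (levelSub P q t N)) :=
  @levelHom (q : ℕ) _ (Dloc P q t) (levelSub P q t N) (levelSub_normal P q t N)
    (isOpenSub_Dloc S P q t hP)

theorem resDloc_apply [N.Normal] (hP : IsOpenS S P) (d : ↥(Dloc P q t))
    (x : levelField (q : ℕ) (levelSub P q t N)) :
    ((resDloc S P q t N hP d x : levelField (q : ℕ) (levelSub P q t N)) : PadicAlgCl (q : ℕ)) =
      Fermat.Agent.S55.LM.Defs.toAut q (d : primeLocalGaloisGroup q) (x : PadicAlgCl (q : ℕ)) :=
  @levelHom_apply (q : ℕ) _ (Dloc P q t) (levelSub P q t N) (levelSub_normal P q t N)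
    (isOpenSub_Dloc S P q t hP) d x

/-- cocycle formula for `jDloc`. -/
theorem jDloc_π [N.Normal] (hP : IsOpenS S P) (hN : (globalBasis S).mem N)
    (c : cocycles₂ (Rep.ofAlgebraAutOnUnits (baseField (q : ℕ) (Dloc P q t))
        (levelField (q : ℕ) (levelSub P q t N))))
    (z : LinearMap.ker (dC₂ (basisLoc P q t) (Fermat.Agent.S55.LM.Defs.Ox q (Dloc P q t))))
    (hz : ∀ d₁ d₂ : ↥(Dloc P q t),
      ((Fermat.Agent.S55.LM.Defs.toU q
        (((z : ↥(C₂ (basisLoc P q t) (Fermat.Agent.S55.LM.Defs.Ox q (Dloc P q t)))) :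
          ↥(Dloc P q t) × ↥(Dloc P q t) → Fermat.Agent.S55.LM.Defs.Ox q (Dloc P q t)) (d₁, d₂)) :
        (PadicAlgCl (q : ℕ))ˣ) : PadicAlgCl (q : ℕ)) =
      (((Additive.toMul (c (resDloc S P q t N hP d₁, resDloc S P q t N hP d₂)) :
        (levelField (q : ℕ) (levelSub P q t N))ˣ) : levelField (q : ℕ) (levelSub P q t N)) :
        PadicAlgCl (q : ℕ))) :
    jDloc S P q t N hP hN (H2π _ c) =
      Hmid.mk (dC₁ (basisLoc P q t) (Fermat.Agent.S55.LM.Defs.Ox q (Dloc P q t)))
        (dC₂ (basisLoc P q t) (Fermat.Agent.S55.LM.Defs.Ox q (Dloc P q t))) z :=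
  @jLoc_π (q : ℕ) _ (Dloc P q t) (levelSub P q t N) (levelSub_normal P q t N)
    (isOpenSub_Dloc S P q t hP) (levelSub_mem_basisLoc S P q t N hN) c z hz

end Fermat.Agent.S55.LM.DlocLevelMap
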