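/-
S55 / LM (helper92): THE LOCAL DICTIONARY `pl` OF ROW (LOC-S) IN THE `K_𝔪`-FIELD MODEL.

`P ≤ G_ℚ` `S`-open, `K = K₀ P = ℚ̄^P`, `L ⊇ K` a finite Galois level (`Lext P L hKL`), `(q, t)` a place:

* `eLt P L hKL q t : L →+* Ω_q`, `x ↦ padicEmbedding q (t⁻¹ x)`; `resEmb_eLt : resEmb K eLt = eAt P q t` (rfl),
  so `Kq K eLt = Kloc K q (mAt P q t)` and `JRep K L (Kq K eLt) = Jloc K L q (mAt P q t)` literally;
* `range_base_eq` : `baseField q (Dloc P q t)` and `Kq K eLt` have the same image in `Ω_q`;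
  `coe_level_eq` : `levelField q (Wloc P L q t)` and `fieldRel K eLt` are the same subset of `Ω_q`
  (`Wloc P L q t = levelSub P q t L.fixingSubgroup = (lvl P L).comap (kappa P q t)`);
* `plField : PairEquiv (Inv (Ox q (Dloc P q t)) (Wloc P L q t))
    (Rep.ofAlgebraAutOnUnits (Kq K eLt) (fieldRel K eLt))` with the element-level specifications
  `coe_plField_e` (`d ∈ Dloc` acts on `K_𝔪(e L) ⊆ Ω_q` as `toAut q d`) and `coe_plField_φ` (identity on
  elements of `Ω_q`).
-/
import Mathlib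
import Fermat.Agent.S55.LM.DlocLevelMap
import Fermat.Agent.S55.Coh.PairSameCarrier
import Fermat.Agent.S55.Middle.SemilocalCompareRel
import Fermat.Agent.S55.Middle.LocSDefs

set_option autoImplicit false
set_option linter.style.haveILetI false
set_option linter.unusedSectionVars false

open IntermediateField CategoryTheory ExtCitation groupCohomology

namespace Fermat.Agent.S55.LM.DlocPl

open Fermat.Agent.S55.Formal
open Fermat.Agent.S55.Formal.PreludeLC hiding GQ Qbar
open Fermat.Agent.S55.Middle.Defs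
open Fermat.Agent.S55.KrasnerBridge
open Fermat.Agent.S55.LM.GaloisDict Fermat.Agent.S55.Middle.KSite Fermat.Agent.S55.LM.DlocDict
open Fermat.Agent.S55.LM.LevelMap Fermat.Agent.S55.LM.DlocLevelMap
open Fermat.Agent.S55.Middle.GaloisDictModel
open Fermat.Agent.S55.Middle.SemilocalCompare Fermat.Agent.S55.Middle.SemilocalCompareRel
open Fermat.Agent.S55.Middle.CompletionCompare
open Fermat.Agent.S55.Middle.LocS
open Fermat.Agent.S55.Coh.PairEquiv Fermat.Agent.S55.Coh.PairSameCarrier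

attribute [local instance] Fermat.Agent.S55.LM.Defs.fact_q
open scoped TensorProduct
attribute [local instance] Algebra.TensorProduct.rightAlgebra
attribute [local instance] fieldKq algebraKqOmega

variable (S : Finset Nat.Primes) (P : Subgroup GQ) (L : IntermediateField ℚ Qbar)
  (hKL : K₀ P ≤ L) (q : Nat.Primes) (t : GQ)

/-- the embedding `L → Ω_q` at `(q, t)`. -/
noncomputable def eLt : ↥(Lext P L hKL) →+* PadicAlgCl (q : ℕ) :=
  (emb q t).comp (algebraMap ↥(Lext P L hKL) Qbar)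

theorem eLt_apply (x : ↥(Lext P L hKL)) :
    eLt P L hKL q t x = padicEmbedding (q : ℕ) ((t⁻¹ : GQ) (x : Qbar)) := rfl

theorem resEmb_eLt : resEmb ↥(K₀ P) (eLt P L hKL q t) = eAt P q t := rfl

theorem range_eLt : Set.range (eLt P L hKL q t) = emb q t '' (L : Set Qbar) := by
  ext y
  constructor
  · rintro ⟨x, rfl⟩
    exact ⟨(x : Qbar), x.2, rfl⟩
  · rintro ⟨x, hx, rfl⟩
    exact ⟨⟨x, hx⟩, rfl⟩

theorem range_eAt : Set.range (eAt P q t) = emb q t '' ((K₀ P : IntermediateField ℚ Qbar) : Set Qbar) := by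
  ext y
  constructor
  · rintro ⟨x, rfl⟩
    exact ⟨(x : Qbar), x.2, rfl⟩
  · rintro ⟨x, hx, rfl⟩
    exact ⟨⟨x, hx⟩, rfl⟩

theorem localFieldOf_eLt : localFieldOf (eLt P L hKL q t) = locField q t L := by
  unfold localFieldOf locField
  rw [range_eLt]

theorem localFieldOf_eAt : localFieldOf (eAt P q t) = locField q t (K₀ P) := by
  unfold localFieldOf locField
  rw [range_eAt]

variable [NumberField ↥(K₀ P)] [NumberField ↥(Lext P L hKL)]

/-- (hF) the base fields have the same image in `Ω_q`. -/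
theorem range_base_eq (hP : IsOpenS S P) :
    Set.range (algebraMap ↥(baseField (q : ℕ) (Dloc P q t)) (PadicAlgCl (q : ℕ))) =
      Set.range (algebraMap (Kq ↥(K₀ P) (eLt P L hKL q t)) (PadicAlgCl (q : ℕ))) := by
  have h1 : Set.range (algebraMap ↥(baseField (q : ℕ) (Dloc P q t)) (PadicAlgCl (q : ℕ))) =
      ((baseField (q : ℕ) (Dloc P q t) : IntermediateField ℚ_[(q : ℕ)] (PadicAlgCl (q : ℕ))) :
        Set (PadicAlgCl (q : ℕ))) := by
    ext y
    constructor
    · rintro ⟨x, rfl⟩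
      exact x.2
    · intro hy
      exact ⟨⟨y, hy⟩, rfl⟩
  have h2 : Set.range (algebraMap (Kq ↥(K₀ P) (eLt P L hKL q t)) (PadicAlgCl (q : ℕ))) =
      ((localFieldOf (resEmb ↥(K₀ P) (eLt P L hKL q t)) :
        IntermediateField ℚ_[(q : ℕ)] (PadicAlgCl (q : ℕ))) : Set (PadicAlgCl (q : ℕ))) := by
    have := range_kqEmb ↥(K₀ P) (eLt P L hKL q t)
    ext y
    constructor
    · rintro ⟨x, rfl⟩
      exact kqEmb_mem ↥(K₀ P) (eLt P L hKL q t) x
    · intro hy
      have hy' : y ∈ (kqEmb ↥(K₀ P) (eLt P L hKL q t)).range := by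
        rw [this]; exact hy
      obtain ⟨x, hx⟩ := hy'
      exact ⟨x, hx⟩
  rw [h1, h2, baseField_Dloc_of_isOpenS S P q t hP, resEmb_eLt, localFieldOf_eAt]

/-- (hE) the level fields are the same subset of `Ω_q`. -/
theorem coe_level_eq (hLP : L.fixingSubgroup ≤ P) :
    ((levelField (q : ℕ) (levelSub P q t L.fixingSubgroup) :
        IntermediateField ↥(baseField (q : ℕ) (Dloc P q t)) (PadicAlgCl (q : ℕ))) :
        Set (PadicAlgCl (q : ℕ))) =
      ((fieldRel ↥(K₀ P) (eLt P L hKL q t) :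
        IntermediateField (Kq ↥(K₀ P) (eLt P L hKL q t)) (PadicAlgCl (q : ℕ))) :
        Set (PadicAlgCl (q : ℕ))) := by
  ext x
  change x ∈ levelField (q : ℕ) (levelSub P q t L.fixingSubgroup) ↔
    x ∈ fieldRel ↥(K₀ P) (eLt P L hKL q t)
  rw [mem_levelField_levelSub_iff P q t L hLP, mem_fieldRel_iff, localFieldOf_eLt]


theorem fixingSubgroup_normal [Normal ℚ L] : L.fixingSubgroup.Normal := by
  rw [← Fermat.Agent.S55.Middle.GaloisDict.resL_ker L]
  infer_instance

theorem mem_globalBasis [Normal ℚ L] (hL : L.IsUnramifiedOutside S) :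
    (globalBasis S).mem L.fixingSubgroup :=
  ⟨L, hL, fixingSubgroup_normal L, rfl⟩

theorem isOpenS_of_le [Normal ℚ L] (hL : L.IsUnramifiedOutside S) (hLP : L.fixingSubgroup ≤ P) :
    IsOpenS S P :=
  ⟨L.fixingSubgroup, mem_globalBasis S L hL, hLP⟩

/-- the level of `Dloc P q t` attached to `L`. -/
noncomputable abbrev Wloc : Subgroup ↥(Dloc P q t) := levelSub P q t L.fixingSubgroup

instance Wloc_normal [Normal ℚ L] : (Wloc P L q t).Normal :=
  haveI := fixingSubgroup_normal L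
  levelSub_normal P q t L.fixingSubgroup

theorem Wloc_mem [Normal ℚ L] (hL : L.IsUnramifiedOutside S) :
    (basisLoc P q t).mem (Wloc P L q t) :=
  levelSub_mem_basisLoc S P q t L.fixingSubgroup (mem_globalBasis S L hL)

/-- **the local dictionary in the `K_𝔪`-field model**:
`(Dloc ⧸ W, (Ωˣ)^W) ≅ (Gal(K_𝔪(e L)/K_𝔪), K_𝔪(e L)ˣ)`. -/
noncomputable def plField [Normal ℚ L] (hL : L.IsUnramifiedOutside S)
    (hLP : L.fixingSubgroup ≤ P) :
    PairEquiv (Fermat.Agent.S55.Middle.Dict.Inv (Fermat.Agent.S55.LM.Defs.Ox q (Dloc P q t))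
        (Wloc P L q t))
      (Rep.ofAlgebraAutOnUnits (Kq ↥(K₀ P) (eLt P L hKL q t))
        (fieldRel ↥(K₀ P) (eLt P L hKL q t))) :=
  haveI := fixingSubgroup_normal L
  (pairDloc S P q t L.fixingSubgroup (isOpenS_of_le S P L hL hLP) (mem_globalBasis S L hL)).trans
    (pairSame _ _ (range_base_eq S P L hKL q t (isOpenS_of_le S P L hL hLP))
      (coe_level_eq P L hKL q t hLP))

/-- the group part of `plField`: the action of `d ∈ Dloc` on `K_𝔪(e L) ⊆ Ω`. -/
theorem coe_plField_e [Normal ℚ L] (hL : L.IsUnramifiedOutside S) (hLP : L.fixingSubgroup ≤ P)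
    (d : ↥(Dloc P q t)) (x : fieldRel ↥(K₀ P) (eLt P L hKL q t)) :
    (((plField S P L hKL q t hL hLP).e (QuotientGroup.mk d) x :
      fieldRel ↥(K₀ P) (eLt P L hKL q t)) : PadicAlgCl (q : ℕ)) =
      Fermat.Agent.S55.LM.Defs.toAut q (d : primeLocalGaloisGroup q) (x : PadicAlgCl (q : ℕ)) := by
  haveI := fixingSubgroup_normal L
  exact resDloc_apply S P q t L.fixingSubgroup (isOpenS_of_le S P L hL hLP) d
    ((ringEquiv _ _ (coe_level_eq P L hKL q t hLP)).symm x)

/-- the coefficient part of `plField`: the identity on elements of `Ω`. -/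
theorem coe_plField_φ [Normal ℚ L] (hL : L.IsUnramifiedOutside S) (hLP : L.fixingSubgroup ≤ P)
    (a : Fermat.Agent.S55.Middle.Dict.Inv (Fermat.Agent.S55.LM.Defs.Ox q (Dloc P q t))
      (Wloc P L q t)) :
    (((Additive.toMul ((plField S P L hKL q t hL hLP).φ a) :
      (fieldRel ↥(K₀ P) (eLt P L hKL q t))ˣ) : fieldRel ↥(K₀ P) (eLt P L hKL q t)) :
        PadicAlgCl (q : ℕ)) =
      ((Fermat.Agent.S55.LM.Defs.toU q a.1 : (PadicAlgCl (q : ℕ))ˣ) : PadicAlgCl (q : ℕ)) := by
  haveI := fixingSubgroup_normal L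
  exact @invEquiv_coe (q : ℕ) _ (Dloc P q t) (levelSub P q t L.fixingSubgroup)
    (levelSub_normal P q t L.fixingSubgroup) a

end Fermat.Agent.S55.LM.DlocPl
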