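/-
S55 / LM / DlocTors (helper72): the LOCAL INPUT of `Middle/FinMain.kFin` (row M.fin, helper48),
unconditionally:

  `localTorsFinite p S : FinMain.LocalTorsFinite p S`
      (the `p`-torsion of `H²_LC(D_{q,t}; Ω_qˣ)` is finite at every place `(q, t)` of `K = ℚ̄^P`),

from the local core: `H²_LC(D; Ωˣ)[p]` is cyclic (`LocalLCCore.H2TorsCyclic`), `p`-divisible
(`H2Divisible`), `H³_LC(D; Ωˣ) = 0`, `H¹_LC(D; Ωˣ) = 0` for every subgroup `D ≤ Γ_q` carrying the
finite-level facts `Out.Facts q D` (in particular every open `D`, and `D = Dloc P q t`).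
-/
import Mathlib
import Fermat.Agent.S55.LM.DlocFields
import Fermat.Agent.S55.Middle.FinMain
import Fermat.Agent.S55.Middle.LocalLCAdapter

set_option autoImplicit false
set_option linter.style.haveILetI false
set_option linter.unusedSectionVars false

open CategoryTheory ExtCitation Module

namespace Fermat.Agent.S55.LM.DlocTors

open Fermat.Agent.S55.Formal Fermat.Agent.S55.Formal.PreludeLC
open Fermat.Agent.S55.Bridge.ShapiroLC Fermat.Agent.S55.LM.Defs
open Fermat.Agent.S55.Middle.KSite Fermat.Agent.S55.Middle.Blocks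
open Fermat.Agent.S55.Middle.LocalLCCore Fermat.Agent.S55.Middle.LocalLCMain

noncomputable section

attribute [local instance] fact_q

/-- the abstract finite-level datum of the local core, from the finite-level facts. -/
theorem finiteLevelData (q : Nat.Primes) (D : Subgroup (Gq q)) (F : Out.Facts q D) (p : ℕ)
    (hp : 0 < p) : FiniteLevelData (VP q D) (Ox q D) p :=
  Fermat.Agent.S55.Middle.LocalLCAdapter.finiteLevelData_of_facts (VP q D) (Ox q D) p hp
    F.h1 F.h3 F.h2card F.h2cyc F.grow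

variable (p : ℕ) [Fact p.Prime]

/-- the `p`-torsion of `H²_LC(D; Ωˣ)` is cyclic. -/
theorem h2TorsCyclic (q : Nat.Primes) (D : Subgroup (Gq q)) (F : Out.Facts q D) :
    H2TorsCyclic (VP q D) (Ox q D) ((p : ℕ) : ℤ) :=
  (finiteLevelData q D F p (Fact.out : p.Prime).pos).h2TorsCyclic Fact.out

/-- `H²_LC(D; Ωˣ)` is `p`-divisible. -/
theorem h2Divisible (q : Nat.Primes) (D : Subgroup (Gq q)) (F : Out.Facts q D) :
    H2Divisible (VP q D) (Ox q D) ((p : ℕ) : ℤ) :=
  (finiteLevelData q D F p (Fact.out : p.Prime).pos).h2Divisible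

/-- `H³_LC(D; Ωˣ) = 0`. -/
theorem vanish₃_Ox (q : Nat.Primes) (D : Subgroup (Gq q)) (F : Out.Facts q D) :
    Vanish₃ (VP q D) (Ox q D) :=
  (finiteLevelData q D F 1 one_pos).vanish₃

/-- there is a nonzero `p`-torsion class in `H²_LC(D; Ωˣ)`. -/
theorem exists_tors_ne_zero (q : Nat.Primes) (D : Subgroup (Gq q)) (F : Out.Facts q D) :
    ∃ x : H2 (VP q D) (Ox q D), ((p : ℕ) : ℤ) • x = 0 ∧ x ≠ 0 :=
  (finiteLevelData q D F p (Fact.out : p.Prime).pos).exists_tors_ne_zero Fact.out

/-- **the local input of `FinMain.kFin`**, unconditionally. -/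
theorem localTorsFinite (S : Finset Nat.Primes) : Fermat.Agent.S55.Middle.FinMain.LocalTorsFinite p S :=
  Fermat.Agent.S55.Middle.FinMain.localTorsFinite_of_cyclic p S fun P hP q t =>
    h2TorsCyclic p q.1 (Dloc P q.1 t) (DlocFields.facts_Dloc S P q.1 t hP.isOpen)

end

end Fermat.Agent.S55.LM.DlocTors
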