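/-
S55 / LM — row (LM.h1) CLOSED (glue, helper90): helper65's `H1Bound.finrank_H1_trivial_le` and
`H1BoundPerm.finrank_H1_perm_le` with their only open hypothesis (LC Hilbert 90 for `Ωˣ`) discharged
by `H90Local.h90_Ox`.
-/
import Mathlib
import Fermat.Agent.S55.LM.H1BoundPerm
import Fermat.Agent.S55.LM.H90Local

set_option autoImplicit false

open CategoryTheory groupCohomology ExtCitation

noncomputable section

namespace Fermat.Agent.S55.LM.H1BoundClosed

open Fermat.Agent.S55.Formal Fermat.Agent.S55.Formal.PreludeLC Fermat.Agent.S55.Bridge.ShapiroLC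
  Fermat.Agent.S55.LM.Defs Fermat.Agent.S55.LM.H1Core

variable {q : Nat.Primes}

attribute [local instance] fact_q

/-- LC Hilbert 90 for `Ωˣ` over every subgroup `P ≤ Γ_q`, in the shape of `H1Core.H90`. -/
theorem h90 (P : Subgroup (Gq q)) : H90 (VP q P) (Ox q P) :=
  fun f hf => H90Local.h90_Ox q P f hf

/-- **(LM.h1), trivial coefficients, unconditional.** -/
theorem finrank_H1_trivial_le (p : ℕ) [Fact p.Prime] (P : Subgroup (Gq q))
    (hχ : ∀ s ∈ P, cycloChar p (primeLocalToGlobal q s) = 1)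
    (E : IntermediateField ℚ_[(q : ℕ)] (Om q))
    (hE : ∀ x : Om q, x ∈ E ↔ ∀ g ∈ P, toAut q g x = x)
    (hfin : (powMonoidHom p : (↥E)ˣ →* (↥E)ˣ).range.index ≠ 0) :
    Module.Finite (ZMod p) (H1 (VP q P) (Rep.trivial (ZMod p) P (ZMod p))) ∧
      p ^ Module.finrank (ZMod p) (H1 (VP q P) (Rep.trivial (ZMod p) P (ZMod p))) ≤
        (powMonoidHom p : (↥E)ˣ →* (↥E)ˣ).range.index :=
  H1Bound.finrank_H1_trivial_le p P hχ (h90 P) E hE hfin

/-- **(LM.h1), `BaseA`-side shape, unconditional**: the local `H¹` of a permutation module. -/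
theorem finrank_H1_perm_le (p : ℕ) [Fact p.Prime] (P : Subgroup (Gq q)) (hP : (Vq q).IsOpen P)
    (hχ : ∀ s ∈ P, cycloChar p (primeLocalToGlobal q s) = 1)
    (E : IntermediateField ℚ_[(q : ℕ)] (Om q))
    (hE : ∀ x : Om q, x ∈ E ↔ ∀ g ∈ P, toAut q g x = x)
    (hfin : (powMonoidHom p : (↥E)ˣ →* (↥E)ˣ).range.index ≠ 0) :
    Module.Finite (ZMod p) (H1 (Vq q) (perm (ZMod p) P)) ∧
      p ^ Module.finrank (ZMod p) (H1 (Vq q) (perm (ZMod p) P)) ≤
        (powMonoidHom p : (↥E)ˣ →* (↥E)ˣ).range.index :=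
  H1BoundPerm.finrank_H1_perm_le p P hP hχ (h90 P) E hE hfin

end Fermat.Agent.S55.LM.H1BoundClosed

end
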