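/-
S55 / LM / KummerTwist (helper41): the TWISTED local Kummer datum — `μ_p ⊂ Ωˣ` with its genuine
(non-trivial) Galois action is the character module `𝔽_p(χ_p)`.

For a prime `q`, a subgroup `P ≤ Γ_q = Gal(ℚ̄_q/ℚ_q)` (e.g. `P = ⊤`), `χ = cycloChar p`:

* `Mχ q p P := Rep.res P.subtype (Rep.res (primeLocalToGlobal q) (mu (cycloChar p)))`
  (for `P = Γ_q` this is `X.loc (mu χ) v` of the arithmetic site), `Tχ := toInt (Mχ q p P)`;
* `iotaχ : Tχ ⟶ Ox q P`, `t ↦ ζ ^ t` (`ζ` the image of a primitive `p`-th root of unity of `ℚ̄`), with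
  `isKummer_twist : IsKummer (VP q P) (Ox q P) (Tχ q p P) p (iotaχ q p P)`;
* `twist_main` : from the five finite-level facts (literally the fields of `LM.LevelFacts`) for
  `(VP q P, Ox q P)`: `H²_LC(P; 𝔽_p(χ))` is cyclic, **nonzero**, and `H³_LC(P; 𝔽_p(χ)) = 0`;
* `exists_ne_zero_of_top` : generic transfer `(↥⊤, subBasis 𝒰 ⊤) → (G, 𝒰)` of `H² ≠ 0`;
* `loc_mu_ne_zero` : `∃ x : H2 (Vq q) (Rep.res (primeLocalToGlobal q) (mu (cycloChar p))), x ≠ 0`
  (the local input of `BaseA.inv` at the place `p`; true at every `q`).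
-/
import Mathlib
import Fermat.Agent.S55.LM.KummerLocal
import Fermat.Agent.S55.LM.OutGlue
import Fermat.Agent.S55.Middle.LocalLCAdapter
import Fermat.Agent.S55.Middle.CycloTotRam
import Fermat.Agent.S55.Formal.Blocks

set_option autoImplicit false
set_option linter.style.haveILetI false

open CategoryTheory groupCohomology ExtCitation

noncomputable section

namespace Fermat.Agent.S55.LM.KummerTwist

open Fermat.Agent.S55.Formal Fermat.Agent.S55.Formal.PreludeLC Fermat.Agent.S55.Bridge.ShapiroLC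
open Fermat.Agent.S55.Bridge.ScalarsLC
open Fermat.Agent.S55.LM.Defs Fermat.Agent.S55.LM.KummerLocal
open Fermat.Agent.S55.Middle.LocalLCCore

local notation "Qbar" => AlgebraicClosure ℚ

variable (q : Nat.Primes) (p : ℕ) [Fact p.Prime] (P : Subgroup (Gq q))

attribute [local instance] fact_q

/-- the local cyclotomic character on `P` -/
def chiP : P →* (ZMod p)ˣ := (cycloChar p).comp ((primeLocalToGlobal q).comp P.subtype)

/-- `𝔽_p(χ_p)` restricted to `P ≤ Γ_q` -/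
abbrev Mχ : Rep.{0, 0, 0} (ZMod p) P :=
  Rep.res P.subtype (Rep.res (primeLocalToGlobal q) (mu (cycloChar p)))

/-- the same as a `ℤ`-representation -/
abbrev Tχ : Rep.{0, 0, 0} ℤ P := toInt (Mχ q p P)

lemma Mχ_ρ_apply (g : P) (c : ZMod p) :
    (Mχ q p P).ρ g c = ((chiP q p P g : (ZMod p)ˣ) : ZMod p) * c := rfl

lemma Tχ_ρ_apply (g : P) (c : ZMod p) :
    (Tχ q p P).ρ g c = ((chiP q p P g : (ZMod p)ˣ) : ZMod p) * c := rfl

/-! ### the root of unity -/

/-- a primitive `p`-th root of unity of `ℚ̄` -/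
theorem exists_primitiveRoot : ∃ ζ₀ : Qbar, IsPrimitiveRoot ζ₀ p := by
  have hp : p.Prime := Fact.out
  haveI : NeZero ((p : ℕ) : Qbar) := ⟨by exact_mod_cast hp.ne_zero⟩
  exact HasEnoughRootsOfUnity.exists_primitiveRoot Qbar p

/-- the chosen primitive `p`-th root of unity of `ℚ̄` -/
def zeta0 : Qbar := (exists_primitiveRoot p).choose

lemma zeta0_spec : IsPrimitiveRoot (zeta0 p) p := (exists_primitiveRoot p).choose_spec

/-- its image in `Ω` -/
def zeta : Om q := padicEmbedding (q : ℕ) (zeta0 p)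

lemma zeta_spec : IsPrimitiveRoot (zeta q p) p :=
  (zeta0_spec p).map_of_injective (padicEmbedding (q : ℕ)).toRingHom.injective

lemma zeta_ne_zero : zeta q p ≠ 0 := (zeta_spec q p).ne_zero (Fact.out : p.Prime).ne_zero

/-- as a unit -/
def zetaU : (Om q)ˣ := Units.mk0 (zeta q p) (zeta_ne_zero q p)

lemma zetaU_spec : IsPrimitiveRoot (zetaU q p) p := by
  have := zeta_spec q p
  rw [← IsPrimitiveRoot.coe_units_iff]
  exact this

/-- the Galois action on `ζ` is through the cyclotomic character. -/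
lemma toAut_zeta (g : Gq q) :
    toAut q g (zeta q p) = zeta q p ^ ((cycloChar p (primeLocalToGlobal q g) : ZMod p)).val := by
  have h1 : padicEmbedding (q : ℕ) (primeLocalToGlobal q g (zeta0 p)) =
      toAut q g (padicEmbedding (q : ℕ) (zeta0 p)) :=
    padicEmbedding_localGaloisToGlobal (q : ℕ) (toAut q g) (zeta0 p)
  have h2 := Fermat.Agent.S55.Middle.CycloTotRam.cycloChar_spec p (primeLocalToGlobal q g)
    (zeta0_spec p).pow_eq_one
  unfold zeta
  rw [← h1, h2, map_pow]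

/-- the element `ζ` of `Ox q P` -/
def zetaA : Ox q P := ofUP q P (zetaU q p)

lemma ρ_zetaA (g : P) :
    (Ox q P).ρ g (zetaA q p P) =
      (((chiP q p P g : (ZMod p)ˣ) : ZMod p)).val • zetaA q p P := by
  apply toUP_injective
  apply Units.ext
  rw [coe_toUP_ρ]
  change toAut q (g : Gq q) (zeta q p) = _
  rw [toAut_zeta]
  rfl

lemma p_nsmul_zetaA : p • zetaA q p P = 0 := by
  apply toUP_injective
  change (zetaU q p) ^ p = 1
  exact (zetaU_spec q p).pow_eq_one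

lemma nsmul_zetaA_eq_zero_iff (n : ℕ) : n • zetaA q p P = 0 ↔ p ∣ n := by
  constructor
  · intro h
    have h1 : (zetaU q p) ^ n = 1 := congrArg (toUP q P) h
    exact (zetaU_spec q p).dvd_of_pow_eq_one n h1
  · rintro ⟨m, rfl⟩
    rw [mul_comm, mul_nsmul', p_nsmul_zetaA, smul_zero]

/-! ### the Kummer map -/

/-- the additive map `𝔽_p → Ωˣ`, `t ↦ ζ ^ t` -/
def iotaAdd : ZMod p →+ Ox q P :=
  haveI : NeZero p := ⟨(Fact.out : p.Prime).ne_zero⟩
  ZMod.lift p ⟨zmultiplesHom (Ox q P) (zetaA q p P), by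
    show ((p : ℕ) : ℤ) • zetaA q p P = 0
    rw [natCast_zsmul]; exact p_nsmul_zetaA q p P⟩

lemma iotaAdd_natCast (n : ℕ) : iotaAdd q p P (n : ZMod p) = n • zetaA q p P := by
  haveI : NeZero p := ⟨(Fact.out : p.Prime).ne_zero⟩
  unfold iotaAdd
  have := ZMod.lift_coe p (⟨zmultiplesHom (Ox q P) (zetaA q p P), by
    show ((p : ℕ) : ℤ) • zetaA q p P = 0
    rw [natCast_zsmul]; exact p_nsmul_zetaA q p P⟩ :
      {f : ℤ →+ Ox q P // f (p : ℤ) = 0}) (n : ℤ)
  simp only [Int.cast_natCast] at this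
  rw [this]
  simp

lemma iotaAdd_equivariant (g : P) (t : ZMod p) :
    iotaAdd q p P ((Tχ q p P).ρ g t) = (Ox q P).ρ g (iotaAdd q p P t) := by
  haveI : NeZero p := ⟨(Fact.out : p.Prime).ne_zero⟩
  obtain ⟨n, rfl⟩ := ZMod.natCast_zmod_surjective t
  rw [Tχ_ρ_apply, iotaAdd_natCast, map_nsmul, ρ_zetaA]
  set m := (((chiP q p P g : (ZMod p)ˣ) : ZMod p)).val with hm
  have h1 : ((chiP q p P g : (ZMod p)ˣ) : ZMod p) * (n : ZMod p) = ((m * n : ℕ) : ZMod p) := by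
    rw [Nat.cast_mul, hm, ZMod.natCast_val, ZMod.cast_id]
  rw [h1, iotaAdd_natCast, mul_nsmul, smul_comm]

/-- the Kummer morphism `𝔽_p(χ) ⟶ Ωˣ` over `P` -/
def iotaχ : Tχ q p P ⟶ Ox q P :=
  Rep.ofHom (ρ := (Tχ q p P).ρ) (σ := (Ox q P).ρ)
    ((iotaAdd q p P).toIntLinearMap.intertwiningMap_of_isIntertwiningMap _ _
      (iotaAdd_equivariant q p P))

lemma iotaχ_apply (t : ZMod p) : (iotaχ q p P).hom t = iotaAdd q p P t := rfl

/-- **the twisted Kummer datum** -/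
theorem isKummer_twist :
    IsKummer (VP q P) (Ox q P) (Tχ q p P) ((p : ℕ) : ℤ) (iotaχ q p P) where
  inj := by
    haveI : NeZero p := ⟨(Fact.out : p.Prime).ne_zero⟩
    intro (s : ZMod p) (t : ZMod p) hst
    change iotaAdd q p P s = iotaAdd q p P t at hst
    have h0 : iotaAdd q p P (s - t) = 0 := by rw [map_sub, hst, sub_self]
    obtain ⟨n, hn⟩ := ZMod.natCast_zmod_surjective (s - t)
    rw [← hn, iotaAdd_natCast, nsmul_zetaA_eq_zero_iff] at h0
    have : (n : ZMod p) = 0 := (ZMod.natCast_eq_zero_iff n p).mpr h0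
    rw [hn] at this
    exact sub_eq_zero.mp this
  tors := by
    haveI : NeZero p := ⟨(Fact.out : p.Prime).ne_zero⟩
    intro a
    constructor
    · intro ha
      have h1 : toUP q P a ^ p = 1 := by
        have h := congrArg (toUP q P) ha
        have h' : toUP q P a ^ ((p : ℕ) : ℤ) = 1 := h
        rwa [zpow_natCast] at h'
      have h1' : ((toUP q P a : (Om q)ˣ) : Om q) ^ p = 1 := by
        rw [← Units.val_pow_eq_pow_val, h1, Units.val_one]
      obtain ⟨n, _, hn⟩ := (zeta_spec q p).eq_pow_of_pow_eq_one h1'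
      refine ⟨(n : ZMod p), ?_⟩
      rw [iotaχ_apply, iotaAdd_natCast]
      apply toUP_injective
      apply Units.ext
      change ((zetaU q p ^ n : (Om q)ˣ) : Om q) = _
      rw [Units.val_pow_eq_pow_val]
      exact hn
    · rintro ⟨t, rfl⟩
      obtain ⟨n, rfl⟩ := ZMod.natCast_zmod_surjective t
      rw [iotaχ_apply, iotaAdd_natCast]
      apply toUP_injective
      change (zetaU q p ^ n) ^ ((p : ℕ) : ℤ) = 1
      rw [zpow_natCast, ← pow_mul, mul_comm, pow_mul, (zetaU_spec q p).pow_eq_one, one_pow]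
  div := fun a => by
    obtain ⟨b, hb⟩ := powOx_surjective q p P (Fact.out : p.Prime).ne_zero a
    exact ⟨b, hb⟩
  smooth := isSmooth_Ox q P

/-- **Twisted LM.core**: from the finite-level facts for `(VP q P, Ox q P)`:
`H²_LC(P; 𝔽_p(χ))` is cyclic and nonzero, `H³_LC(P; 𝔽_p(χ)) = 0`. -/
theorem twist_main
    (h1 : ∀ W, (VP q P).mem W → ∀ [W.Normal] (H : Subgroup (P ⧸ W)),
      Limits.IsZero (groupCohomology (Rep.res H.subtype ((Ox q P).quotientToInvariants W)) 1))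
    (h3 : ∀ W, (VP q P).mem W → ∀ [W.Normal],
      Limits.IsZero (groupCohomology ((Ox q P).quotientToInvariants W) 3))
    (h2card : ∀ W, (VP q P).mem W → ∀ [W.Normal],
      Nat.card (groupCohomology ((Ox q P).quotientToInvariants W) 2) = W.index)
    (h2cyc : ∀ W, (VP q P).mem W → ∀ [W.Normal],
      IsAddCyclic (groupCohomology ((Ox q P).quotientToInvariants W) 2))
    (grow : ∀ W, (VP q P).mem W → ∀ m : ℕ, 0 < m →
      ∃ W', (VP q P).mem W' ∧ W' ≤ W ∧ m ∣ W'.index) :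
    (∀ x y : H2 (VP q P) (Mχ q p P), x ≠ 0 → ∃ n : ℤ, y = n • x) ∧
      Vanish₃ (VP q P) (Mχ q p P) ∧ ∃ x : H2 (VP q P) (Mχ q p P), x ≠ 0 := by
  obtain ⟨hc, hv, hn⟩ := Fermat.Agent.S55.Middle.LocalLCAdapter.main_of_facts (VP q P) (Ox q P)
    (Fact.out : p.Prime) (isKummer_twist q p P) h1 h3 h2card h2cyc grow
  exact ⟨Fermat.Agent.S55.LM.OutGlue.cyclic_of_toInt (VP q P) (Mχ q p P) hc,
    (vanish₃_toInt_iff (VP q P) (Mχ q p P)).1 hv,
    Fermat.Agent.S55.LM.OutGlue.nontrivial_of_toInt (VP q P) (Mχ q p P) hn⟩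

/-! ### transfer from `(↥⊤, subBasis 𝒰 ⊤)` to `(G, 𝒰)` -/

section Top

variable {k : Type} [CommRing k] {G : Type} [Group G] (𝒰 : NBasis G) (M : Rep.{0, 0, 0} k G)

theorem isCont_top_subtype : IsCont 𝒰 (subBasis 𝒰 ⊤) (⊤ : Subgroup G).subtype := by
  intro U hU
  exact ⟨U.subgroupOf ⊤, ⟨U, hU, rfl⟩, fun s hs => hs⟩

/-- restriction to `⊤` -/
def topMor : Mor 𝒰 M (subBasis 𝒰 ⊤) (Rep.res (⊤ : Subgroup G).subtype M) :=
  Mor.res 𝒰 (subBasis 𝒰 ⊤) (⊤ : Subgroup G).subtype (isCont_top_subtype 𝒰) M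

lemma topMor_p₃_injective : Function.Injective (topMor 𝒰 M).p₃ := by
  intro x y h
  funext ⟨g, h', j⟩
  have := congrFun h (⟨g, Subgroup.mem_top g⟩, ⟨h', Subgroup.mem_top h'⟩, ⟨j, Subgroup.mem_top j⟩)
  exact this

/-- **`H² ≠ 0` over `(↥⊤, subBasis 𝒰 ⊤)` gives `H² ≠ 0` over `(G, 𝒰)`.** -/
theorem exists_ne_zero_of_top
    (h : ∃ x : H2 (subBasis 𝒰 ⊤) (Rep.res (⊤ : Subgroup G).subtype M), x ≠ 0) :
    ∃ x : H2 𝒰 M, x ≠ 0 := by
  obtain ⟨x', hx'⟩ := h
  obtain ⟨b', hb', rfl⟩ := Hmid.exists_of x'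
  -- extend the cochain to `G × G`
  let b : G × G → M := fun gh =>
    (b' : (⊤ : Subgroup G) × (⊤ : Subgroup G) → M)
      (⟨gh.1, Subgroup.mem_top _⟩, ⟨gh.2, Subgroup.mem_top _⟩)
  have hbLC : b ∈ C₂ 𝒰 M := by
    obtain ⟨W, ⟨N, hN, rfl⟩, hW⟩ := b'.2
    refine ⟨N, hN, fun s hs g h => ?_⟩
    have hs' : (⟨s, Subgroup.mem_top s⟩ : (⊤ : Subgroup G)) ∈ N.subgroupOf ⊤ := hs
    have := hW ⟨s, Subgroup.mem_top s⟩ hs' ⟨g, Subgroup.mem_top g⟩ ⟨h, Subgroup.mem_top h⟩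
    exact this
  have hc₂ : (topMor 𝒰 M).c₂ ⟨b, hbLC⟩ = b' := by
    apply Subtype.ext
    funext ⟨g, h⟩
    rfl
  have hd : dC₂ 𝒰 M ⟨b, hbLC⟩ = 0 := by
    have h1 := LinearMap.congr_fun (topMor 𝒰 M).c₃_dC₂ ⟨b, hbLC⟩
    simp only [LinearMap.comp_apply] at h1
    rw [hc₂, hb'] at h1
    apply Subtype.ext
    apply topMor_p₃_injective 𝒰 M
    have h2 := congrArg Subtype.val h1
    have h3 : (topMor 𝒰 M).p₃ ((0 : ↥(C₃ 𝒰 M)) : G × G × G → M) = 0 := map_zero _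
    rw [h3]
    exact h2
  refine ⟨Hmid.of ⟨b, hbLC⟩ hd, fun h0 => hx' ?_⟩
  have h3 : (topMor 𝒰 M).h2 (Hmid.of ⟨b, hbLC⟩ hd) = Hmid.of b' hb' := by
    unfold Mor.h2
    rw [Hmid.mapOfComm_of (hb' := by rw [hc₂]; exact hb')]
    congr 1
  rw [← h3, h0, map_zero]

end Top

/-- **`H²(Γ_q, 𝔽_p(χ_p)) ≠ 0`** over the full local group with the basis of the arithmetic site, from
the finite-level facts for `(VP q ⊤, Ox q ⊤)`. -/
theorem loc_mu_ne_zero
    (h1 : ∀ W, (VP q ⊤).mem W → ∀ [W.Normal] (H : Subgroup ((⊤ : Subgroup (Gq q)) ⧸ W)),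
      Limits.IsZero (groupCohomology (Rep.res H.subtype ((Ox q ⊤).quotientToInvariants W)) 1))
    (h3 : ∀ W, (VP q ⊤).mem W → ∀ [W.Normal],
      Limits.IsZero (groupCohomology ((Ox q ⊤).quotientToInvariants W) 3))
    (h2card : ∀ W, (VP q ⊤).mem W → ∀ [W.Normal],
      Nat.card (groupCohomology ((Ox q ⊤).quotientToInvariants W) 2) = W.index)
    (h2cyc : ∀ W, (VP q ⊤).mem W → ∀ [W.Normal],
      IsAddCyclic (groupCohomology ((Ox q ⊤).quotientToInvariants W) 2))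
    (grow : ∀ W, (VP q ⊤).mem W → ∀ m : ℕ, 0 < m →
      ∃ W', (VP q ⊤).mem W' ∧ W' ≤ W ∧ m ∣ W'.index) :
    ∃ x : H2 (Vq q) (Rep.res (primeLocalToGlobal q) (mu (cycloChar p))), x ≠ 0 :=
  exists_ne_zero_of_top (Vq q) (Rep.res (primeLocalToGlobal q) (mu (cycloChar p)))
    (twist_main q p ⊤ h1 h3 h2card h2cyc grow).2.2

end Fermat.Agent.S55.LM.KummerTwist
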