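/-
S55 / LM / H2MuTwist (helper41): leaf (I3) of M.inv, UNCONDITIONAL.

`H²_LC(Γ_q; 𝔽_p(χ_p)) ≠ 0` over the FULL local Galois group `Γ_q` (basis of the arithmetic site), with
the TWISTED coefficients `Rep.res (primeLocalToGlobal q) (mu (cycloChar p))`, for every prime `q`
(in particular `q = p`, the place `v0` of `InvDescent.baseA_inv_of_perm_noSingleSupport`).

Proof: `KummerTwist.loc_mu_ne_zero` (twisted Kummer datum + `LocalLCCore`) fed with the finite-level
facts `OutFinal.facts q ⊤` of `Ωˣ` over `⊤ ≤ Γ_q`.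
-/
import Fermat.Agent.S55.LM.KummerTwist
import Fermat.Agent.S55.LM.OutFinal

set_option autoImplicit false

open CategoryTheory ExtCitation Module

namespace Fermat.Agent.S55.LM.H2MuTwist

open Fermat.Agent.S55.Formal Fermat.Agent.S55.Formal.PreludeLC Fermat.Agent.S55.Formal.ArithSite
open Fermat.Agent.S55.LM.Defs

/-- `⊤` is open in `Γ_q`. -/
theorem isOpen_top (q : Nat.Primes) : (Vq q).IsOpen (⊤ : Subgroup (Gq q)) :=
  ⟨⊤, (Vq q).top, le_rfl⟩

/-- **(I3)** `H²_LC(Γ_q; 𝔽_p(χ_p)) ≠ 0` for every prime `q`, unconditionally. -/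
theorem h2_mu_ne_zero (q : Nat.Primes) (p : ℕ) [Fact p.Prime] :
    ∃ y : H2 (Vq q) (Rep.res (primeLocalToGlobal q) (mu (cycloChar p))), y ≠ 0 :=
  let F := OutFinal.facts q ⊤ (isOpen_top q)
  KummerTwist.loc_mu_ne_zero q p F.h1 F.h3 F.h2card F.h2cyc F.grow

/-- **(I3)** at the place `p`: literal hypothesis `hA` of
`InvDescent.baseA_inv_of_perm_noSingleSupport` for `arithSite S`, `v0 = p`. -/
theorem h2_mu_ne_zero_p (p : ℕ) [Fact p.Prime] :
    ∃ y : H2 (Vq (pPrime p)) (Rep.res (primeLocalToGlobal (pPrime p)) (mu (cycloChar p))), y ≠ 0 :=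
  h2_mu_ne_zero (pPrime p) p

/-- the same in the language of the arithmetic site. -/
theorem h2_mu_ne_zero_arith (S : Finset Nat.Primes) (p : ℕ) [Fact p.Prime]
    (v : (arithSite S).I) :
    ∃ y : H2 ((arithSite S).𝒱 v) ((arithSite S).loc (mu (cycloChar p)) v), y ≠ 0 :=
  h2_mu_ne_zero v.1 p

end Fermat.Agent.S55.LM.H2MuTwist
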