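/-
S55 / LM block (helper90): injectivity of the level maps `ι₂` for the local units.

For every subgroup `P ≤ Γ_q` and every level `W ∈ VP q P` the map
  `ι₂ : H²(P ⧸ W, (Ωˣ)^W) → H²_LC(P; Ωˣ)`
is injective (Hilbert 90 on every finite level, `LevelH1.levelFacts_h1`, fed to
`LCLevelInj.ι₂_injective`), and likewise every transition map between two levels.
-/
import Mathlib
import Fermat.Agent.S55.LM.LevelH1
import Fermat.Agent.S55.Formal.LCLevelInj

set_option autoImplicit false

open CategoryTheory groupCohomology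

noncomputable section

namespace Fermat.Agent.S55.LM.Iota2Inj

open Fermat.Agent.S55.Formal Fermat.Agent.S55.Formal.PreludeLC Fermat.Agent.S55.Bridge.ShapiroLC
open Fermat.Agent.S55.Formal.LCLevelH Fermat.Agent.S55.Formal.LCLevelInj
open Fermat.Agent.S55.LM.Defs Fermat.Agent.S55.LM.LevelH1

variable (q : Nat.Primes)

/-- the transition maps `H²(P ⧸ W, (Ωˣ)^W) → H²(P ⧸ V, (Ωˣ)^V)` (`V ≤ W` two levels) are
injective. -/
theorem trans₂_injective_Ox (P : Subgroup (Gq q)) (W V : Subgroup P) [W.Normal] [V.Normal]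
    [Finite (P ⧸ W)] [Finite (P ⧸ V)]
    (hV : (VP q P).mem V) (h : V ≤ W) :
    Function.Injective (trans₂ (Ox q P) W V h) :=
  trans₂_injective (Ox q P) W V h (levelFacts_h1 q P V hV (relSub W V))

/-- **`ι₂` is injective** on every finite level of `(VP q P, Ox q P)`, `P` ANY subgroup of `Γ_q`. -/
theorem ι₂_injective_Ox (P : Subgroup (Gq q)) (W : Subgroup P) [W.Normal] [Finite (P ⧸ W)]
    (hW : (VP q P).mem W) :
    Function.Injective (ι₂ (VP q P) (Ox q P) W hW) :=
  ι₂_injective (Ox q P) W (VP q P) hW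
    fun V hV _ _ => levelFacts_h1 q P V hV (relSub W V)

/-- a class of level `W` dies in `H²_LC(P; Ωˣ)` iff it is zero. -/
theorem ι₂_eq_zero_iff_Ox (P : Subgroup (Gq q)) (W : Subgroup P) [W.Normal] [Finite (P ⧸ W)]
    (hW : (VP q P).mem W) (y : groupCohomology.H2 ((Ox q P).quotientToInvariants W)) :
    ι₂ (VP q P) (Ox q P) W hW y = 0 ↔ y = 0 :=
  ⟨fun h => ι₂_injective_Ox q P W hW (h.trans (map_zero _).symm), fun h => by rw [h, map_zero]⟩

end Fermat.Agent.S55.LM.Iota2Inj
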