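/-
S55 / LM / KummerBeta (helper72): the LOCAL LEG `β` of the Kummer square, for ANY subgroup `D ≤ Γ_q`
and ANY nonzero equivariant map `ι : 𝔽_p → Ωˣ` (no choice of `ζ_p` is imposed on the consumer):

* `isKummer_of_ne_zero` : `ι : Tp D p ⟶ Ox q D` with `ι 1 ≠ 0` is a Kummer datum
  (`LocalLCCore.IsKummer`): injective, image = `p`-torsion of `Ωˣ`, `Ωˣ` smooth and `p`-divisible;
* for every Kummer datum `ι : T ⟶ Ox q D`: `β := (Mor.ofHom (VP q D) ι).h2 : H²(D, T) → H²(D, Ωˣ)` is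
  injective (`beta_injective`, local Hilbert 90), its image is the `p`-torsion (`beta_range`,
  `p_smul_beta`);
* the `ZMod p`-linear source: `betaTriv ι : H2 (VP q D) (Rep.trivial (ZMod p) D (ZMod p)) →+
  H2 (VP q D) (Ox q D)` with the same three properties.
-/
import Mathlib
import Fermat.Agent.S55.LM.KummerTriv
import Fermat.Agent.S55.LM.H90Local
import Fermat.Agent.S55.Middle.LocalLCMain

set_option autoImplicit false
set_option linter.style.haveILetI false
set_option linter.unusedSectionVars false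

open CategoryTheory ExtCitation

namespace Fermat.Agent.S55.LM.KummerBeta

open Fermat.Agent.S55.Formal Fermat.Agent.S55.Bridge.ShapiroLC Fermat.Agent.S55.Bridge.ScalarsLC
open Fermat.Agent.S55.Middle.LocalLCCore Fermat.Agent.S55.Middle.LocalLCMain
open Fermat.Agent.S55.LM.Defs Fermat.Agent.S55.LM.KummerLocal Fermat.Agent.S55.LM.H90Local

noncomputable section

/-- the image of `H²_LC(T) → H²_LC(A)` is killed by `c` (generic ring). -/
theorem smul_h2_eq_zero {k : Type} [CommRing k] {G : Type} [Group G] {𝒰 : NBasis G}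
    {A T : Rep.{0, 0, 0} k G} {c : k} {ι : T ⟶ A} (h : IsKummer 𝒰 A T c ι) (z : H2 𝒰 T) :
    c • (Mor.ofHom 𝒰 ι).h2 z = 0 := by
  obtain ⟨f, hf, rfl⟩ := Hmid.exists_of z
  have hpf : c • f = 0 := by
    apply Subtype.ext
    funext x
    apply h.inj
    show ι.hom (c • (f : G × G → T) x) = ι.hom 0
    rw [map_smul, h.p_smul_ι, map_zero]
  rw [← map_smul, ← Hmid.of_smul c hf]
  have : (Hmid.of (c • f) (by rw [map_smul, hf, smul_zero]) : H2 𝒰 T) = 0 := by
    rw [Hmid.of_eq_zero_iff]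
    exact ⟨0, by rw [map_zero, hpf]⟩
  rw [this, map_zero]

variable (q : Nat.Primes)

attribute [local instance] fact_q

variable (p : ℕ) [Fact p.Prime] (D : Subgroup (Gq q))

/-- local Hilbert 90 in the shape of `LocalLCCore.Vanish₁`. -/
theorem vanish₁_Ox : Vanish₁ (VP q D) (Ox q D) := fun f hf => h90_Ox q D f hf

/-- packaging: an injective `ι : T ⟶ Ωˣ` onto the `p`-torsion is a Kummer datum. -/
theorem isKummer_of_inj_range {T : Rep.{0, 0, 0} ℤ D} (ι : T ⟶ Ox q D)
    (hinj : Function.Injective ι.hom)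
    (hrange : ∀ a : Ox q D, toUP q D a ^ p = 1 ↔ ∃ t : T, ι.hom t = a) :
    IsKummer (VP q D) (Ox q D) T ((p : ℕ) : ℤ) ι where
  inj := hinj
  tors := by
    intro a
    change KummerTriv.msmul (Ox q D) ((p : ℕ) : ℤ) a = 0 ↔ _
    rw [KummerTriv.msmul_eq, ← hrange a]
    constructor
    · intro ha
      have := congrArg (toUP q D) ha
      rwa [toUP_natCast_zsmul, toUP_zero] at this
    · intro ha
      apply toUP_injective q D
      rw [toUP_natCast_zsmul, toUP_zero]
      exact ha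
  div := by
    intro b
    obtain ⟨c, hc⟩ := powOx_surjective q p D (Fact.out : p.Prime).ne_zero b
    exact ⟨c, hc⟩
  smooth := isSmooth_Ox q D

/-- **any nonzero `𝔽_p → Ωˣ` is a Kummer datum.** -/
theorem isKummer_of_ne_zero (ι : OutGlue.Tp D p ⟶ Ox q D) (h1 : ι.hom (1 : ZMod p) ≠ 0) :
    IsKummer (VP q D) (Ox q D) (OutGlue.Tp D p) ((p : ℕ) : ℤ) ι := by
  have hpp : p.Prime := Fact.out
  haveI : NeZero p := ⟨hpp.ne_zero⟩
  -- `ι` as a plain additive map on `ZMod p`
  let f : ZMod p →+ Ox q D :=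
    { toFun := fun t => ι.hom t
      map_zero' := map_zero ι.hom
      map_add' := map_add ι.hom }
  have hf : ∀ t : ZMod p, ι.hom t = f t := fun _ => rfl
  -- values of `ι` on integers
  have hint : ∀ n : ℤ, f (n : ZMod p) = n • f 1 := by
    intro n
    have h := map_zsmul f n (1 : ZMod p)
    have e : (n • (1 : ZMod p) : ZMod p) = (n : ZMod p) := by simp
    rw [e] at h
    exact h
  have h1' : f 1 ≠ 0 := h1
  set a : Ox q D := f 1 with ha
  set u : (Om q)ˣ := toUP q D a with hu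
  have hup : u ^ p = 1 := by
    have h := hint (p : ℤ)
    have e : (((p : ℤ) : ZMod p)) = 0 := by simp
    rw [e, map_zero] at h
    have := congrArg (toUP q D) h.symm
    rwa [toUP_natCast_zsmul, toUP_zero] at this
  have hu1 : u ≠ 1 := fun h => h1' (toUP_injective q D (by rw [← hu, h, toUP_zero]))
  -- `u` is a primitive `p`-th root of unity
  have hprim : IsPrimitiveRoot (u : Om q) p := by
    have hord : orderOf u = p := by
      have hdvd : orderOf u ∣ p := orderOf_dvd_of_pow_eq_one hup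
      rcases (Nat.dvd_prime hpp).mp hdvd with h | h
      · exact absurd (orderOf_eq_one_iff.mp h) hu1
      · exact h
    have h2 : IsPrimitiveRoot u p := hord ▸ IsPrimitiveRoot.orderOf u
    exact IsPrimitiveRoot.coe_units_iff.2 h2
  refine isKummer_of_inj_range q p D ι ?_ ?_
  · rw [injective_iff_map_eq_zero]
    intro t ht
    obtain ⟨n, rfl⟩ := ZMod.intCast_surjective t
    rw [hf, hint] at ht
    have h3 : u ^ n = 1 := by
      have := congrArg (toUP q D) ht
      rwa [toUP_zsmul, toUP_zero] at this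
    have h4 : ((u : Om q)) ^ n = 1 := by
      have := congrArg (fun w : (Om q)ˣ => (w : Om q)) h3
      simpa using this
    have h5 : (p : ℤ) ∣ n := (hprim.zpow_eq_one_iff_dvd n).1 h4
    exact (ZMod.intCast_zmod_eq_zero_iff_dvd n p).2 h5
  · intro b
    constructor
    · intro hb
      have hb' : ((toUP q D b : (Om q)ˣ) : Om q) ^ p = 1 := by
        have := congrArg (fun w : (Om q)ˣ => (w : Om q)) hb
        simpa using this
      obtain ⟨i, -, hi⟩ := hprim.eq_pow_of_pow_eq_one hb'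
      refine ⟨(((i : ℤ) : ZMod p) : ZMod p), ?_⟩
      rw [hf, hint]
      apply toUP_injective q D
      rw [toUP_natCast_zsmul]
      apply Units.ext
      rw [Units.val_pow_eq_pow_val]
      exact hi
    · rintro ⟨t, rfl⟩
      obtain ⟨n, rfl⟩ := ZMod.intCast_surjective t
      rw [hf, hint, toUP_zsmul, ← zpow_natCast, ← zpow_mul, mul_comm, zpow_mul, zpow_natCast, hup,
        one_zpow]

section beta

variable {q p D}
variable {T : Rep.{0, 0, 0} ℤ D} {ι : T ⟶ Ox q D}

/-- `β : H²(D, T) → H²(D, Ωˣ)` is injective (local Hilbert 90). -/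
theorem beta_injective (h : IsKummer (VP q D) (Ox q D) T ((p : ℕ) : ℤ) ι) :
    Function.Injective (Mor.ofHom (VP q D) ι).h2 :=
  h2_injective h (vanish₁_Ox q D)

/-- the image of `β` contains the `p`-torsion of `H²(D, Ωˣ)`. -/
theorem beta_range (h : IsKummer (VP q D) (Ox q D) T ((p : ℕ) : ℤ) ι)
    (a : H2 (VP q D) (Ox q D)) (ha : ((p : ℕ) : ℤ) • a = 0) :
    ∃ b : H2 (VP q D) T, (Mor.ofHom (VP q D) ι).h2 b = a :=
  h2_surjective_tors h a ha

/-- the image of `β` is killed by `p`. -/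
theorem p_smul_beta (h : IsKummer (VP q D) (Ox q D) T ((p : ℕ) : ℤ) ι) (b : H2 (VP q D) T) :
    ((p : ℕ) : ℤ) • (Mor.ofHom (VP q D) ι).h2 b = 0 :=
  smul_h2_eq_zero h b

end beta

section betaTriv

variable {q p D}

/-- the `ZMod p`-linear source: `H²(D, 𝔽_p) → H²(D, Ωˣ)`. -/
def betaTriv (ι : OutGlue.Tp D p ⟶ Ox q D) :
    H2 (VP q D) (Rep.trivial (ZMod p) D (ZMod p)) →+ H2 (VP q D) (Ox q D) :=
  ((Mor.ofHom (VP q D) ι).h2 : H2 (VP q D) (OutGlue.Tp D p) →ₗ[ℤ] H2 (VP q D) (Ox q D)).toAddMonoidHom.comp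
    (h2IntEquiv (VP q D) (Rep.trivial (ZMod p) D (ZMod p))).toAddMonoidHom

theorem betaTriv_apply (ι : OutGlue.Tp D p ⟶ Ox q D)
    (b : H2 (VP q D) (Rep.trivial (ZMod p) D (ZMod p))) :
    betaTriv ι b = (Mor.ofHom (VP q D) ι).h2 (h2IntEquiv (VP q D) _ b) := rfl

theorem betaTriv_injective {ι : OutGlue.Tp D p ⟶ Ox q D}
    (h : IsKummer (VP q D) (Ox q D) (OutGlue.Tp D p) ((p : ℕ) : ℤ) ι) :
    Function.Injective (betaTriv ι) := fun _ _ hxy =>
  (h2IntEquiv (VP q D) _).injective (beta_injective h hxy)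

theorem betaTriv_range {ι : OutGlue.Tp D p ⟶ Ox q D}
    (h : IsKummer (VP q D) (Ox q D) (OutGlue.Tp D p) ((p : ℕ) : ℤ) ι)
    (a : H2 (VP q D) (Ox q D)) (ha : ((p : ℕ) : ℤ) • a = 0) : ∃ b, betaTriv ι b = a := by
  obtain ⟨b, hb⟩ := beta_range h a ha
  exact ⟨(h2IntEquiv (VP q D) _).symm b, by rw [betaTriv_apply, AddEquiv.apply_symm_apply, hb]⟩

theorem p_smul_betaTriv {ι : OutGlue.Tp D p ⟶ Ox q D}
    (h : IsKummer (VP q D) (Ox q D) (OutGlue.Tp D p) ((p : ℕ) : ℤ) ι)
    (b : H2 (VP q D) (Rep.trivial (ZMod p) D (ZMod p))) : ((p : ℕ) : ℤ) • betaTriv ι b = 0 :=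
  p_smul_beta h _

end betaTriv

end

end Fermat.Agent.S55.LM.KummerBeta
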