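/-
S55 / LM / KummerChi (helper20): THE TWISTED KUMMER DATUM `𝔽_p(χ) → Ωˣ` over ANY subgroup `P ≤ Γ_q`
(no triviality hypothesis on the mod-`p` cyclotomic character), and its consequence

  `H²_LC(Γ_q ; 𝔽_p(χ_p))` is one-dimensional (cyclic, NONZERO) and `H³_LC(Γ_q ; 𝔽_p(χ_p)) = 0`,

literally for the local modules `(arithSite S).loc (mu (cycloChar p)) v` of the arithmetic site.
This is the local input "`H²(Γ_v ; μ χ) ≠ 0`" of row M.inv (`BaseA.inv`): `LM/Out.lean` only gives the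
permutation-module facts under `TrivOn`.

* generic part: an element `a` of a smooth `p`-divisible `A : Rep ℤ G`, `a ≠ 0`, `p • a = 0`, generating
  the `p`-torsion, on which `G` acts through `χ : G →* (ZMod p)ˣ` (`ρ g a = (χ g).val • a`), gives
  `iotaChi : toInt (mu χ) ⟶ A` and `IsKummer`;
* local part: `a = ζ_p ∈ Ωˣ`, `G = ↥P`, `χ = χ_p ∘ r_q ∘ incl`;
* `top ↔ whole group` transfer of `H²`, `H³` in LC language;
* `h2_mu_arith`, `vanish₃_mu_arith`, `exists_h2_mu_arith_ne_zero`, `finrank_h2_mu_arith`.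
-/
import Mathlib
import Fermat.Agent.S55.LM.Out
import Fermat.Agent.S55.GaloisLevelCyclo

set_option autoImplicit false
set_option linter.style.haveILetI false
set_option linter.unusedSectionVars false

open CategoryTheory ExtCitation Module

namespace Fermat.Agent.S55.LM.KummerChi

open Fermat.Agent.S55.Formal Fermat.Agent.S55.Formal.PreludeLC Fermat.Agent.S55.Formal.ArithSite
open Fermat.Agent.S55.Bridge.ShapiroLC Fermat.Agent.S55.Bridge.ScalarsLC
open Fermat.Agent.S55.Middle.LocalLCCore Fermat.Agent.S55.LM.Defs Fermat.Agent.S55.LM.KummerLocal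
open Fermat.Agent.S55.LM.KummerTriv

noncomputable section

/-! ### generic part -/

section generic

variable {G : Type} [Group G] (𝒰 : NBasis G) (A : Rep.{0, 0, 0} ℤ G) (p : ℕ) [Fact p.Prime]
  (χ : G →* (ZMod p)ˣ)

/-- `ZMod p → 𝔽_p(χ)` (the identity) -/
def ofZ (t : ZMod p) : toInt (mu χ) := t

/-- `𝔽_p(χ) → ZMod p` (the identity) -/
def toZ (t : toInt (mu χ)) : ZMod p := t

@[simp] theorem toZ_ofZ (t : ZMod p) : toZ p χ (ofZ p χ t) = t := rfl
@[simp] theorem ofZ_toZ (t : toInt (mu χ)) : ofZ p χ (toZ p χ t) = t := rfl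

/-- the action on `toInt (mu χ)` -/
theorem toInt_mu_ρ (g : G) (t : ZMod p) :
    (toInt (mu χ)).ρ g (ofZ p χ t) = ofZ p χ (((χ g : (ZMod p)ˣ) : ZMod p) * t) := rfl

theorem ofZ_surjective : Function.Surjective (ofZ p χ) := fun t => ⟨t, rfl⟩

/-- `n ↦ n • a` as a morphism `𝔽_p(χ) → A` of `ℤ`-representations, for an element `a` killed by `p`
on which `G` acts through `χ`. -/
def iotaChi (a : A) (hp : (p : ℤ) • a = 0)
    (hact : ∀ g, A.ρ g a = ((((χ g : (ZMod p)ˣ) : ZMod p).val : ℕ) : ℤ) • a) :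
    toInt (mu χ) ⟶ A :=
  mkHom (toInt (mu χ)) A (zmodHom p a hp)
    (fun n t => by
      change _ = msmul A n _
      rw [msmul_eq]
      exact map_zsmul (zmodHom p a hp) n t)
    (fun g t => by
      obtain ⟨t, rfl⟩ := ofZ_surjective p χ t
      obtain ⟨n, rfl⟩ := ZMod.intCast_surjective t
      have h1 : (toInt (mu χ)).ρ g (ofZ p χ ((n : ZMod p) : ZMod p)) =
          ofZ p χ (((((((χ g : (ZMod p)ˣ) : ZMod p).val : ℕ) : ℤ) * n : ℤ) : ZMod p)) := by
        rw [toInt_mu_ρ]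
        push_cast
        rw [ZMod.natCast_zmod_val]
      rw [h1]
      show zmodHom p a hp ((((((χ g : (ZMod p)ˣ) : ZMod p).val : ℕ) : ℤ) * n : ℤ) : ZMod p) =
        A.ρ g (zmodHom p a hp ((n : ZMod p) : ZMod p))
      rw [zmodHom_intCast, zmodHom_intCast, map_zsmul, hact, mul_smul, smul_comm])

theorem iotaChi_apply (a : A) (hp : (p : ℤ) • a = 0)
    (hact : ∀ g, A.ρ g a = ((((χ g : (ZMod p)ˣ) : ZMod p).val : ℕ) : ℤ) • a) (n : ℤ) :
    (iotaChi A p χ a hp hact).hom (ofZ p χ ((n : ZMod p) : ZMod p)) = n • a :=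
  zmodHom_intCast p a hp n

/-- **generic Kummer datum for `𝔽_p(χ)`**. -/
theorem isKummer_iotaChi (a : A) (ha0 : a ≠ 0) (hp : (p : ℤ) • a = 0)
    (hact : ∀ g, A.ρ g a = ((((χ g : (ZMod p)ˣ) : ZMod p).val : ℕ) : ℤ) • a)
    (hgen : ∀ b : A, (p : ℤ) • b = 0 → ∃ n : ℤ, b = n • a)
    (hdiv : ∀ b : A, ∃ c : A, (p : ℤ) • c = b) (hsm : SmoothLift.IsSmooth 𝒰 A) :
    IsKummer 𝒰 A (toInt (mu χ)) ((p : ℕ) : ℤ) (iotaChi A p χ a hp hact) where
  inj := by
    have hpp : p.Prime := Fact.out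
    rw [injective_iff_map_eq_zero]
    intro t ht
    obtain ⟨t, rfl⟩ := ofZ_surjective p χ t
    obtain ⟨n, rfl⟩ := ZMod.intCast_surjective t
    rw [iotaChi_apply] at ht
    by_contra hne
    have hnd : ¬ ((p : ℤ) ∣ n) := fun hd => hne (by
      have h0 : ((n : ZMod p) : ZMod p) = 0 := (ZMod.intCast_zmod_eq_zero_iff_dvd n p).2 hd
      rw [h0]; rfl)
    have hcop : IsCoprime (p : ℤ) n :=
      (Nat.prime_iff_prime_int.mp hpp).irreducible.coprime_iff_not_dvd.2 hnd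
    obtain ⟨u, v, huv⟩ := hcop
    apply ha0
    calc a = (1 : ℤ) • a := (one_smul ℤ a).symm
      _ = (u * (p : ℤ) + v * n) • a := by rw [huv]
      _ = u • ((p : ℤ) • a) + v • (n • a) := by rw [add_smul, mul_smul, mul_smul]
      _ = 0 := by rw [hp, ht, smul_zero, smul_zero, add_zero]
  tors := by
    intro b
    change msmul A ((p : ℕ) : ℤ) b = 0 ↔ _
    rw [msmul_eq]
    constructor
    · intro hb
      obtain ⟨n, rfl⟩ := hgen b hb
      exact ⟨ofZ p χ ((n : ZMod p) : ZMod p), iotaChi_apply A p χ a hp hact n⟩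
    · rintro ⟨t, rfl⟩
      obtain ⟨t, rfl⟩ := ofZ_surjective p χ t
      obtain ⟨n, rfl⟩ := ZMod.intCast_surjective t
      rw [iotaChi_apply, smul_comm, hp, smul_zero]
  div := by
    intro b
    obtain ⟨c, hc⟩ := hdiv b
    refine ⟨c, ?_⟩
    change msmul A ((p : ℕ) : ℤ) c = b
    rw [msmul_eq, hc]
  smooth := hsm

end generic

/-! ### the local instance -/

section local_

variable (q : Nat.Primes)

attribute [local instance] fact_q

variable (p : ℕ) [Fact p.Prime] (P : Subgroup (Gq q))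

/-- the mod-`p` cyclotomic character of `↥P` (`P ≤ Γ_q`) -/
abbrev chiP : ↥P →* (ZMod p)ˣ := (cycloChar p).comp ((primeLocalToGlobal q).comp P.subtype)

/-- the data of a primitive `p`-th root of unity in `Ωˣ`, with the action of `P` through the
cyclotomic character (NO triviality hypothesis) -/
theorem exists_zeta_chi :
    ∃ a : Ox q P, a ≠ 0 ∧ ((p : ℕ) : ℤ) • a = 0 ∧
      (∀ g : ↥P, (Ox q P).ρ g a =
        ((((chiP q p P g : (ZMod p)ˣ) : ZMod p).val : ℕ) : ℤ) • a) ∧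
      ∀ b : Ox q P, ((p : ℕ) : ℤ) • b = 0 → ∃ n : ℤ, b = n • a := by
  have : NeZero p := ⟨(Fact.out : p.Prime).ne_zero⟩
  obtain ⟨ζ₀, hζ₀⟩ := H1Bound.exists_primitiveRoot_Qbar p
  set ζ : Om q := padicEmbedding (q : ℕ) ζ₀ with hζdef
  have hζ : IsPrimitiveRoot ζ p :=
    hζ₀.map_of_injective (f := padicEmbedding (q : ℕ)) (padicEmbedding (q : ℕ)).injective
  have hζp : ζ ^ p = 1 := hζ.pow_eq_one
  have hζu : IsUnit ζ := IsUnit.of_pow_eq_one hζp (NeZero.ne p)
  obtain ⟨u, hu⟩ := hζu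
  have hactζ : ∀ s : Gq q, toAut q s ζ =
      ζ ^ ((cycloChar p (primeLocalToGlobal q s) : (ZMod p)ˣ) : ZMod p).val := by
    intro s
    have h1 := padicEmbedding_localGaloisToGlobal (q : ℕ) (toAut q s) ζ₀
    have h2 : (localGaloisToGlobal (q : ℕ) (toAut q s)) ζ₀ =
        ζ₀ ^ ((cycloChar p (localGaloisToGlobal (q : ℕ) (toAut q s)) : (ZMod p)ˣ) : ZMod p).val :=
      Fermat.Agent.S55.GaloisLevelCyclo.cycloChar_spec' p _ hζ₀.pow_eq_one
    rw [h2, map_pow] at h1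
    exact h1.symm
  refine ⟨ofUP q P u, ?_, ?_, ?_, ?_⟩
  · intro h0
    have h1 : u = 1 := congrArg (toUP q P) h0
    have h2 : ζ = 1 := by rw [← hu, h1]; rfl
    have := hζ.eq_orderOf
    rw [h2, orderOf_one] at this
    exact (Fact.out : p.Prime).one_lt.ne' this
  · apply toUP_injective q P
    rw [toUP_natCast_zsmul, toUP_ofUP, toUP_zero]
    apply Units.ext
    rw [Units.val_pow_eq_pow_val, hu, Units.val_one]
    exact hζp
  · intro g
    apply toUP_injective q P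
    apply Units.ext
    rw [coe_toUP_ρ, toUP_natCast_zsmul, toUP_ofUP, Units.val_pow_eq_pow_val, hu]
    exact hactζ (g : Gq q)
  · intro b hb
    have hb' : ((toUP q P b : (Om q)ˣ) : Om q) ^ p = 1 := by
      have h1 : (toUP q P b) ^ p = 1 := by
        rw [← toUP_natCast_zsmul, hb, toUP_zero]
      have h2 := congrArg (fun w : (Om q)ˣ => (w : Om q)) h1
      simpa using h2
    obtain ⟨i, _, hi⟩ := hζ.eq_pow_of_pow_eq_one hb'
    refine ⟨(i : ℤ), ?_⟩
    apply toUP_injective q P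
    rw [toUP_natCast_zsmul, toUP_ofUP]
    apply Units.ext
    rw [Units.val_pow_eq_pow_val, hu]
    exact hi.symm

/-- **The twisted Kummer datum** `𝔽_p(χ_p) → Ωˣ` over ANY subgroup `P ≤ Γ_q`. -/
theorem exists_isKummer_chi :
    ∃ ι : toInt (mu (chiP q p P)) ⟶ Ox q P,
      IsKummer (VP q P) (Ox q P) (toInt (mu (chiP q p P))) ((p : ℕ) : ℤ) ι := by
  obtain ⟨a, ha0, hp, hact, hgen⟩ := exists_zeta_chi q p P
  refine ⟨iotaChi (Ox q P) p (chiP q p P) a hp hact,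
    isKummer_iotaChi (VP q P) (Ox q P) p (chiP q p P) a ha0 hp hact hgen (fun b => ?_)
      (isSmooth_Ox q P)⟩
  obtain ⟨c, hc⟩ := powOx_surjective q p P (Fact.out : p.Prime).ne_zero b
  exact ⟨c, hc⟩

/-- **LM.core for `𝔽_p(χ_p)` over `(↥P, VP q P)`**: `H²_LC` cyclic and nonzero, `H³_LC = 0`
(`ℤ`-coefficient form). -/
theorem core_chi (F : Out.Facts q P) :
    (∀ x y : H2 (VP q P) (toInt (mu (chiP q p P))), x ≠ 0 → ∃ n : ℤ, y = n • x) ∧
      Vanish₃ (VP q P) (toInt (mu (chiP q p P))) ∧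
      ∃ x : H2 (VP q P) (toInt (mu (chiP q p P))), x ≠ 0 := by
  obtain ⟨ι, hK⟩ := exists_isKummer_chi q p P
  exact Fermat.Agent.S55.Middle.LocalLCAdapter.main_of_facts (VP q P) (Ox q P)
    (Fact.out : p.Prime) hK F.h1 F.h3 F.h2card F.h2cyc F.grow

/-- the same over `ZMod p`. -/
theorem core_chi_zmod (F : Out.Facts q P) :
    (∀ x y : H2 (VP q P) (mu (chiP q p P)), x ≠ 0 → ∃ n : ℤ, y = n • x) ∧
      Vanish₃ (VP q P) (mu (chiP q p P)) ∧ ∃ x : H2 (VP q P) (mu (chiP q p P)), x ≠ 0 := by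
  obtain ⟨hc, hv, hn⟩ := core_chi q p P F
  exact ⟨OutGlue.cyclic_of_toInt (VP q P) (mu (chiP q p P)) hc,
    (vanish₃_toInt_iff (VP q P) (mu (chiP q p P))).1 hv,
    OutGlue.nontrivial_of_toInt (VP q P) (mu (chiP q p P)) hn⟩

end local_

/-! ### transfer along a pair of mutually inverse morphisms of situations -/

section pair

variable {k : Type} [CommRing k] {G : Type} [Group G] {G' : Type} [Group G']
variable {𝒰 : NBasis G} {A : Rep.{0, 0, 0} k G} {𝒰' : NBasis G'} {B : Rep.{0, 0, 0} k G'}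

/-- `Vanish₃` transfers along a pair of mutually inverse morphisms. -/
theorem vanish₃_of_morPair (α : Mor 𝒰 A 𝒰' B) (β : Mor 𝒰' B 𝒰 A)
    (hφ : ∀ b, α.φ (β.φ b) = b) (hf : ∀ g, β.f (α.f g) = g) (h : Vanish₃ 𝒰 A) :
    Vanish₃ 𝒰' B := by
  intro f hf0
  have hf' : dC₃ 𝒰 A (β.c₃ f) = 0 := by
    have := LinearMap.congr_fun β.p₄_dC₃ f
    simp only [LinearMap.comp_apply] at this
    rw [← this, hf0, map_zero]
  obtain ⟨b, hb⟩ := h _ hf'
  refine ⟨α.c₂ b, ?_⟩
  have := LinearMap.congr_fun α.c₃_dC₂ b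
  simp only [LinearMap.comp_apply] at this
  rw [← this, hb]
  apply Subtype.ext
  funext ⟨g, h, j⟩
  simp only [Mor.c₃_coe, Mor.p₃_apply, hφ, hf]

/-- `H²` is in bijection along a pair of mutually inverse morphisms. -/
theorem h2_bijective_of_morPair (α : Mor 𝒰 A 𝒰' B) (β : Mor 𝒰' B 𝒰 A)
    (hφ : ∀ b, α.φ (β.φ b) = b) (hφ' : ∀ a, β.φ (α.φ a) = a)
    (hf : ∀ g, β.f (α.f g) = g) (hf' : ∀ g, α.f (β.f g) = g) :
    Function.Bijective α.h2 :=
  ⟨fun x y hxy => by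
    rw [← h2_retract α β hφ' hf' x, hxy, h2_retract α β hφ' hf' y],
   fun y => ⟨β.h2 y, h2_retract β α hφ hf y⟩⟩

end pair

/-! ### from `↥⊤` to the whole group `Γ_q` -/

section top

variable (q : Nat.Primes)

attribute [local instance] fact_q

variable (p : ℕ) [Fact p.Prime]

/-- the local module `𝔽_p(χ_p)` over `Γ_q` (`= (arithSite S).loc (mu (cycloChar p)) v`) -/
abbrev muLoc : Rep.{0, 0, 0} (ZMod p) (Gq q) :=
  Rep.res (primeLocalToGlobal q) (mu (cycloChar p))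

/-- restriction to `↥⊤` -/
def toTop : Mor (Vq q) (muLoc q p) (VP q ⊤) (mu (chiP q p ⊤)) where
  f := (⊤ : Subgroup (Gq q)).subtype
  cont U hU := ⟨U.subgroupOf ⊤, ⟨U, hU, rfl⟩, fun _ hs => hs⟩
  φ := LinearMap.id
  equivar _ _ := rfl

/-- back from `↥⊤` -/
def ofTop : Mor (VP q ⊤) (mu (chiP q p ⊤)) (Vq q) (muLoc q p) where
  f := (Subgroup.topEquiv (G := Gq q)).symm.toMonoidHom
  cont := by
    rintro U ⟨N, hN, rfl⟩
    exact ⟨N, hN, fun s hs => hs⟩
  φ := LinearMap.id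
  equivar _ _ := rfl

/-- **`H²_LC(Γ_q ; 𝔽_p(χ_p))` is cyclic and nonzero, `H³_LC(Γ_q ; 𝔽_p(χ_p)) = 0`.** -/
theorem core_muLoc (F : Out.Facts q ⊤) :
    (∀ x y : H2 (Vq q) (muLoc q p), x ≠ 0 → ∃ n : ℤ, y = n • x) ∧
      Vanish₃ (Vq q) (muLoc q p) ∧ ∃ x : H2 (Vq q) (muLoc q p), x ≠ 0 := by
  obtain ⟨hc, hv, x₀, hx₀⟩ := core_chi_zmod q p ⊤ F
  have hbij : Function.Bijective (toTop q p).h2 :=
    h2_bijective_of_morPair (toTop q p) (ofTop q p) (fun _ => rfl) (fun _ => rfl)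
      (fun _ => rfl) (fun _ => rfl)
  refine ⟨?_, ?_, ?_⟩
  · intro x y hx
    have hx' : (toTop q p).h2 x ≠ 0 := fun h0 => hx (hbij.1 (by rw [h0, map_zero]))
    obtain ⟨n, hn⟩ := hc _ ((toTop q p).h2 y) hx'
    exact ⟨n, hbij.1 (by rw [hn, map_zsmul])⟩
  · exact vanish₃_of_morPair (ofTop q p) (toTop q p) (fun _ => rfl) (fun _ => rfl) hv
  · obtain ⟨x, hx⟩ := hbij.2 x₀
    exact ⟨x, fun h0 => hx₀ (by rw [← hx, h0, map_zero])⟩

/-- `H²_LC(Γ_q ; 𝔽_p(χ_p))` is one-dimensional. -/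
theorem finrank_h2_muLoc (F : Out.Facts q ⊤) :
    Module.Finite (ZMod p) (H2 (Vq q) (muLoc q p)) ∧
      finrank (ZMod p) (H2 (Vq q) (muLoc q p)) = 1 := by
  obtain ⟨hc, -, x, hx⟩ := core_muLoc q p F
  obtain ⟨hfin, hle⟩ :=
    Fermat.Agent.S55.Middle.LocalLCMain.finite_and_finrank_le_one_of_cyclic (K := ZMod p) hc
  refine ⟨hfin, le_antisymm hle ?_⟩
  haveI := hfin
  haveI : Nontrivial (H2 (Vq q) (muLoc q p)) := ⟨⟨x, 0, hx⟩⟩
  exact Module.finrank_pos

end top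

/-! ### the literal statements for the arithmetic site -/

section arith

variable (p : ℕ) [Fact p.Prime] (S : Finset Nat.Primes)

/-- **(H4) of M.inv, at every place**: for the arithmetic site, the local `H²` of `μ χ = 𝔽_p(χ_p)` is
cyclic and NONZERO, and the local `H³` vanishes. -/
theorem core_mu_arith
    (F : ∀ (q : Nat.Primes) (P : Subgroup (Gq q)), (Vq q).IsOpen P → Out.Facts q P)
    (v : (arithSite S).I) :
    (∀ x y : H2 ((arithSite S).𝒱 v) ((arithSite S).loc (mu (cycloChar p)) v),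
        x ≠ 0 → ∃ n : ℤ, y = n • x) ∧
      Vanish₃ ((arithSite S).𝒱 v) ((arithSite S).loc (mu (cycloChar p)) v) ∧
      ∃ x : H2 ((arithSite S).𝒱 v) ((arithSite S).loc (mu (cycloChar p)) v), x ≠ 0 :=
  core_muLoc v.1 p (F v.1 ⊤ ⟨⊤, (Vq v.1).top, le_rfl⟩)

/-- the local `H²` of `μ χ` is nonzero at every place of the arithmetic site. -/
theorem exists_h2_mu_arith_ne_zero
    (F : ∀ (q : Nat.Primes) (P : Subgroup (Gq q)), (Vq q).IsOpen P → Out.Facts q P)
    (v : (arithSite S).I) :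
    ∃ x : H2 ((arithSite S).𝒱 v) ((arithSite S).loc (mu (cycloChar p)) v), x ≠ 0 :=
  (core_mu_arith p S F v).2.2

/-- the local `H³` of `μ χ` vanishes at every place of the arithmetic site. -/
theorem vanish₃_mu_arith
    (F : ∀ (q : Nat.Primes) (P : Subgroup (Gq q)), (Vq q).IsOpen P → Out.Facts q P)
    (v : (arithSite S).I) :
    Vanish₃ ((arithSite S).𝒱 v) ((arithSite S).loc (mu (cycloChar p)) v) :=
  (core_mu_arith p S F v).2.1

/-- the local `H²` of `μ χ` is one-dimensional at every place of the arithmetic site. -/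
theorem finrank_h2_mu_arith
    (F : ∀ (q : Nat.Primes) (P : Subgroup (Gq q)), (Vq q).IsOpen P → Out.Facts q P)
    (v : (arithSite S).I) :
    Module.Finite (ZMod p) (H2 ((arithSite S).𝒱 v) ((arithSite S).loc (mu (cycloChar p)) v)) ∧
      finrank (ZMod p)
        (H2 ((arithSite S).𝒱 v) ((arithSite S).loc (mu (cycloChar p)) v)) = 1 :=
  finrank_h2_muLoc v.1 p (F v.1 ⊤ ⟨⊤, (Vq v.1).top, le_rfl⟩)

end arith

end

end Fermat.Agent.S55.LM.KummerChi
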