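/-
S55 / LM block, row `LM.fix` part 1 (helper91): THE FINITE LEVELS OF `Ωˣ`, abstract Galois form.

`Ω/F` a field extension, `Γ = Ω ≃ₐ[F] Ω`, `P ≤ Γ` a subgroup, `W ⊴ P` a normal subgroup of `P`
such that `E := Ω^W` is finite over `F` and `W` is *closed* (`Gal(Ω/E) ≤ W`).  Then:

* `actE : P →* (E ≃ₐ[F] E)` (restriction) has kernel `W`;
* with `H := range actE`, `K := E^H`: `E/K` is finite Galois, `levelEquiv : P ⧸ W ≃* (E ≃ₐ[K] E)`,
  `finrank K E = W.index`;
* `invEquiv` : the `W`-invariants of `Ωˣ` (as a `P ⧸ W`-module, Mathlib's `quotientToInvariants`)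
  are `Eˣ` with its `Gal(E/K)`-action, hence `levelCohIso n`:
  `Hⁿ(P ⧸ W, (Ωˣ)^W) ≅ Hⁿ(Gal(E/K), Eˣ)`; and the same on every subgroup of `P ⧸ W`.
-/
import Mathlib
import Fermat.Agent.S55.Local.Transport

set_option autoImplicit false
set_option linter.unusedSectionVars false

open CategoryTheory groupCohomology IntermediateField

noncomputable section

namespace Fermat.Agent.S55.LM.LevelGalois

variable {F Ω : Type} [Field F] [Field Ω] [Algebra F Ω]
variable (P : Subgroup (Ω ≃ₐ[F] Ω)) (W : Subgroup P)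

/-- `W` as a subgroup of the big group. -/
abbrev Wt : Subgroup (Ω ≃ₐ[F] Ω) := W.map P.subtype

/-- the fixed field of `W`. -/
abbrev EW : IntermediateField F Ω := IntermediateField.fixedField (Wt P W)

theorem mem_Wt_iff (g : P) : (g : Ω ≃ₐ[F] Ω) ∈ Wt P W ↔ g ∈ W := by
  constructor
  · rintro ⟨w, hw, h⟩
    have : w = g := Subtype.ext h
    exact this ▸ hw
  · intro h
    exact ⟨g, h, rfl⟩

theorem mem_EW_iff (x : Ω) : x ∈ EW P W ↔ ∀ w : P, w ∈ W → (w : Ω ≃ₐ[F] Ω) x = x := by
  rw [IntermediateField.mem_fixedField_iff]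
  constructor
  · intro h w hw
    exact h _ ⟨w, hw, rfl⟩
  · rintro h _ ⟨w, hw, rfl⟩
    exact h w hw

variable [W.Normal]

theorem stable (g : P) {x : Ω} (hx : x ∈ EW P W) : (g : Ω ≃ₐ[F] Ω) x ∈ EW P W := by
  rw [mem_EW_iff] at hx ⊢
  intro w hw
  have h1 : g⁻¹ * w * g ∈ W := Subgroup.Normal.conj_mem' inferInstance w hw g
  have h2 := hx _ h1
  have h3 : ((g⁻¹ * w * g : P) : Ω ≃ₐ[F] Ω) x =
      (g : Ω ≃ₐ[F] Ω).symm ((w : Ω ≃ₐ[F] Ω) ((g : Ω ≃ₐ[F] Ω) x)) := rfl
  rw [h3] at h2
  have h4 := congrArg (g : Ω ≃ₐ[F] Ω) h2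
  rwa [AlgEquiv.apply_symm_apply] at h4

/-- restriction of `g ∈ P` to `E = Ω^W`, as an algebra endomorphism. -/
def restrHom (g : P) : EW P W →ₐ[F] EW P W :=
  AlgHom.codRestrict (((g : Ω ≃ₐ[F] Ω) : Ω →ₐ[F] Ω).comp (EW P W).val) (EW P W).toSubalgebra
    (fun x => stable P W g x.2)

theorem restrHom_coe (g : P) (x : EW P W) :
    ((restrHom P W g x : EW P W) : Ω) = (g : Ω ≃ₐ[F] Ω) x := rfl

/-- the action of `P` on `E = Ω^W`. -/
def actE : P →* (EW P W ≃ₐ[F] EW P W) where
  toFun g := AlgEquiv.ofAlgHom (restrHom P W g) (restrHom P W g⁻¹)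
    (by
      apply AlgHom.ext
      intro x
      apply Subtype.ext
      change (g : Ω ≃ₐ[F] Ω) (((g⁻¹ : P) : Ω ≃ₐ[F] Ω) x) = x
      have : ((g⁻¹ : P) : Ω ≃ₐ[F] Ω) = (g : Ω ≃ₐ[F] Ω).symm := rfl
      rw [this, AlgEquiv.apply_symm_apply])
    (by
      apply AlgHom.ext
      intro x
      apply Subtype.ext
      change ((g⁻¹ : P) : Ω ≃ₐ[F] Ω) ((g : Ω ≃ₐ[F] Ω) x) = x
      have : ((g⁻¹ : P) : Ω ≃ₐ[F] Ω) = (g : Ω ≃ₐ[F] Ω).symm := rfl
      rw [this, AlgEquiv.symm_apply_apply])
  map_one' := by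
    apply AlgEquiv.ext
    intro x
    rfl
  map_mul' g h := by
    apply AlgEquiv.ext
    intro x
    rfl

theorem actE_apply_coe (g : P) (x : EW P W) :
    ((actE P W g x : EW P W) : Ω) = (g : Ω ≃ₐ[F] Ω) x := rfl

theorem mem_ker_actE_iff (g : P) :
    g ∈ (actE P W).ker ↔ (g : Ω ≃ₐ[F] Ω) ∈ (EW P W).fixingSubgroup := by
  rw [MonoidHom.mem_ker, IntermediateField.mem_fixingSubgroup_iff]
  constructor
  · intro h x hx
    have := congrArg (fun σ : EW P W ≃ₐ[F] EW P W => ((σ ⟨x, hx⟩ : EW P W) : Ω)) h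
    exact this
  · intro h
    apply AlgEquiv.ext
    intro x
    apply Subtype.ext
    exact h x x.2

theorem le_ker_actE : W ≤ (actE P W).ker := by
  intro w hw
  rw [mem_ker_actE_iff, IntermediateField.mem_fixingSubgroup_iff]
  intro x hx
  exact (mem_EW_iff P W x).1 hx w hw

/-- the kernel of the action on `E` is `W`, when `W` is closed. -/
theorem ker_actE (hcl : (EW P W).fixingSubgroup ≤ Wt P W) : (actE P W).ker = W := by
  apply le_antisymm
  · intro g hg
    rw [mem_ker_actE_iff] at hg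
    exact (mem_Wt_iff P W g).1 (hcl hg)
  · exact le_ker_actE P W

/-! ### The Galois group of the level -/

section Finite

variable [FiniteDimensional F (EW P W)]

/-- the image of `P` in `Aut_F(E)`. -/
abbrev HW : Subgroup (EW P W ≃ₐ[F] EW P W) := (actE P W).range

/-- the fixed field of `P` inside `E`. -/
abbrev KW : IntermediateField F (EW P W) := IntermediateField.fixedField (HW P W)

/-- `P ⧸ W ≃* Gal(E/K)`. -/
def levelEquiv (hcl : (EW P W).fixingSubgroup ≤ Wt P W) :
    P ⧸ W ≃* (EW P W ≃ₐ[KW P W] EW P W) :=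
  ((QuotientGroup.quotientMulEquivOfEq (ker_actE P W hcl).symm).trans
    (QuotientGroup.quotientKerEquivRange (actE P W))).trans
    (IntermediateField.subgroupEquivAlgEquiv (HW P W))

theorem levelEquiv_apply (hcl : (EW P W).fixingSubgroup ≤ Wt P W) (g : P) (x : EW P W) :
    levelEquiv P W hcl (g : P ⧸ W) x = actE P W g x := rfl

instance finite_HW : Finite (HW P W) := inferInstance

theorem finrank_KW_EW : Module.finrank (KW P W) (EW P W) = Nat.card (HW P W) :=
  IntermediateField.finrank_fixedField_eq_card (HW P W)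

instance isGalois_KW_EW : IsGalois (KW P W) (EW P W) := by
  apply IsGalois.of_card_aut_eq_finrank
  rw [finrank_KW_EW]
  exact Nat.card_congr (IntermediateField.subgroupEquivAlgEquiv (HW P W)).symm.toEquiv

theorem finrank_eq_index (hcl : (EW P W).fixingSubgroup ≤ Wt P W) :
    Module.finrank (KW P W) (EW P W) = W.index := by
  rw [finrank_KW_EW, Subgroup.index, ← Nat.card_congr
    ((QuotientGroup.quotientMulEquivOfEq (ker_actE P W hcl).symm).trans
      (QuotientGroup.quotientKerEquivRange (actE P W))).toEquiv]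

end Finite

/-! ### The module of the level -/

/-- `Ωˣ` as a `P`-module. -/
abbrev AP : Rep ℤ P := Rep.res P.subtype (Rep.ofAlgebraAutOnUnits F Ω)

theorem AP_ρ_coe (g : P) (a : AP P) :
    ((Additive.toMul ((AP P).ρ g a : Additive Ωˣ) : Ωˣ) : Ω) =
      (g : Ω ≃ₐ[F] Ω) ((Additive.toMul (a : Additive Ωˣ) : Ωˣ) : Ω) := rfl

/-- the `W`-invariants of `Ωˣ`. -/
abbrev InvW : Submodule ℤ (AP P) := Representation.invariants ((AP P).ρ.comp W.subtype)

theorem mem_InvW_iff (a : AP P) :
    a ∈ InvW P W ↔ ((Additive.toMul (a : Additive Ωˣ) : Ωˣ) : Ω) ∈ EW P W := by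
  rw [mem_EW_iff]
  constructor
  · intro h w hw
    have := h ⟨w, hw⟩
    exact congrArg (fun b : AP P => ((Additive.toMul (b : Additive Ωˣ) : Ωˣ) : Ω)) this
  · intro h w
    apply Additive.toMul.injective
    apply Units.ext
    exact h w.1 w.2

/-- a unit of `E` as an invariant element. -/
def unitsToInv : Additive (EW P W)ˣ →+ InvW P W where
  toFun y := ⟨(Additive.ofMul (Units.map ((EW P W).val : EW P W →* Ω) (Additive.toMul y)) :
      Additive Ωˣ),
    (mem_InvW_iff P W _).2 (((Additive.toMul y : (EW P W)ˣ) : EW P W)).2⟩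
  map_zero' := by
    apply Subtype.ext
    apply Additive.toMul.injective
    apply Units.ext
    rfl
  map_add' x y := by
    apply Subtype.ext
    apply Additive.toMul.injective
    apply Units.ext
    rfl

theorem unitsToInv_coe (y : Additive (EW P W)ˣ) :
    ((Additive.toMul ((unitsToInv P W y).1 : Additive Ωˣ) : Ωˣ) : Ω) =
      (((Additive.toMul y : (EW P W)ˣ) : EW P W) : Ω) := rfl

/-- an invariant element as a unit of `E`. -/
def invToUnits (a : InvW P W) : Additive (EW P W)ˣ :=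
  Additive.ofMul (Units.mk0
    (⟨((Additive.toMul ((a : AP P) : Additive Ωˣ) : Ωˣ) : Ω), (mem_InvW_iff P W a.1).1 a.2⟩ :
      EW P W)
    (fun h => (Additive.toMul ((a : AP P) : Additive Ωˣ) : Ωˣ).ne_zero
      (congrArg (fun z : EW P W => (z : Ω)) h)))

theorem invToUnits_coe (a : InvW P W) :
    (((Additive.toMul (invToUnits P W a) : (EW P W)ˣ) : EW P W) : Ω) =
      ((Additive.toMul ((a : AP P) : Additive Ωˣ) : Ωˣ) : Ω) := rfl

/-- `(Ωˣ)^W ≃ Eˣ`. -/
def invEquivAdd : InvW P W ≃+ Additive (EW P W)ˣ where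
  toFun := invToUnits P W
  invFun := unitsToInv P W
  left_inv a := by
    apply Subtype.ext
    apply Additive.toMul.injective
    apply Units.ext
    rfl
  right_inv y := by
    apply Additive.toMul.injective
    apply Units.ext
    apply Subtype.ext
    rfl
  map_add' a b := by
    apply Additive.toMul.injective
    apply Units.ext
    apply Subtype.ext
    rfl

section Finite2

variable [FiniteDimensional F (EW P W)]

/-- `(Ωˣ)^W ≃ Eˣ`, linear form. -/
def invEquiv : ((AP P).quotientToInvariants W).V ≃ₗ[ℤ]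
    (Rep.ofAlgebraAutOnUnits (KW P W) (EW P W)).V :=
  (invEquivAdd P W).toIntLinearEquiv

theorem invEquiv_coe (a : ((AP P).quotientToInvariants W).V) :
    (((Additive.toMul (invEquiv P W a : Additive (EW P W)ˣ) : (EW P W)ˣ) : EW P W) : Ω) =
      ((Additive.toMul ((a : AP P) : Additive Ωˣ) : Ωˣ) : Ω) := rfl

theorem invEquiv_compat (hcl : (EW P W).fixingSubgroup ≤ Wt P W) (g : P ⧸ W) :
    (invEquiv P W).toLinearMap ∘ₗ ((AP P).quotientToInvariants W).ρ g =
      (Rep.ofAlgebraAutOnUnits (KW P W) (EW P W)).ρ (levelEquiv P W hcl g) ∘ₗ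
        (invEquiv P W).toLinearMap := by
  induction g using QuotientGroup.induction_on with
  | H g =>
    apply LinearMap.ext
    intro a
    apply Additive.toMul.injective
    apply Units.ext
    apply Subtype.ext
    rfl

/-- **The cohomology of a finite level is Galois cohomology of `E/K`.** -/
def levelCohIso (hcl : (EW P W).fixingSubgroup ≤ Wt P W) (n : ℕ) :
    groupCohomology ((AP P).quotientToInvariants W) n ≅
      groupCohomology (Rep.ofAlgebraAutOnUnits (KW P W) (EW P W)) n :=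
  groupCohomology.mapIso (A := Rep.ofAlgebraAutOnUnits (KW P W) (EW P W))
    (B := (AP P).quotientToInvariants W) (levelEquiv P W hcl) (invEquiv P W)
    (invEquiv_compat P W hcl) n

/-- the same on every subgroup of the level. -/
def levelCohIsoSub (hcl : (EW P W).fixingSubgroup ≤ Wt P W) (H : Subgroup (P ⧸ W)) (n : ℕ) :
    groupCohomology (Rep.res H.subtype ((AP P).quotientToInvariants W)) n ≅
      groupCohomology (Rep.res (H.map (levelEquiv P W hcl).toMonoidHom).subtype
        (Rep.ofAlgebraAutOnUnits (KW P W) (EW P W))) n :=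
  groupCohomology.mapIso
    (A := Rep.res (H.map (levelEquiv P W hcl).toMonoidHom).subtype
        (Rep.ofAlgebraAutOnUnits (KW P W) (EW P W)))
    (B := Rep.res H.subtype ((AP P).quotientToInvariants W))
    ((levelEquiv P W hcl).subgroupMap H) (invEquiv P W)
    (fun g => invEquiv_compat P W hcl g.1) n

/-- Hilbert 90 on every subgroup of every level. -/
theorem isZero_H1_level_sub (hcl : (EW P W).fixingSubgroup ≤ Wt P W) (H : Subgroup (P ⧸ W)) :
    Limits.IsZero (groupCohomology (Rep.res H.subtype ((AP P).quotientToInvariants W)) 1) :=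
  (levelCohIsoSub P W hcl H 1).isZero_iff.2
    (Fermat.Agent.S55.Local.Transport.isZero_H1_resSub (KW P W) (EW P W) _)

end Finite2

end Fermat.Agent.S55.LM.LevelGalois

end
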