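/-
S55 / LM block, row `LM.fix` part 2 (helper91): the index of the open subgroup cut out by a finite
Galois extension of the fixed field.

`Ω/F` a field extension, `P ≤ Γ = Ω ≃ₐ[F] Ω` a *closed* subgroup (`Gal(Ω/Ω^P) ≤ P`), `K := Ω^P`,
`Ω/K` normal, `E/K` a finite Galois subextension of `Ω/K`.  Then the subgroup of `P` fixing `E`
has index `[E : K]` in `P`.
-/
import Mathlib

set_option autoImplicit false
set_option linter.unusedSectionVars false

open IntermediateField

noncomputable section

namespace Fermat.Agent.S55.LM.LevelGrow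

variable {F Ω : Type} [Field F] [Field Ω] [Algebra F Ω]
variable (P : Subgroup (Ω ≃ₐ[F] Ω))

/-- the fixed field of `P`. -/
abbrev KP : IntermediateField F Ω := IntermediateField.fixedField P

theorem le_fixingSubgroup_KP : P ≤ (KP P).fixingSubgroup :=
  (IntermediateField.le_iff_le P (KP P)).1 le_rfl

/-- `P → Gal(Ω/K)`. -/
def toGalK : P →* (Ω ≃ₐ[KP P] Ω) :=
  (IntermediateField.fixingSubgroupEquiv (KP P)).toMonoidHom.comp
    (Subgroup.inclusion (le_fixingSubgroup_KP P))

theorem toGalK_apply (g : P) (x : Ω) : toGalK P g x = (g : Ω ≃ₐ[F] Ω) x := rfl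

theorem toGalK_surjective (hP : (KP P).fixingSubgroup ≤ P) : Function.Surjective (toGalK P) := by
  intro τ
  set τ' := (IntermediateField.fixingSubgroupEquiv (KP P)).symm τ with hτ'
  refine ⟨⟨τ'.1, hP τ'.2⟩, ?_⟩
  apply AlgEquiv.ext
  intro x
  rw [toGalK_apply]
  have : (IntermediateField.fixingSubgroupEquiv (KP P)) τ' = τ := by
    rw [hτ', MulEquiv.apply_symm_apply]
  conv_rhs => rw [← this]
  rfl

variable (E : IntermediateField (KP P) Ω) [Normal (KP P) E]

/-- `P → Gal(E/K)`. -/
def toGalE : P →* (E ≃ₐ[KP P] E) := (AlgEquiv.restrictNormalHom E).comp (toGalK P)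

theorem toGalE_surjective [Normal (KP P) Ω] (hP : (KP P).fixingSubgroup ≤ P) :
    Function.Surjective (toGalE P E) :=
  (AlgEquiv.restrictNormalHom_surjective Ω).comp (toGalK_surjective P hP)

theorem toGalE_apply_coe (g : P) (x : E) :
    ((toGalE P E g x : E) : Ω) = (g : Ω ≃ₐ[F] Ω) x := by
  change ((AlgEquiv.restrictNormalHom E (toGalK P g) x : E) : Ω) = _
  rw [AlgEquiv.restrictNormalHom_apply]
  rfl

theorem ker_toGalE :
    (toGalE P E).ker = ((E.restrictScalars F).fixingSubgroup).subgroupOf P := by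
  ext g
  rw [MonoidHom.mem_ker, Subgroup.mem_subgroupOf, IntermediateField.mem_fixingSubgroup_iff]
  constructor
  · intro h x hx
    have := congrArg (fun σ : E ≃ₐ[KP P] E => ((σ ⟨x, hx⟩ : E) : Ω)) h
    simpa [toGalE_apply_coe] using this
  · intro h
    apply AlgEquiv.ext
    intro x
    apply Subtype.ext
    rw [toGalE_apply_coe]
    exact h x x.2

/-- **Index of the subgroup of `P` fixing a finite Galois extension of `K = Ω^P`.** -/
theorem index_fixing [Normal (KP P) Ω] (hP : (KP P).fixingSubgroup ≤ P)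
    [FiniteDimensional (KP P) E] [IsGalois (KP P) E] :
    (((E.restrictScalars F).fixingSubgroup).subgroupOf P).index = Module.finrank (KP P) E := by
  rw [← ker_toGalE, Subgroup.index_ker, MonoidHom.range_eq_top.2 (toGalE_surjective P E hP),
    ← IsGalois.card_aut_eq_finrank]
  exact Nat.card_congr Subgroup.topEquiv.toEquiv

end Fermat.Agent.S55.LM.LevelGrow

end
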