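/-
S55 / LM block, row `LM.fix` part 3 (helper91): THE FINITE-LEVEL FACTS for `Ωˣ` over an open
subgroup `P ≤ Γ_q`, in the literal shape consumed by `LM/OutGlue.fields_of_facts`
(= `Middle/LocalLCAdapter.main_of_facts`).

For `q : Nat.Primes`, `P ≤ Γ_q` open for `𝒱_q` and the basis `VP q P = subBasis 𝒱_q P`:

* `h1_level`  : Hilbert 90 on every subgroup of every finite level (unconditional);
* `h3_level`  : `H³ = 0` at every finite level, from `Reduction2.H3Vanish`;
* `h2card_level`, `h2cyc_level` : `H²` of the level `W` is cyclic of order `[P : W]`, from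
  `Blocks.H2Card`, `Blocks.H2Cyclic`;
* `grow_level` : levels of index divisible by any `m > 0`, from `Blocks.UnramExists`.
-/
import Mathlib
import Fermat.Agent.S55.LM.Defs
import Fermat.Agent.S55.Formal.Blocks
import Fermat.Agent.S55.LM.LevelGalois
import Fermat.Agent.S55.LM.LevelGrow
import Fermat.Agent.S55.LM.ConcreteUnram
import Fermat.Agent.S55.Local.AlgLF
import Fermat.Agent.S55.Local.Reduction2
import Fermat.Agent.S55.Bridge.LocalGlobal
import Fermat.Agent.S55.KrasnerBridge

set_option autoImplicit false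
set_option linter.unusedSectionVars false
set_option linter.style.haveILetI false

open CategoryTheory groupCohomology IntermediateField ExtCitation

noncomputable section

namespace Fermat.Agent.S55.LM.LocalLevels

open Fermat.Agent.S55.Formal Fermat.Agent.S55.Formal.PreludeLC Fermat.Agent.S55.Bridge.ShapiroLC
open Fermat.Agent.S55.LM.Defs Fermat.Agent.S55.LM.LevelGalois Fermat.Agent.S55.Local

variable (q : Nat.Primes)

attribute [local instance] Defs.fact_q

/-- `Γ_q` in Mathlib form. -/
abbrev Gam : Type := Om q ≃ₐ[ℚ_[(q : ℕ)]] Om q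

/-- a subgroup of `Γ_q` in Mathlib form. -/
abbrev toGam (N : Subgroup (Gq q)) : Subgroup (Gam q) := N

/-! ### Krull-openness of the basis -/

theorem isOpen_of_mem {N : Subgroup (Gq q)} (hN : (Vq q).mem N) :
    IsOpen ((toGam q N : Subgroup (Gam q)) : Set (Gam q)) := by
  obtain ⟨F₀, hF₀, -, rfl⟩ := hN
  haveI := hF₀
  have h : toGam q (F₀.fixingSubgroup.comap (primeLocalToGlobal q)) =
      (Fermat.Agent.S55.Bridge.LocalGlobal.localField (q : ℕ) F₀).fixingSubgroup :=
    Fermat.Agent.S55.Bridge.LocalGlobal.comap_fixingSubgroup (q := (q : ℕ)) F₀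
  exact (congrArg (fun H : Subgroup (Gam q) => IsOpen (H : Set (Gam q))) h).mpr
    (IntermediateField.fixingSubgroup_isOpen _)

theorem isOpen_of_isOpen {P : Subgroup (Gq q)} (hP : (Vq q).IsOpen P) :
    IsOpen ((toGam q P : Subgroup (Gam q)) : Set (Gam q)) := by
  obtain ⟨N, hN, hle⟩ := hP
  exact Subgroup.isOpen_mono (H₁ := toGam q N) (H₂ := toGam q P) hle (isOpen_of_mem q hN)

/-- Krull-open subgroups are closed in the Galois sense. -/
theorem fixingSubgroup_fixedField_of_isOpen {H : Subgroup (Gam q)}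
    (hH : IsOpen (H : Set (Gam q))) :
    (IntermediateField.fixedField H).fixingSubgroup = H :=
  InfiniteGalois.fixingSubgroup_fixedField
    (⟨H, Subgroup.isClosed_of_isOpen H hH⟩ : ClosedSubgroup (Gam q))

/-- fixed fields of Krull-open subgroups are finite over `ℚ_q`. -/
theorem finiteDimensional_fixedField_of_isOpen {H : Subgroup (Gam q)}
    (hH : IsOpen (H : Set (Gam q))) :
    FiniteDimensional ℚ_[(q : ℕ)] (IntermediateField.fixedField H) := by
  rw [← InfiniteGalois.isOpen_iff_finite, fixingSubgroup_fixedField_of_isOpen q hH]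
  exact hH

/-- every finite extension of `ℚ_q` in `Ω` is fixed by a member of the basis. -/
theorem exists_mem_le_fixingSubgroup (E : IntermediateField ℚ_[(q : ℕ)] (Om q))
    [FiniteDimensional ℚ_[(q : ℕ)] E] :
    ∃ N : Subgroup (Gq q), (Vq q).mem N ∧ toGam q N ≤ E.fixingSubgroup := by
  obtain ⟨F₁, hF₁, h⟩ := Fermat.Agent.S55.KrasnerBridge.exists_global_level (q : ℕ) E
  haveI := hF₁
  obtain ⟨U, hU, hle⟩ := exists_mem_localBasis_le (primeLocalToGlobal q) F₁
  exact ⟨U, hU, fun s hs => h s (hle hs)⟩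

/-! ### Levels, Mathlib form -/

section LevelGam

variable (P : Subgroup (Gam q)) (W : Subgroup P) [W.Normal]
  (hW : IsOpen ((Wt P W : Subgroup (Gam q)) : Set (Gam q)))

include hW

theorem closed_Wt' : (EW P W).fixingSubgroup ≤ Wt P W :=
  (fixingSubgroup_fixedField_of_isOpen q hW).le

theorem finiteDimensional_EW' : FiniteDimensional ℚ_[(q : ℕ)] (EW P W) :=
  finiteDimensional_fixedField_of_isOpen q hW

theorem h1' (H : Subgroup (P ⧸ W)) :
    Limits.IsZero (groupCohomology (Rep.res H.subtype ((AP P).quotientToInvariants W)) 1) := by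
  haveI := finiteDimensional_EW' q P W hW
  exact isZero_H1_level_sub P W (closed_Wt' q P W hW) H

theorem h3' (h3 : Reduction2.H3Vanish) :
    Limits.IsZero (groupCohomology ((AP P).quotientToInvariants W) 3) := by
  haveI := finiteDimensional_EW' q P W hW
  exact (levelCohIso P W (closed_Wt' q P W hW) 3).isZero_iff.2
    (AlgLF.h3Vanish (q : ℕ) (KW P W) (EW P W) h3)

theorem h2card' (hC : Blocks.H2Card) :
    Nat.card (groupCohomology ((AP P).quotientToInvariants W) 2) = W.index := by
  haveI := finiteDimensional_EW' q P W hW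
  rw [← finrank_eq_index P W (closed_Wt' q P W hW),
    ← AlgLF.h2Card (q : ℕ) (KW P W) (EW P W) hC]
  exact Nat.card_congr (levelCohIso P W (closed_Wt' q P W hW) 2).toLinearEquiv.toEquiv

theorem h2cyc' (hC : Blocks.H2Cyclic) :
    IsAddCyclic (groupCohomology ((AP P).quotientToInvariants W) 2) := by
  haveI := finiteDimensional_EW' q P W hW
  haveI := AlgLF.h2Cyclic (q : ℕ) (KW P W) (EW P W) hC
  exact isAddCyclic_of_surjective
    (levelCohIso P W (closed_Wt' q P W hW) 2).symm.toLinearEquiv.toAddMonoidHom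
    (levelCohIso P W (closed_Wt' q P W hW) 2).symm.toLinearEquiv.surjective

end LevelGam

/-! ### Levels, site form -/

section Level

variable (P : Subgroup (Gq q)) (hP : (Vq q).IsOpen P)

include hP

/-- members of the induced basis are Krull-open in `Γ_q`. -/
theorem isOpen_Wt {W : Subgroup P} (hW : (VP q P).mem W) :
    IsOpen ((Wt (toGam q P) W : Subgroup (Gam q)) : Set (Gam q)) := by
  obtain ⟨N, hN, rfl⟩ := hW
  obtain ⟨N₀, hN₀, hle₀⟩ := hP
  obtain ⟨N₁, hN₁, hle₁⟩ := (Vq q).inf hN hN₀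
  refine Subgroup.isOpen_mono (H₁ := toGam q N₁) ?_ (isOpen_of_mem q hN₁)
  intro s hs
  have h1 : s ∈ N := (hle₁ hs).1
  have h2 : s ∈ P := hle₀ (hle₁ hs).2
  exact ⟨⟨s, h2⟩, h1, rfl⟩

/-- **Hilbert 90 on every subgroup of every level.** -/
theorem h1_level (W : Subgroup P) (hW : (VP q P).mem W) [hn : W.Normal] (H : Subgroup (P ⧸ W)) :
    Limits.IsZero (groupCohomology (Rep.res H.subtype ((Ox q P).quotientToInvariants W)) 1) :=
  @h1' q (toGam q P) W hn (isOpen_Wt q P hP hW) H

/-- **`H³ = 0` at every level.** -/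
theorem h3_level (h3 : Reduction2.H3Vanish) (W : Subgroup P) (hW : (VP q P).mem W)
    [hn : W.Normal] :
    Limits.IsZero (groupCohomology ((Ox q P).quotientToInvariants W) 3) :=
  @h3' q (toGam q P) W hn (isOpen_Wt q P hP hW) h3

/-- **`#H²` of a level is its index.** -/
theorem h2card_level (hC : Blocks.H2Card) (W : Subgroup P) (hW : (VP q P).mem W)
    [hn : W.Normal] :
    Nat.card (groupCohomology ((Ox q P).quotientToInvariants W) 2) = W.index :=
  @h2card' q (toGam q P) W hn (isOpen_Wt q P hP hW) hC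

/-- **`H²` of a level is cyclic.** -/
theorem h2cyc_level (hC : Blocks.H2Cyclic) (W : Subgroup P) (hW : (VP q P).mem W)
    [hn : W.Normal] :
    IsAddCyclic (groupCohomology ((Ox q P).quotientToInvariants W) 2) :=
  @h2cyc' q (toGam q P) W hn (isOpen_Wt q P hP hW) hC

end Level

/-! ### Levels of large index -/

section Grow

open Fermat.Agent.S55.LM.LevelGrow

/-- Mathlib form: a Krull-open `P` has basis members `N` with `m ∣ [P : N ∩ P]`. -/
theorem grow' (hU : Blocks.UnramExists) (P : Subgroup (Gam q))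
    (hPo : IsOpen ((P : Subgroup (Gam q)) : Set (Gam q))) (m : ℕ) (hm : 0 < m) :
    ∃ N : Subgroup (Gq q), (Vq q).mem N ∧ m ∣ ((toGam q N).subgroupOf P).index := by
  haveI hfd : FiniteDimensional ℚ_[(q : ℕ)] (KP P) := finiteDimensional_fixedField_of_isOpen q hPo
  have hcl : (KP P).fixingSubgroup ≤ P := (fixingSubgroup_fixedField_of_isOpen q hPo).le
  obtain ⟨E, hE1, hE2, hE3⟩ := ConcreteUnram.concrete_unramExists (q : ℕ) hU (KP P) m hm
  haveI := hE1
  haveI := hE2
  have hfdE : FiniteDimensional ℚ_[(q : ℕ)] E := Module.Finite.trans (KP P) E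
  haveI : FiniteDimensional ℚ_[(q : ℕ)] (E.restrictScalars ℚ_[(q : ℕ)]) := hfdE
  obtain ⟨N, hN, hle⟩ := exists_mem_le_fixingSubgroup q (E.restrictScalars ℚ_[(q : ℕ)])
  refine ⟨N, hN, ?_⟩
  have hidx := index_fixing P E hcl
  rw [hE3] at hidx
  rw [← hidx]
  apply Subgroup.index_dvd_of_le
  intro g hg
  rw [Subgroup.mem_subgroupOf] at hg ⊢
  exact hle hg

variable (P : Subgroup (Gq q)) (hP : (Vq q).IsOpen P)

include hP

/-- **Levels of index divisible by `m`.** -/
theorem grow_level (hU : Blocks.UnramExists) (W : Subgroup P) (hW : (VP q P).mem W) (m : ℕ)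
    (hm : 0 < m) : ∃ W', (VP q P).mem W' ∧ W' ≤ W ∧ m ∣ W'.index := by
  obtain ⟨N, hN, hdvd⟩ := grow' q hU (toGam q P) (isOpen_of_isOpen q hP) m hm
  have hNP : (VP q P).mem (N.subgroupOf P) := ⟨N, hN, rfl⟩
  obtain ⟨W', hW', hle⟩ := (VP q P).inf hW hNP
  refine ⟨W', hW', hle.trans inf_le_left, hdvd.trans ?_⟩
  exact Subgroup.index_dvd_of_le (hle.trans inf_le_right)

end Grow

/-! ### The package -/

/-- The finite-level facts, packaged (the five hypotheses of `LM/OutGlue.fields_of_facts`). -/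
structure LevelFacts {G : Type} [Group G] (𝒰 : NBasis G) (A : Rep.{0, 0, 0} ℤ G) : Prop where
  h1 : ∀ W, 𝒰.mem W → ∀ [W.Normal] (H : Subgroup (G ⧸ W)),
    Limits.IsZero (groupCohomology (Rep.res H.subtype (A.quotientToInvariants W)) 1)
  h3 : ∀ W, 𝒰.mem W → ∀ [W.Normal], Limits.IsZero (groupCohomology (A.quotientToInvariants W) 3)
  h2card : ∀ W, 𝒰.mem W → ∀ [W.Normal],
    Nat.card (groupCohomology (A.quotientToInvariants W) 2) = W.index
  h2cyc : ∀ W, 𝒰.mem W → ∀ [W.Normal],
    IsAddCyclic (groupCohomology (A.quotientToInvariants W) 2)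
  grow : ∀ W, 𝒰.mem W → ∀ m : ℕ, 0 < m → ∃ W', 𝒰.mem W' ∧ W' ≤ W ∧ m ∣ W'.index

/-- **LM.fix**: the finite-level facts for `Ωˣ` over every open subgroup of `Γ_q`, from the closed
Props of the Local block. -/
theorem levelFacts (hC : Blocks.H2Card) (hCy : Blocks.H2Cyclic) (h3 : Reduction2.H3Vanish)
    (hU : Blocks.UnramExists) (P : Subgroup (Gq q)) (hP : (Vq q).IsOpen P) :
    LevelFacts (VP q P) (Ox q P) where
  h1 W hW _ H := h1_level q P hP W hW H
  h3 W hW _ := h3_level q P hP h3 W hW
  h2card W hW _ := h2card_level q P hP hC W hW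
  h2cyc W hW _ := h2cyc_level q P hP hCy W hW
  grow W hW m hm := grow_level q P hP hU W hW m hm

end Fermat.Agent.S55.LM.LocalLevels

end
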