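/-
S55 / LM block, final assembly (helper91): THE LOCAL FIELDS OF `BaseA (arithSite S) (ZMod p) χ_p`,
UNCONDITIONALLY.

* `facts q P hP : Out.Facts q P` for every open `P ≤ Γ_q`
  (`LocalLevels.levelFacts` + the closed Local block: `BrauerUnramFinal.h2Card/h2Cyclic/h3Vanish`,
  `UnramExistsProof.unramExists`);
* `vanish₃_loc`, `loc₂`, `loc₂_eq_one` : the literal fields `BaseA.vanish₃_loc`, `BaseA.loc₂` for
  `arithSite S`, and the sharp form `finrank H² = 1` (local `H² ≠ 0`, for `BaseA.inv`).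
-/
import Mathlib
import Fermat.Agent.S55.LM.Out
import Fermat.Agent.S55.LM.LocalLevels
import Fermat.Agent.S55.Local.BrauerUnramFinal
import Fermat.Agent.S55.Local.UnramExistsProof

set_option autoImplicit false

open CategoryTheory ExtCitation Module

namespace Fermat.Agent.S55.LM.LocalFields

open Fermat.Agent.S55.Formal Fermat.Agent.S55.Formal.PreludeLC Fermat.Agent.S55.Formal.ArithSite
open Fermat.Agent.S55.Bridge.ShapiroLC Fermat.Agent.S55.LM.Defs Fermat.Agent.S55.Local

/-- **LM.fix, unconditional**: the finite-level facts for `Ωˣ` over every open `P ≤ Γ_q`. -/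
theorem facts (q : Nat.Primes) (P : Subgroup (Gq q)) (hP : (Vq q).IsOpen P) : Out.Facts q P :=
  let F := LocalLevels.levelFacts q BrauerUnramFinal.h2Card BrauerUnramFinal.h2Cyclic
    BrauerUnramFinal.h3Vanish UnramExistsProof.unramExists P hP
  ⟨F.h1, F.h3, F.h2card, F.h2cyc, F.grow⟩

variable (p : ℕ) [Fact p.Prime]

/-- one prime: `H²(Γ_q, 𝔽_p[Γ_q/P])` is a line and `H³ = 0`, for `P` open with `χ_p` trivial. -/
theorem fields (q : Nat.Primes) (P : Subgroup (Gq q)) (hP : (Vq q).IsOpen P)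
    (hχ : TrivOn ((cycloChar p).comp (primeLocalToGlobal q)) P) :
    Module.Finite (ZMod p) (H2 (Vq q) (perm (ZMod p) P)) ∧
      finrank (ZMod p) (H2 (Vq q) (perm (ZMod p) P)) = 1 ∧ Vanish₃ (Vq q) (perm (ZMod p) P) :=
  Out.fields p q P hP hχ (facts q P hP)

variable (S : Finset Nat.Primes)

/-- **`BaseA.vanish₃_loc`** for `arithSite S`, literally. -/
theorem vanish₃_loc :
    ∀ (v : (arithSite S).I) (P : Subgroup ((arithSite S).Γ v)), ((arithSite S).𝒱 v).IsOpen P →
      TrivOn ((cycloChar p).comp ((arithSite S).ι v)) P →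
        Vanish₃ ((arithSite S).𝒱 v) (perm (ZMod p) P) :=
  Out.vanish₃_loc_arith p S facts

/-- **`BaseA.loc₂`** for `arithSite S`, literally. -/
theorem loc₂ :
    ∀ (v : (arithSite S).I) (U : Subgroup ((arithSite S).Γ v)), ((arithSite S).𝒱 v).mem U →
      TrivOn ((cycloChar p).comp ((arithSite S).ι v)) U →
        Module.Finite (ZMod p) (H2 ((arithSite S).𝒱 v) (perm (ZMod p) U)) ∧
          finrank (ZMod p) (H2 ((arithSite S).𝒱 v) (perm (ZMod p) U)) ≤ 1 :=
  Out.loc₂_arith p S facts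

/-- the sharp form (for `BaseA.inv`): the local `H²` is one-dimensional. -/
theorem loc₂_eq_one :
    ∀ (v : (arithSite S).I) (P : Subgroup ((arithSite S).Γ v)), ((arithSite S).𝒱 v).IsOpen P →
      TrivOn ((cycloChar p).comp ((arithSite S).ι v)) P →
        Module.Finite (ZMod p) (H2 ((arithSite S).𝒱 v) (perm (ZMod p) P)) ∧
          finrank (ZMod p) (H2 ((arithSite S).𝒱 v) (perm (ZMod p) P)) = 1 :=
  Out.loc₂_eq_one_arith p S facts

end Fermat.Agent.S55.LM.LocalFields
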