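/-
S55 / LM block, row (R7) of helper17's Middle routing (helper85): the LOCAL LEAF of
`ImageLevel`'s hypothesis `htors`, in LC language.

* `exists_ι₂_eq_of_nsmul_eq_zero` (abstract): for a basis `𝒰` of `G` and `A : Rep ℤ G` whose finite
  levels `H²(G ⧸ W, A^W)` are cyclic of order `[G : W]` with injective inflations, a class
  `a ∈ H²_LC(G; A)` killed by `d` comes from EVERY level `N` with `d ∣ [G : N]`.
* `exists_ι₂_eq_Ox` : the case `(VP q D, Ox q D)`, `D ≤ Γ_q`, from `Out.Facts q D`
  (only `h2card`, `h2cyc` are used; injectivity is `Iota2Inj`), and the `p ^ k` form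
  `exists_ι₂_eq_Ox_pow`.
-/
import Mathlib
import Fermat.Agent.S55.Formal.LCLevelH
import Fermat.Agent.S55.Formal.LCLevelInj
import Fermat.Agent.S55.LM.BrauerColimit
import Fermat.Agent.S55.LM.Out
import Fermat.Agent.S55.LM.Iota2Inj

set_option autoImplicit false
set_option linter.style.haveILetI false
set_option linter.unusedSectionVars false

open CategoryTheory groupCohomology

noncomputable section

namespace Fermat.Agent.S55.LM.TorsLevel

open Fermat.Agent.S55.Formal Fermat.Agent.S55.Formal.PreludeLC Fermat.Agent.S55.Bridge.ShapiroLC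
open Fermat.Agent.S55.Formal.LCLevelH Fermat.Agent.S55.Formal.LCLevelInj
open Fermat.Agent.S55.LM.Defs

section Abstract

variable {G : Type} [Group G] (𝒰 : NBasis G) (A : Rep.{0, 0, 0} ℤ G)

/-- **Torsion classes come from every sufficiently large level** (abstract form). -/
theorem exists_ι₂_eq_of_nsmul_eq_zero
    (htrans : ∀ (W V : Subgroup G) [W.Normal] [V.Normal] [Finite (G ⧸ W)] [Finite (G ⧸ V)],
      𝒰.mem W → 𝒰.mem V → ∀ h : V ≤ W, Function.Injective (trans₂ A W V h))
    (hι : ∀ (V : Subgroup G) [V.Normal] [Finite (G ⧸ V)] (hV : 𝒰.mem V),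
      Function.Injective (ι₂ 𝒰 A V hV))
    (h2card : ∀ W, 𝒰.mem W → ∀ [W.Normal],
      Nat.card (groupCohomology (A.quotientToInvariants W) 2) = W.index)
    (h2cyc : ∀ W, 𝒰.mem W → ∀ [W.Normal],
      IsAddCyclic (groupCohomology (A.quotientToInvariants W) 2))
    (N : Subgroup G) [N.Normal] [Finite (G ⧸ N)] (hN : 𝒰.mem N) {d : ℕ} (hd : d ∣ N.index)
    (a : Formal.H2 𝒰 A) (ha : d • a = 0) :
    ∃ y : groupCohomology.H2 (A.quotientToInvariants N), ι₂ 𝒰 A N hN y = a := by
  obtain ⟨V, hV, hVN, hy⟩ := exists_ι₂_eq 𝒰 A a N hN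
  haveI : V.Normal := 𝒰.normal hV
  haveI : V.FiniteIndex := 𝒰.finiteIndex hV
  haveI : Finite (G ⧸ V) := Subgroup.finite_quotient_of_finiteIndex
  obtain ⟨y, rfl⟩ := hy
  have hdy : d • y = 0 := hι V hV (by rw [map_nsmul, ha, map_zero])
  -- the finite cyclic group at level `V`
  haveI : Finite (groupCohomology.H2 (A.quotientToInvariants V)) :=
    Nat.finite_of_card_ne_zero (by
      rw [show Nat.card (groupCohomology.H2 (A.quotientToInvariants V)) = V.index from
        h2card V hV]
      exact Subgroup.FiniteIndex.index_ne_zero)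
  haveI hcycV : IsAddCyclic (groupCohomology.H2 (A.quotientToInvariants V)) := h2cyc V hV
  -- the image of level `N`
  have hinj := htrans N V hN hV hVN
  have hcardD : Nat.card (trans₂ A N V hVN).toAddMonoidHom.range = N.index := by
    rw [← h2card N hN]
    exact (Nat.card_congr (Equiv.ofInjective _ hinj)).symm
  have htopcyc : IsAddCyclic (⊤ : AddSubgroup (groupCohomology.H2 (A.quotientToInvariants V))) :=
    isAddCyclic_of_surjective AddSubgroup.topEquiv.symm.toAddMonoidHom
      AddSubgroup.topEquiv.symm.surjective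
  have hmem : y ∈ (trans₂ A N V hVN).toAddMonoidHom.range := by
    refine BrauerColimit.mem_of_nsmul_eq_zero_of_card ⊤ _ htopcyc le_top
      (AddSubgroup.mem_top y) ?_
    rw [hcardD]
    obtain ⟨e, he⟩ := hd
    rw [he, mul_comm, mul_smul, hdy, smul_zero]
  obtain ⟨y', hy'⟩ := hmem
  refine ⟨y', ?_⟩
  rw [← ι₂_trans₂ 𝒰 A N V hVN hN hV y']
  exact congrArg _ hy'

end Abstract

section Local

variable (q : Nat.Primes)

/-- **Row (R7).**  For `D ≤ Γ_q` with the finite-level facts, a class of `H²_LC(D; Ωˣ)` killed by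
`d` comes from every level `N` whose index is divisible by `d`. -/
theorem exists_ι₂_eq_Ox (D : Subgroup (Gq q)) (F : Out.Facts q D)
    (N : Subgroup D) [N.Normal] [Finite (D ⧸ N)] (hN : (VP q D).mem N) {d : ℕ}
    (hd : d ∣ N.index) (a : Formal.H2 (VP q D) (Ox q D)) (ha : d • a = 0) :
    ∃ y : groupCohomology.H2 ((Ox q D).quotientToInvariants N),
      ι₂ (VP q D) (Ox q D) N hN y = a :=
  exists_ι₂_eq_of_nsmul_eq_zero (VP q D) (Ox q D)
    (fun W V _ _ _ _ _ hV h => Iota2Inj.trans₂_injective_Ox q D W V hV h)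
    (fun V _ _ hV => Iota2Inj.ι₂_injective_Ox q D V hV)
    F.h2card F.h2cyc N hN hd a ha

/-- The `p ^ k`-form of row (R7), as a membership in the range of `ι₂`. -/
theorem mem_range_ι₂_Ox_pow (D : Subgroup (Gq q)) (F : Out.Facts q D)
    (N : Subgroup D) [N.Normal] [Finite (D ⧸ N)] (hN : (VP q D).mem N) {p k : ℕ}
    (hd : p ^ k ∣ N.index) (a : Formal.H2 (VP q D) (Ox q D)) (ha : p ^ k • a = 0) :
    a ∈ LinearMap.range (ι₂ (VP q D) (Ox q D) N hN) :=
  exists_ι₂_eq_Ox q D F N hN hd a ha

end Local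

end Fermat.Agent.S55.LM.TorsLevel
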