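/-
S55 / LM / ResTors (helper72): LOCAL TORSION DIES ON DEEP SUBGROUPS (LC version of
"`res_{D'} a = 0` as soon as the order of `a` divides `[D : N]`, `D' ≤ N`").

For `D ≤ Γ_q` carrying the finite-level facts (`Out.Facts q D`; e.g. `D` open, or `D = Dloc P q t`),
`N ∈ VP q D` (normal, finite index), `H ≤ N`:

* `res_eq_zero_of_nsmul` : `d ∣ [D : N]`, `d • a = 0` ⇒ `(resMor H (Ox q D) (VP q D)).h2 a = 0`;
* `res_eq_zero_of_pow`   : the `p ^ k` form.

(`TorsLevel.exists_ι₂_eq_Ox` (helper85): `a` comes from the level `N`; `ResKillLevel.res_ι₂_eq_zero`: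
classes of level `N` die on `H ≤ N`.)
-/
import Mathlib
import Fermat.Agent.S55.LM.TorsLevel
import Fermat.Agent.S55.Middle.ResKillLevel

set_option autoImplicit false
set_option linter.style.haveILetI false
set_option linter.unusedSectionVars false

open CategoryTheory groupCohomology

namespace Fermat.Agent.S55.LM.ResTors

open Fermat.Agent.S55.Formal Fermat.Agent.S55.Formal.PreludeLC Fermat.Agent.S55.Bridge.ShapiroLC
open Fermat.Agent.S55.Formal.LCLevelH Fermat.Agent.S55.LM.Defs Fermat.Agent.S55.Middle.Sylow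

noncomputable section

variable (q : Nat.Primes)

attribute [local instance] fact_q

/-- a class of `H²_LC(D; Ωˣ)` killed by `d ∣ [D : N]` dies on every subgroup `H ≤ N`. -/
theorem res_eq_zero_of_nsmul (D : Subgroup (Gq q)) (F : Out.Facts q D)
    (N : Subgroup D) [N.Normal] [Finite (D ⧸ N)] (hN : (VP q D).mem N) (H : Subgroup D)
    (hHN : H ≤ N) {d : ℕ} (hd : d ∣ N.index) (a : Formal.H2 (VP q D) (Ox q D))
    (ha : d • a = 0) : (resMor H (Ox q D) (VP q D)).h2 a = 0 := by
  obtain ⟨y, rfl⟩ := TorsLevel.exists_ι₂_eq_Ox q D F N hN hd a ha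
  exact Fermat.Agent.S55.Middle.ResKillLevel.res_ι₂_eq_zero (VP q D) (Ox q D) N hN H hHN y

/-- the `p ^ k` form. -/
theorem res_eq_zero_of_pow (D : Subgroup (Gq q)) (F : Out.Facts q D)
    (N : Subgroup D) [N.Normal] [Finite (D ⧸ N)] (hN : (VP q D).mem N) (H : Subgroup D)
    (hHN : H ≤ N) {p k : ℕ} (hd : p ^ k ∣ N.index) (a : Formal.H2 (VP q D) (Ox q D))
    (ha : p ^ k • a = 0) : (resMor H (Ox q D) (VP q D)).h2 a = 0 :=
  res_eq_zero_of_nsmul q D F N hN H hHN hd a ha

end

end Fermat.Agent.S55.LM.ResTors
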